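import Fermat.Agent.S53.Good

set_option autoImplicit false

open GaloisRep IsLocalRing

namespace Fermat.Agent.S53

/-- The residue field is an Artinian test algebra. -/
theorem testAlg_residueField (𝒪 : Type) [CommRing 𝒪] [IsLocalRing 𝒪] :
    IsArtinianTestAlgebra 𝒪 (ResidueField 𝒪) where
  isLocalHom := by
    rw [IsLocalRing.ResidueField.algebraMap_eq]
    infer_instance
  residue_surjective := by
    intro x
    obtain ⟨y, rfl⟩ := IsLocalRing.residue_surjective x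
    obtain ⟨a, rfl⟩ := IsLocalRing.residue_surjective y
    exact ⟨a, rfl⟩
  isArtinian := inferInstance

namespace Setup

variable {𝒪 : Type} [CommRing 𝒪] [IsLocalRing 𝒪] {ρbar : ResidualGaloisRep (ResidueField 𝒪)}
  {S : Setup 𝒪 ρbar}

variable {𝒟 : ∀ ⦃A : Type⦄ [CommRing A] [IsLocalRing A] [Algebra 𝒪 A], GaloisRepAdic A → Prop}

/-- The matrix representation of `ρbar` in the basis of the setup. -/
noncomputable def barRep (S : Setup 𝒪 ρbar) : MRep (ResidueField 𝒪) :=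
  MRep.ofBasis (GaloisRepAdic.ofResidualGaloisRep ρbar) S.b

theorem barRep_m (S : Setup 𝒪 ρbar) : S.barRep.m = barMat ρbar S.b := rfl

theorem isNRep_barRep (S : Setup 𝒪 ρbar) :
    S.IsNRep (matOf (evalHom (𝒪 := 𝒪) S.barRep.m)) := by
  rw [matOf_evalHom, barRep_m]
  exact S.isNRep_barMat

theorem isLiftFn_barRep (S : Setup 𝒪 ρbar) :
    S.IsLiftFn (matOf (evalHom (𝒪 := 𝒪) S.barRep.m)) := by
  rw [matOf_evalHom, barRep_m]
  intro g i j
  rw [IsLocalRing.ResidueField.algebraMap_eq, S.hτ, sub_self]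
  exact Ideal.zero_mem _

theorem cont_barRep (S : Setup 𝒪 ρbar) :
    ∃ L : IntermediateField ℚ (AlgebraicClosure ℚ), FiniteDimensional ℚ L ∧
      ∀ σ : Gal, (∀ x ∈ L, σ x = x) → matOf (evalHom (𝒪 := 𝒪) S.barRep.m) σ = 1 := by
  obtain ⟨L, hL, h⟩ := ρbar.factorsThroughFiniteLevel
  refine ⟨L, hL, fun σ hσ => ?_⟩
  rw [matOf_evalHom, barRep_m]
  change LinearMap.toMatrix S.b S.b (ρbar.ρ σ) = 1
  rw [h σ hσ]
  exact LinearMap.toMatrix_one S.b

theorem cond_barRep (S : Setup 𝒪 ρbar) (h𝒟 : IsDeformationCondition 𝒪 𝒟)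
    (hbar : 𝒟 (GaloisRepAdic.ofResidualGaloisRep ρbar)) : 𝒟 S.barRep.toAdic :=
  h𝒟.of_isEquiv (testAlg_residueField 𝒪)
    (isEquiv_symm (MRep.isEquiv_ofBasis (GaloisRepAdic.ofResidualGaloisRep ρbar) S.b)) hbar

/-- There is a good admissible ideal (the kernel of the residual map). -/
theorem exists_good [Finite (ResidueField 𝒪)] (h𝒟 : IsDeformationCondition 𝒪 𝒟)
    (hbar : 𝒟 (GaloisRepAdic.ofResidualGaloisRep ρbar)) : ∃ i : S.PIdeal, Good 𝒟 i := by
  have : IsLocalHom (algebraMap 𝒪 (ResidueField 𝒪)) := (testAlg_residueField 𝒪).isLocalHom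
  exact ⟨_, good_ofHom h𝒟 (testAlg_residueField 𝒪) S.barRep S.isNRep_barRep S.isLiftFn_barRep
    S.cont_barRep (S.cond_barRep h𝒟 hbar)⟩

end Setup

end Fermat.Agent.S53
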