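import Fermat.Agent.S53.MatRep

set_option autoImplicit false

namespace Fermat.Agent.S53

open IsLocalRing GaloisRep

section Artinian

variable {𝒪 : Type} [CommRing 𝒪]
  {𝒟 : ∀ ⦃A : Type⦄ [CommRing A] [IsLocalRing A] [Algebra 𝒪 A], GaloisRepAdic A → Prop}

/-- Matrix form of `IsDeformationCondition.baseChangeAlong`. -/
theorem cond_map (h𝒟 : IsDeformationCondition 𝒪 𝒟)
    {A B : Type} [CommRing A] [IsLocalRing A] [Algebra 𝒪 A]
    [CommRing B] [IsLocalRing B] [Algebra 𝒪 B]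
    (hA : IsArtinianTestAlgebra 𝒪 A) (hB : IsArtinianTestAlgebra 𝒪 B)
    (φ : A →ₐ[𝒪] B) (hφ : IsLocalHom (φ : A →+* B)) (r : MRep A) (h : 𝒟 r.toAdic) :
    𝒟 (r.map (φ : A →+* B) hφ).toAdic :=
  h𝒟.of_isEquiv hB (r.toAdic_map_isEquiv (φ : A →+* B) hφ)
    (h𝒟.baseChangeAlong hA hB φ hφ h)

/-- Matrix form of `IsDeformationCondition.of_baseChangeAlong_injective`. -/
theorem cond_of_map_injective (h𝒟 : IsDeformationCondition 𝒪 𝒟)
    {A B : Type} [CommRing A] [IsLocalRing A] [Algebra 𝒪 A]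
    [CommRing B] [IsLocalRing B] [Algebra 𝒪 B]
    (hA : IsArtinianTestAlgebra 𝒪 A) (hB : IsArtinianTestAlgebra 𝒪 B)
    (φ : A →ₐ[𝒪] B) (hφ : IsLocalHom (φ : A →+* B)) (hinj : Function.Injective φ)
    (r : MRep A) (h : 𝒟 (r.map (φ : A →+* B) hφ).toAdic) : 𝒟 r.toAdic := by
  refine h𝒟.of_baseChangeAlong_injective hA hB φ hφ hinj ?_
  obtain ⟨e⟩ := r.toAdic_map_isEquiv (φ : A →+* B) hφ
  exact h𝒟.of_isEquiv hB ⟨e.symm⟩ h

/-- The condition is invariant under conjugation (Artinian case). -/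
theorem cond_conj (h𝒟 : IsDeformationCondition 𝒪 𝒟)
    {A : Type} [CommRing A] [IsLocalRing A] [Algebra 𝒪 A]
    (hA : IsArtinianTestAlgebra 𝒪 A) (r : MRep A) (u : (Matrix (Fin 2) (Fin 2) A)ˣ) :
    𝒟 r.toAdic ↔ 𝒟 (r.conj u).toAdic := by
  constructor
  · exact h𝒟.of_isEquiv hA (r.toAdic_conj_isEquiv u)
  · obtain ⟨e⟩ := r.toAdic_conj_isEquiv u
    exact h𝒟.of_isEquiv hA ⟨e.symm⟩

/-- The condition only depends on the equivalence class (Artinian case), both directions. -/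
theorem cond_congr (h𝒟 : IsDeformationCondition 𝒪 𝒟)
    {A : Type} [CommRing A] [IsLocalRing A] [Algebra 𝒪 A]
    (hA : IsArtinianTestAlgebra 𝒪 A) {ρ ρ' : GaloisRepAdic A} (h : ρ.IsEquiv ρ') :
    𝒟 ρ ↔ 𝒟 ρ' := by
  constructor
  · exact h𝒟.of_isEquiv hA h
  · obtain ⟨e⟩ := h
    exact h𝒟.of_isEquiv hA ⟨e.symm⟩

/-- Matrix form of `IsDeformationCondition.of_fibreProduct`. -/
theorem cond_fibre (h𝒟 : IsDeformationCondition 𝒪 𝒟)
    {A B C P : Type} [CommRing A] [IsLocalRing A] [Algebra 𝒪 A]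
    [CommRing B] [IsLocalRing B] [Algebra 𝒪 B] [CommRing C] [IsLocalRing C] [Algebra 𝒪 C]
    [CommRing P] [IsLocalRing P] [Algebra 𝒪 P]
    (hA : IsArtinianTestAlgebra 𝒪 A) (hB : IsArtinianTestAlgebra 𝒪 B)
    (hC : IsArtinianTestAlgebra 𝒪 C) (hP : IsArtinianTestAlgebra 𝒪 P)
    (f : A →ₐ[𝒪] C) (g : B →ₐ[𝒪] C) (pA : P →ₐ[𝒪] A) (pB : P →ₐ[𝒪] B)
    (hpA : IsLocalHom (pA : P →+* A)) (hpB : IsLocalHom (pB : P →+* B))
    (hcomm : f.comp pA = g.comp pB)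
    (hinj : Function.Injective (fun x => (pA x, pB x)))
    (hsurj : ∀ a b, f a = g b → ∃ x, pA x = a ∧ pB x = b)
    (r : MRep P) (h1 : 𝒟 (r.map (pA : P →+* A) hpA).toAdic)
    (h2 : 𝒟 (r.map (pB : P →+* B) hpB).toAdic) : 𝒟 r.toAdic := by
  refine h𝒟.of_fibreProduct hA hB hC hP f g pA pB hpA hpB hcomm hinj hsurj ?_ ?_
  · obtain ⟨e⟩ := r.toAdic_map_isEquiv (pA : P →+* A) hpA
    exact h𝒟.of_isEquiv hA ⟨e.symm⟩ h1
  · obtain ⟨e⟩ := r.toAdic_map_isEquiv (pB : P →+* B) hpB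
    exact h𝒟.of_isEquiv hB ⟨e.symm⟩ h2

end Artinian

section Complete

variable {𝒪 : Type} [CommRing 𝒪]
  {𝒟 : ∀ ⦃A : Type⦄ [CommRing A] [IsLocalRing A] [Algebra 𝒪 A], GaloisRepAdic A → Prop}

/-- Over a complete Noetherian local algebra the condition can be tested on the matrix
representations over Artinian quotients. -/
theorem cond_iff_forall_map (h𝒟 : IsDeformationCondition 𝒪 𝒟)
    {A : Type} [CommRing A] [IsLocalRing A] [IsNoetherianRing A]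
    [IsAdicComplete (maximalIdeal A) A] [Algebra 𝒪 A]
    (hloc : IsLocalHom (algebraMap 𝒪 A))
    (hres : Function.Surjective (IsLocalRing.residue A ∘ algebraMap 𝒪 A)) (r : MRep A) :
    𝒟 r.toAdic ↔ ∀ ⦃B : Type⦄ [CommRing B] [IsLocalRing B] [Algebra 𝒪 B],
      IsArtinianTestAlgebra 𝒪 B → ∀ (q : A →ₐ[𝒪] B) (hq : IsLocalHom (q : A →+* B)),
        Function.Surjective q → 𝒟 (r.map (q : A →+* B) hq).toAdic := by
  rw [h𝒟.iff_forall_surjective hloc hres r.toAdic]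
  constructor
  · intro h B _ _ _ hB q hq hsurj
    exact h𝒟.of_isEquiv hB (r.toAdic_map_isEquiv (q : A →+* B) hq) (h hB q hq hsurj)
  · intro h B _ _ _ hB q hq hsurj
    obtain ⟨e⟩ := r.toAdic_map_isEquiv (q : A →+* B) hq
    exact h𝒟.of_isEquiv hB ⟨e.symm⟩ (h hB q hq hsurj)

/-- Over a complete Noetherian local algebra the condition only depends on the
equivalence class. -/
theorem cond_congr_complete (h𝒟 : IsDeformationCondition 𝒪 𝒟)
    {A : Type} [CommRing A] [IsLocalRing A] [IsNoetherianRing A]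
    [IsAdicComplete (maximalIdeal A) A] [Algebra 𝒪 A]
    (hloc : IsLocalHom (algebraMap 𝒪 A))
    (hres : Function.Surjective (IsLocalRing.residue A ∘ algebraMap 𝒪 A))
    {ρ ρ' : GaloisRepAdic A} (h : ρ.IsEquiv ρ') : 𝒟 ρ ↔ 𝒟 ρ' := by
  obtain ⟨e⟩ := h
  rw [h𝒟.iff_forall_surjective hloc hres ρ, h𝒟.iff_forall_surjective hloc hres ρ']
  constructor
  · intro h B _ _ _ hB q hq hsurj
    exact h𝒟.of_isEquiv hB ⟨e.baseChangeAlong (q : A →+* B) hq⟩ (h hB q hq hsurj)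
  · intro h B _ _ _ hB q hq hsurj
    exact h𝒟.of_isEquiv hB ⟨(e.baseChangeAlong (q : A →+* B) hq).symm⟩ (h hB q hq hsurj)

end Complete

end Fermat.Agent.S53
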