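import Fermat.Agent.S53.Rigid
import Fermat.Agent.S53.CondMat

set_option autoImplicit false

open GaloisRep IsLocalRing

namespace Fermat.Agent.S53

/-- An algebra hom into a local algebra whose residue field is generated by the base ring is a
local hom. -/
theorem isLocalHom_of_residue_surjective {𝒪 : Type} [CommRing 𝒪] {A B : Type} [CommRing A]
    [IsLocalRing A] [Algebra 𝒪 A] [CommRing B] [IsLocalRing B] [Algebra 𝒪 B]
    (hB : Function.Surjective (residue B ∘ algebraMap 𝒪 B)) (ψ : A →ₐ[𝒪] B) :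
    IsLocalHom (ψ : A →+* B) := by
  have hsurj : Function.Surjective ((residue B).comp (ψ : A →+* B)) := by
    intro y
    obtain ⟨a, ha⟩ := hB y
    refine ⟨algebraMap 𝒪 A a, ?_⟩
    rw [RingHom.comp_apply, RingHom.coe_coe, AlgHom.commutes]
    exact ha
  have hmax : (RingHom.ker ((residue B).comp (ψ : A →+* B))).IsMaximal :=
    RingHom.ker_isMaximal_of_surjective _ hsurj
  have hker := IsLocalRing.eq_maximalIdeal hmax
  refine ⟨fun x hx => ?_⟩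
  by_contra hnu
  have hxm : x ∈ maximalIdeal A := hnu
  rw [← hker, RingHom.mem_ker, RingHom.comp_apply, IsLocalRing.residue_eq_zero_iff] at hxm
  exact hxm hx

namespace Setup

variable {𝒪 : Type} [CommRing 𝒪] [IsLocalRing 𝒪] {ρbar : ResidualGaloisRep (ResidueField 𝒪)}
  {S : Setup 𝒪 ρbar}
variable {𝒟 : ∀ ⦃A : Type⦄ [CommRing A] [IsLocalRing A] [Algebra 𝒪 A], GaloisRepAdic A → Prop}

section general

variable {B : Type} [CommRing B] [IsLocalRing B] [Algebra 𝒪 B]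

omit [IsLocalRing B] in
theorem isNRep_of_algHom (i : S.PIdeal) (ψ : Poly 𝒪 ⧸ i.a →ₐ[𝒪] B) :
    S.IsNRep (matOf (ψ.comp i.q)) :=
  (S.relSet_iff _).1 fun p hp => by
    rw [AlgHom.comp_apply, Ideal.Quotient.mkₐ_eq_mk, Ideal.Quotient.eq_zero_iff_mem.2 (i.rel p hp),
      map_zero]

theorem isLiftFn_of_algHom (i : S.PIdeal) (ψ : Poly 𝒪 ⧸ i.a →ₐ[𝒪] B)
    (hψ : IsLocalHom (ψ : Poly 𝒪 ⧸ i.a →+* B)) : S.IsLiftFn (matOf (ψ.comp i.q)) := by
  intro g a b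
  have h1 : i.q (MvPolynomial.X (g, a, b)) - algebraMap 𝒪 (Poly 𝒪 ⧸ i.a) (S.τ g a b) ∈
      maximalIdeal (Poly 𝒪 ⧸ i.a) := by
    rw [PIdeal.mem_maximalIdeal_iff, map_sub, PIdeal.res_q, AlgHom.commutes, eps, evalHom_X,
      IsLocalRing.ResidueField.algebraMap_eq, S.hτ, sub_self]
  have h2 : (ψ : Poly 𝒪 ⧸ i.a →+* B) (i.q (MvPolynomial.X (g, a, b)) -
      algebraMap 𝒪 (Poly 𝒪 ⧸ i.a) (S.τ g a b)) ∈ maximalIdeal B :=
    map_nonunit (ψ : Poly 𝒪 ⧸ i.a →+* B) _ h1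
  rw [RingHom.coe_coe, map_sub, AlgHom.commutes] at h2
  exact h2

theorem rep_map_m (i : S.PIdeal) (ψ : Poly 𝒪 ⧸ i.a →ₐ[𝒪] B)
    (hψ : IsLocalHom (ψ : Poly 𝒪 ⧸ i.a →+* B)) :
    (i.rep.map (ψ : Poly 𝒪 ⧸ i.a →+* B) hψ).m = matOf (ψ.comp i.q) := by
  funext g
  ext a b
  rfl

end general

/-- (T1) the number of homs from a good quotient to the dual numbers is uniformly bounded. -/
theorem exists_card_bound_algHom [Finite (ResidueField 𝒪)] (h𝒟 : IsDeformationCondition 𝒪 𝒟)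
    (hfin : TangentFinite 𝒪 ρbar 𝒟) :
    ∃ T : ℕ, ∀ i : S.PIdeal, Good 𝒟 i → letI := dualAlg 𝒪
      ∀ s : Finset (Poly 𝒪 ⧸ i.a →ₐ[𝒪] DualNumber (ResidueField 𝒪)), s.card ≤ T := by
  let _ := dualAlg 𝒪
  let algk : Algebra (ResidueField 𝒪) (ResidueField (DualNumber (ResidueField 𝒪))) :=
    ((IsLocalRing.residue (DualNumber (ResidueField 𝒪))).comp
      (algebraMap (ResidueField 𝒪) (DualNumber (ResidueField 𝒪)))).toAlgebra
  let st : Setoid {ρ : GaloisRepAdic (DualNumber (ResidueField 𝒪)) //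
      𝒟 ρ ∧ ρ.residual.IsEquiv (ρbar.baseChange (ResidueField (DualNumber (ResidueField 𝒪))))} :=
    ⟨fun ρ ρ' => ρ.1.IsEquiv ρ'.1, ⟨fun ρ => ⟨GaloisRepAdic.Equiv.refl ρ.1⟩,
        fun ⟨e⟩ => ⟨e.symm⟩, fun ⟨e⟩ ⟨e'⟩ => ⟨e.trans e'⟩⟩⟩
  have hfin' : Finite (Quotient st) := hfin
  refine ⟨Nat.card (Quotient st), fun i hi s => ?_⟩
  have hD := isArtinianTestAlgebra_dualNumber 𝒪
  have hDloc : IsLocalHom (algebraMap 𝒪 (DualNumber (ResidueField 𝒪))) := hD.isLocalHom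
  have hloc : ∀ ψ : Poly 𝒪 ⧸ i.a →ₐ[𝒪] DualNumber (ResidueField 𝒪),
      IsLocalHom (ψ : Poly 𝒪 ⧸ i.a →+* DualNumber (ResidueField 𝒪)) :=
    fun ψ => isLocalHom_of_residue_surjective hD.residue_surjective ψ
  have hcond : ∀ ψ : Poly 𝒪 ⧸ i.a →ₐ[𝒪] DualNumber (ResidueField 𝒪),
      𝒟 (i.rep.map (ψ : Poly 𝒪 ⧸ i.a →+* DualNumber (ResidueField 𝒪)) (hloc ψ)).toAdic :=
    fun ψ => cond_map h𝒟 i.testAlg hD ψ (hloc ψ) i.rep hi
  have hj : ∀ c : ResidueField 𝒪,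
      IsLocalRing.ResidueField.map (algebraMap 𝒪 (DualNumber (ResidueField 𝒪))) c =
        ((IsLocalRing.residue (DualNumber (ResidueField 𝒪))).comp
          (algebraMap (ResidueField 𝒪) (DualNumber (ResidueField 𝒪)))) c := by
    intro c
    obtain ⟨t, rfl⟩ := IsLocalRing.residue_surjective c
    rw [IsLocalRing.ResidueField.map_residue]
    rfl
  have hres : ∀ ψ : Poly 𝒪 ⧸ i.a →ₐ[𝒪] DualNumber (ResidueField 𝒪),
      (i.rep.map (ψ : Poly 𝒪 ⧸ i.a →+* DualNumber (ResidueField 𝒪))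
        (hloc ψ)).toAdic.residual.IsEquiv
        (ρbar.baseChange (ResidueField (DualNumber (ResidueField 𝒪)))) := by
    intro ψ
    refine residual_isEquiv_of_lift ρbar S.b
      ((IsLocalRing.residue (DualNumber (ResidueField 𝒪))).comp
        (algebraMap (ResidueField 𝒪) (DualNumber (ResidueField 𝒪)))) _ ?_
    intro g a b
    rw [rep_map_m, matOf_apply, residue_eq_of_isLiftFn _ (isLiftFn_of_algHom i ψ (hloc ψ)), hj,
      eps, evalHom_X]
  let F : (Poly 𝒪 ⧸ i.a →ₐ[𝒪] DualNumber (ResidueField 𝒪)) → Quotient st :=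
    fun ψ => Quotient.mk st ⟨_, hcond ψ, hres ψ⟩
  have hF : Function.Injective F := by
    intro ψ ψ' h
    have h1 : (i.rep.map (ψ : Poly 𝒪 ⧸ i.a →+* DualNumber (ResidueField 𝒪))
        (hloc ψ)).toAdic.IsEquiv
        (i.rep.map (ψ' : Poly 𝒪 ⧸ i.a →+* DualNumber (ResidueField 𝒪)) (hloc ψ')).toAdic :=
      Quotient.exact h
    obtain ⟨u, hu⟩ := (MRep.toAdic_isEquiv_iff _ _).1 h1
    rw [rep_map_m, rep_map_m] at hu
    have h2 := IsNRep.eq_of_conj (isNRep_of_algHom i ψ) (isNRep_of_algHom i ψ')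
      (isLiftFn_of_algHom i ψ (hloc ψ)) (isLiftFn_of_algHom i ψ' (hloc ψ')) u hu
    have h3 : ψ.comp i.q = ψ'.comp i.q := algHom_ext_matOf h2
    apply AlgHom.ext
    intro x
    obtain ⟨p, rfl⟩ := i.q_surjective x
    exact DFunLike.congr_fun h3 p
  have hfinH : Finite (Poly 𝒪 ⧸ i.a →ₐ[𝒪] DualNumber (ResidueField 𝒪)) :=
    Finite.of_injective F hF
  have := Fintype.ofFinite (Poly 𝒪 ⧸ i.a →ₐ[𝒪] DualNumber (ResidueField 𝒪))
  calc s.card ≤ Fintype.card (Poly 𝒪 ⧸ i.a →ₐ[𝒪] DualNumber (ResidueField 𝒪)) :=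
        Finset.card_le_univ s
    _ = Nat.card (Poly 𝒪 ⧸ i.a →ₐ[𝒪] DualNumber (ResidueField 𝒪)) :=
        Nat.card_eq_fintype_card.symm
    _ ≤ Nat.card (Quotient st) := Nat.card_le_card_of_injective F hF

end Setup

end Fermat.Agent.S53
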