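import Fermat.Agent.S53.TangentAux
import Fermat.Agent.S53.TangentCount

set_option autoImplicit false

open GaloisRep IsLocalRing

namespace Fermat.Agent.S53

namespace Setup

variable {𝒪 : Type} [CommRing 𝒪] [IsLocalRing 𝒪] {ρbar : ResidualGaloisRep (ResidueField 𝒪)}
  {S : Setup 𝒪 ρbar}
variable {𝒟 : ∀ ⦃A : Type⦄ [CommRing A] [IsLocalRing A] [Algebra 𝒪 A], GaloisRepAdic A → Prop}

/-- (WP-I) finitely many elements of the kernel of `eps` generate it modulo its square, the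
maximal ideal of `𝒪` and any good ideal. -/
theorem exists_finset_gens [Finite (ResidueField 𝒪)] (h𝒟 : IsDeformationCondition 𝒪 𝒟)
    (hfin : TangentFinite 𝒪 ρbar 𝒟) (hne : ∃ i : S.PIdeal, Good 𝒟 i) :
    ∃ s : Finset (Poly 𝒪), (∀ p ∈ s, S.eps p = 0) ∧ ∀ i : S.PIdeal, Good 𝒟 i →
      RingHom.ker S.eps ≤ Ideal.span (s : Set (Poly 𝒪)) ⊔ (RingHom.ker S.eps) ^ 2 ⊔
        Ideal.map (algebraMap 𝒪 (Poly 𝒪)) (maximalIdeal 𝒪) ⊔ i.a :=
  exists_finset_gens_of_bound h𝒟 hne (exists_card_bound_algHom h𝒟 hfin)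

end Setup

end Fermat.Agent.S53
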