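import Fermat.Agent.S53.Good

set_option autoImplicit false

open GaloisRep IsLocalRing

namespace Fermat.Agent.S53

namespace Setup

variable {𝒪 : Type} [CommRing 𝒪] [IsLocalRing 𝒪] {ρbar : ResidualGaloisRep (ResidueField 𝒪)}
  {S : Setup 𝒪 ρbar}

/-- A section of the residue map sending `0` to `0`. -/
noncomputable def resLift (𝒪 : Type) [CommRing 𝒪] [IsLocalRing 𝒪] (a : ResidueField 𝒪) : 𝒪 :=
  open Classical in
  if a = 0 then 0 else Function.surjInv (IsLocalRing.residue_surjective (R := 𝒪)) a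

theorem resLift_zero : resLift 𝒪 0 = 0 := by
  simp [resLift]

theorem residue_resLift (a : ResidueField 𝒪) : residue 𝒪 (resLift 𝒪 a) = a := by
  unfold resLift
  split_ifs with h
  · rw [h, map_zero]
  · exact Function.surjInv_eq _ a

/-- Every residual matrix is the residue of a group-algebra element over `𝒪`. -/
theorem exists_finsupp_lift (habs : ρbar.IsAbsolutelyIrreducible)
    (b : Module.Basis (Fin 2) (ResidueField 𝒪) ρbar.V)
    (M : Matrix (Fin 2) (Fin 2) (ResidueField 𝒪)) :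
    ∃ x : Gal →₀ 𝒪, (x.sum fun g a => residue 𝒪 a • barMat ρbar b g) = M := by
  obtain ⟨c, hc⟩ := exists_finsupp_sum_eq ρbar habs b M
  refine ⟨c.mapRange (resLift 𝒪) resLift_zero, ?_⟩
  rw [Finsupp.sum_mapRange_index (fun g => by rw [map_zero, zero_smul])]
  rw [← hc]
  refine Finset.sum_congr rfl fun g _ => ?_
  change residue 𝒪 (resLift 𝒪 (c g)) • barMat ρbar b g = c g • barMat ρbar b g
  rw [residue_resLift]

theorem nonempty_setup (habs : ρbar.IsAbsolutelyIrreducible) : Nonempty (Setup 𝒪 ρbar) := by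
  let b : Module.Basis (Fin 2) (ResidueField 𝒪) ρbar.V :=
    Module.finBasisOfFinrankEq (ResidueField 𝒪) ρbar.V ρbar.finrank_eq
  obtain ⟨x0, hx0⟩ := exists_finsupp_lift habs b (Matrix.single 0 0 1)
  obtain ⟨x1, hx1⟩ := exists_finsupp_lift habs b (Matrix.single 1 0 1)
  exact ⟨{ b := b
           τ := fun g => Matrix.of fun i j => resLift 𝒪 (barMat ρbar b g i j)
           hτ := fun g i j => residue_resLift _
           x0 := x0
           x1 := x1
           hx0 := hx0
           hx1 := hx1 }⟩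

section lift

variable {A : Type} [CommRing A] [IsLocalRing A] [Algebra 𝒪 A] [IsLocalHom (algebraMap 𝒪 A)]

theorem isLiftFn_iff (m : Gal → Matrix (Fin 2) (Fin 2) A) :
    S.IsLiftFn m ↔ ∀ g i i', residue A (m g i i') =
      IsLocalRing.ResidueField.map (algebraMap 𝒪 A) (barMat ρbar S.b g i i') := by
  have key : ∀ g i i', (m g i i' - algebraMap 𝒪 A (S.τ g i i') ∈ maximalIdeal A ↔
      residue A (m g i i') =
        IsLocalRing.ResidueField.map (algebraMap 𝒪 A) (barMat ρbar S.b g i i')) := by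
    intro g i i'
    rw [← IsLocalRing.residue_eq_zero_iff, map_sub, sub_eq_zero, ← S.hτ,
      IsLocalRing.ResidueField.map_residue]
  exact ⟨fun h g i i' => (key g i i').1 (h g i i'), fun h g i i' => (key g i i').2 (h g i i')⟩

/-- The residue of a group-algebra element evaluated at a lift. -/
theorem residue_evx (m : Gal → Matrix (Fin 2) (Fin 2) A) (hl : S.IsLiftFn m) (x : Gal →₀ 𝒪)
    (i j : Fin 2) :
    residue A (evx x m i j) = IsLocalRing.ResidueField.map (algebraMap 𝒪 A)
      ((x.sum fun g a => residue 𝒪 a • barMat ρbar S.b g) i j) := by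
  have hl' : S.IsLiftFn (matOf (evalHom (𝒪 := 𝒪) m)) := by rw [matOf_evalHom]; exact hl
  have h1 := residue_eq_of_isLiftFn (evalHom (𝒪 := 𝒪) m) hl' (polyX x i j)
  rw [map_polyX, matOf_evalHom, map_polyX] at h1
  rw [h1, eps, matOf_evalHom, S.evx_barMat]

theorem residue_evx_x0 (m : Gal → Matrix (Fin 2) (Fin 2) A) (hl : S.IsLiftFn m) (i j : Fin 2) :
    residue A (evx S.x0 m i j) = (Matrix.single 0 0 1 : Matrix (Fin 2) (Fin 2) (ResidueField A)) i j := by
  rw [residue_evx m hl, S.hx0]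
  by_cases h : (0 : Fin 2) = i ∧ (0 : Fin 2) = j
  · rw [Matrix.single_apply, Matrix.single_apply, if_pos h, if_pos h, map_one]
  · rw [Matrix.single_apply, Matrix.single_apply, if_neg h, if_neg h, map_zero]

theorem residue_evx_x1 (m : Gal → Matrix (Fin 2) (Fin 2) A) (hl : S.IsLiftFn m) (i j : Fin 2) :
    residue A (evx S.x1 m i j) = (Matrix.single 1 0 1 : Matrix (Fin 2) (Fin 2) (ResidueField A)) i j := by
  rw [residue_evx m hl, S.hx1]
  by_cases h : (1 : Fin 2) = i ∧ (0 : Fin 2) = j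
  · rw [Matrix.single_apply, Matrix.single_apply, if_pos h, if_pos h, map_one]
  · rw [Matrix.single_apply, Matrix.single_apply, if_neg h, if_neg h, map_zero]

theorem IsNRep.eq_of_conj {m m' : Gal → Matrix (Fin 2) (Fin 2) A} (h : S.IsNRep m)
    (h' : S.IsNRep m') (hl : S.IsLiftFn m) (hl' : S.IsLiftFn m')
    (u : (Matrix (Fin 2) (Fin 2) A)ˣ) (hu : ∀ g, u.1 * m g = m' g * u.1) : m = m' := by
  have hy : u.1 * evx S.x0 m = evx S.x0 m' * u.1 := by
    rw [← evx_mul_left, ← evx_mul_right]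
    exact congrArg _ (funext hu)
  have hz : u.1 * evx S.x1 m = evx S.x1 m' * u.1 := by
    rw [← evx_mul_left, ← evx_mul_right]
    exact congrArg _ (funext hu)
  have hy00 : evx S.x0 m 0 0 - 1 ∈ maximalIdeal A := by
    rw [← IsLocalRing.residue_eq_zero_iff, map_sub, map_one, residue_evx_x0 m hl]
    simp
  have hy'11 : evx S.x0 m' 1 1 ∈ maximalIdeal A := by
    rw [← IsLocalRing.residue_eq_zero_iff, residue_evx_x0 m' hl']
    simp
  obtain ⟨h10, h01, h00⟩ := rigid (evx S.x0 m) (evx S.x0 m') (evx S.x1 m) (evx S.x1 m') u.1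
    hy hz h.n1 h'.n1 hy00 hy'11 h.n2 h.n3 h'.n2 h'.n3
  have hcomm : ∀ M : Matrix (Fin 2) (Fin 2) A, M * u.1 = u.1 * M := by
    intro M
    ext i j
    simp only [Matrix.mul_apply, Fin.sum_univ_two]
    fin_cases i <;> fin_cases j <;> simp [h10, h01, h00] <;> ring
  funext g
  have h21 : u.2 * u.1 = 1 := u.4
  calc m g = (u.2 * u.1) * m g := by rw [h21, one_mul]
    _ = u.2 * (m' g * u.1) := by rw [mul_assoc, hu g]
    _ = (u.2 * u.1) * m' g := by rw [hcomm, mul_assoc]
    _ = m' g := by rw [h21, one_mul]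

theorem exists_conj_isNRep [IsAdicComplete (maximalIdeal A) A] (r : MRep A)
    (hl : S.IsLiftFn r.m) :
    ∃ u : (Matrix (Fin 2) (Fin 2) A)ˣ, S.IsNRep (r.conj u).m ∧ S.IsLiftFn (r.conj u).m := by
  have hy00 : evx S.x0 r.m 0 0 - 1 ∈ maximalIdeal A := by
    rw [← IsLocalRing.residue_eq_zero_iff, map_sub, map_one, residue_evx_x0 r.m hl]
    simp
  have hy01 : evx S.x0 r.m 0 1 ∈ maximalIdeal A := by
    rw [← IsLocalRing.residue_eq_zero_iff, residue_evx_x0 r.m hl]
    simp
  have hy10 : evx S.x0 r.m 1 0 ∈ maximalIdeal A := by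
    rw [← IsLocalRing.residue_eq_zero_iff, residue_evx_x0 r.m hl]
    simp
  have hy11 : evx S.x0 r.m 1 1 ∈ maximalIdeal A := by
    rw [← IsLocalRing.residue_eq_zero_iff, residue_evx_x0 r.m hl]
    simp
  have hz00 : evx S.x1 r.m 0 0 ∈ maximalIdeal A := by
    rw [← IsLocalRing.residue_eq_zero_iff, residue_evx_x1 r.m hl]
    simp
  have hz10 : evx S.x1 r.m 1 0 - 1 ∈ maximalIdeal A := by
    rw [← IsLocalRing.residue_eq_zero_iff, map_sub, map_one, residue_evx_x1 r.m hl]
    simp
  obtain ⟨u, hu1, hn1, hn2, hn3⟩ :=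
    exists_normalizer (evx S.x0 r.m) (evx S.x1 r.m) hy00 hy01 hy10 hy11 hz00 hz10
  have hm : (r.conj u⁻¹).m = fun g => u.2 * r.m g * u.1 := rfl
  have hevx : ∀ x : Gal →₀ 𝒪, evx x (r.conj u⁻¹).m = u.2 * evx x r.m * u.1 := by
    intro x
    rw [hm, evx_mul_right, evx_mul_left]
  refine ⟨u⁻¹, ⟨(r.conj u⁻¹).map_one, (r.conj u⁻¹).map_mul, ?_, ?_, ?_⟩, ?_⟩
  · rw [hevx]; exact hn1
  · rw [hevx]; exact hn2
  · rw [hevx]; exact hn3
  · rw [isLiftFn_iff] at hl ⊢
    intro g i i'
    rw [← hl g i i']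
    -- entries of `u` reduce to the identity
    have hmap1 : u.1.map (residue A) = 1 := by
      ext a b
      have := hu1 a b
      rw [← IsLocalRing.residue_eq_zero_iff, Matrix.sub_apply, map_sub, sub_eq_zero] at this
      rw [Matrix.map_apply, this]
      by_cases hab : a = b
      · subst hab; simp
      · simp [hab]
    have hmap2 : u.2.map (residue A) = 1 := by
      have h21 : u.2 * u.1 = 1 := u.4
      have := congrArg (fun M : Matrix (Fin 2) (Fin 2) A => M.map (residue A)) h21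
      simp only [Matrix.map_mul, hmap1, mul_one] at this
      rw [this]
      simp
    have : ((r.conj u⁻¹).m g).map (residue A) = (r.m g).map (residue A) := by
      rw [hm]
      simp only [Matrix.map_mul, hmap1, hmap2, mul_one, one_mul]
    exact congrFun (congrFun this i) i'

end lift

end Setup

end Fermat.Agent.S53
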