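import Fermat.Agent.S53.Good
import Fermat.Agent.S53.CondMat
import Fermat.Agent.S53.Rigid

set_option autoImplicit false
set_option linter.unusedSectionVars false

open GaloisRep IsLocalRing

namespace Fermat.Agent.S53

section Trunc

variable (A : Type) [CommRing A] [IsLocalRing A]

theorem maxPow_ne_top (n : ℕ) : maximalIdeal A ^ (n + 1) ≠ ⊤ := by
  intro h
  have h1 : maximalIdeal A ^ (n + 1) ≤ maximalIdeal A := Ideal.pow_le_self (Nat.succ_ne_zero n)
  rw [h] at h1
  exact (IsLocalRing.maximalIdeal.isMaximal A).ne_top (top_le_iff.1 h1)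

instance trunc_nontrivial (n : ℕ) : Nontrivial (A ⧸ maximalIdeal A ^ (n + 1)) :=
  Ideal.Quotient.nontrivial_iff.2 (maxPow_ne_top A n)

instance trunc_isLocalRing (n : ℕ) : IsLocalRing (A ⧸ maximalIdeal A ^ (n + 1)) :=
  IsLocalRing.of_surjective' (Ideal.Quotient.mk _) Ideal.Quotient.mk_surjective

theorem isLocalHom_mk_trunc (n : ℕ) :
    IsLocalHom (Ideal.Quotient.mk (maximalIdeal A ^ (n + 1))) :=
  IsLocalHom.of_surjective _ Ideal.Quotient.mk_surjective

variable {A}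

theorem mk_trunc_mem_maximalIdeal (n : ℕ) {a : A} (ha : a ∈ maximalIdeal A) :
    Ideal.Quotient.mk (maximalIdeal A ^ (n + 1)) a ∈
      maximalIdeal (A ⧸ maximalIdeal A ^ (n + 1)) := by
  have := isLocalHom_mk_trunc A n
  exact map_nonunit (Ideal.Quotient.mk (maximalIdeal A ^ (n + 1))) a ha

variable {𝒪 : Type} [CommRing 𝒪] [IsLocalRing 𝒪] [Algebra 𝒪 A]

theorem trunc_isLocalHom_algebraMap (hloc : IsLocalHom (algebraMap 𝒪 A)) (n : ℕ) :
    IsLocalHom (algebraMap 𝒪 (A ⧸ maximalIdeal A ^ (n + 1))) := by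
  have := isLocalHom_mk_trunc A n
  have := hloc
  exact RingHom.isLocalHom_comp (Ideal.Quotient.mk (maximalIdeal A ^ (n + 1))) (algebraMap 𝒪 A)

theorem trunc_residue_surjective
    (hres : Function.Surjective (IsLocalRing.residue A ∘ algebraMap 𝒪 A)) (n : ℕ) :
    Function.Surjective (IsLocalRing.residue (A ⧸ maximalIdeal A ^ (n + 1)) ∘
      algebraMap 𝒪 (A ⧸ maximalIdeal A ^ (n + 1))) := by
  intro x
  obtain ⟨y, rfl⟩ := IsLocalRing.residue_surjective x
  obtain ⟨a, rfl⟩ := Ideal.Quotient.mk_surjective y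
  obtain ⟨c, hc⟩ := hres (IsLocalRing.residue A a)
  refine ⟨c, ?_⟩
  rw [Function.comp_apply] at hc ⊢
  rw [← sub_eq_zero, ← map_sub, IsLocalRing.residue_eq_zero_iff] at hc ⊢
  have := mk_trunc_mem_maximalIdeal n hc
  rwa [map_sub] at this

theorem finite_residueField_of_surjective [Finite (ResidueField 𝒪)]
    (hloc : IsLocalHom (algebraMap 𝒪 A))
    (hres : Function.Surjective (IsLocalRing.residue A ∘ algebraMap 𝒪 A)) :
    Finite (ResidueField A) := by
  have := hloc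
  refine Finite.of_surjective (IsLocalRing.ResidueField.map (algebraMap 𝒪 A)) ?_
  intro x
  obtain ⟨c, rfl⟩ := hres x
  exact ⟨IsLocalRing.residue 𝒪 c, by rw [IsLocalRing.ResidueField.map_residue]; rfl⟩

theorem trunc_finite [IsNoetherianRing A] [Finite (ResidueField 𝒪)]
    (hloc : IsLocalHom (algebraMap 𝒪 A))
    (hres : Function.Surjective (IsLocalRing.residue A ∘ algebraMap 𝒪 A)) (n : ℕ) :
    Finite (A ⧸ maximalIdeal A ^ (n + 1)) := by
  have : Finite (A ⧸ maximalIdeal A) := finite_residueField_of_surjective hloc hres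
  exact Ideal.finite_quotient_pow (IsNoetherian.noetherian (maximalIdeal A)) (n + 1)

theorem trunc_testAlg [IsNoetherianRing A] [Finite (ResidueField 𝒪)]
    (hloc : IsLocalHom (algebraMap 𝒪 A))
    (hres : Function.Surjective (IsLocalRing.residue A ∘ algebraMap 𝒪 A)) (n : ℕ) :
    IsArtinianTestAlgebra 𝒪 (A ⧸ maximalIdeal A ^ (n + 1)) where
  isLocalHom := trunc_isLocalHom_algebraMap hloc n
  residue_surjective := trunc_residue_surjective hres n
  isArtinian := by
    have := trunc_finite hloc hres n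
    infer_instance

end Trunc

namespace Setup

variable {𝒪 : Type} [CommRing 𝒪] [IsLocalRing 𝒪] {ρbar : ResidualGaloisRep (ResidueField 𝒪)}
  {S : Setup 𝒪 ρbar}

section LiftMap

variable {A B : Type} [CommRing A] [IsLocalRing A] [Algebra 𝒪 A]
  [CommRing B] [IsLocalRing B] [Algebra 𝒪 B]

theorem IsLiftFn.map {m : Gal → Matrix (Fin 2) (Fin 2) A} (hl : S.IsLiftFn m) (φ : A →ₐ[𝒪] B)
    (hφ : IsLocalHom (φ : A →+* B)) : S.IsLiftFn (fun g => (m g).map φ) := by
  intro g i j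
  have h1 := hl g i j
  have h2 : (m g).map φ i j - algebraMap 𝒪 B (S.τ g i j) =
      (φ : A →+* B) (m g i j - algebraMap 𝒪 A (S.τ g i j)) := by
    rw [map_sub, Matrix.map_apply]
    simp
  rw [h2]
  have := hφ
  exact map_nonunit (φ : A →+* B) _ h1

theorem evalHom_map (m : Gal → Matrix (Fin 2) (Fin 2) A) (φ : A →ₐ[𝒪] B) :
    evalHom (𝒪 := 𝒪) (fun g => (m g).map φ) = φ.comp (evalHom m) := by
  apply MvPolynomial.algHom_ext
  rintro ⟨g, i, j⟩
  simp

end LiftMap

section Level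

variable {A : Type} [CommRing A] [IsLocalRing A] [Algebra 𝒪 A]

/-- The matrix representation modulo a power of the maximal ideal. -/
noncomputable def truncRep (r : MRep A) (n : ℕ) : MRep (A ⧸ maximalIdeal A ^ (n + 1)) :=
  r.map (Ideal.Quotient.mk (maximalIdeal A ^ (n + 1))) (isLocalHom_mk_trunc A n)

theorem truncRep_m (r : MRep A) (n : ℕ) :
    (truncRep r n).m = fun g => (r.m g).map (Ideal.Quotient.mkₐ 𝒪 (maximalIdeal A ^ (n + 1))) :=
  rfl

theorem evalHom_truncRep (r : MRep A) (n : ℕ) :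
    evalHom (𝒪 := 𝒪) (truncRep r n).m =
      (Ideal.Quotient.mkₐ 𝒪 (maximalIdeal A ^ (n + 1))).comp (evalHom r.m) := by
  rw [truncRep_m (𝒪 := 𝒪), evalHom_map]

theorem evalHom_truncRep_apply (r : MRep A) (n : ℕ) (p : Poly 𝒪) :
    evalHom (𝒪 := 𝒪) (truncRep r n).m p =
      Ideal.Quotient.mk (maximalIdeal A ^ (n + 1)) (evalHom r.m p) := by
  rw [evalHom_truncRep]
  rfl

theorem isNRep_truncRep {r : MRep A} (hN : S.IsNRep r.m) (n : ℕ) :
    S.IsNRep (truncRep r n).m := by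
  rw [truncRep_m (𝒪 := 𝒪)]
  exact IsNRep.map S hN (Ideal.Quotient.mkₐ 𝒪 (maximalIdeal A ^ (n + 1)))

theorem isLiftFn_truncRep {r : MRep A} (hL : S.IsLiftFn r.m) (n : ℕ) :
    S.IsLiftFn (truncRep r n).m := by
  rw [truncRep_m (𝒪 := 𝒪)]
  exact hL.map (Ideal.Quotient.mkₐ 𝒪 (maximalIdeal A ^ (n + 1))) (isLocalHom_mk_trunc A n)

theorem truncRep_cont (r : MRep A) (n : ℕ) :
    ∃ L : IntermediateField ℚ (AlgebraicClosure ℚ), FiniteDimensional ℚ L ∧
      ∀ σ : Gal, (∀ x ∈ L, σ x = x) → (truncRep r n).m σ = 1 := by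
  obtain ⟨L, hL, h⟩ := r.cont (n + 1)
  refine ⟨L, hL, fun σ hσ => ?_⟩
  rw [← sub_eq_zero]
  ext i j
  have h1 := h σ hσ i j
  have h2 : ((truncRep r n).m σ - 1) i j =
      Ideal.Quotient.mk (maximalIdeal A ^ (n + 1)) ((r.m σ - 1) i j) := by
    by_cases hij : i = j <;> simp [truncRep, Matrix.sub_apply, hij]
  rw [h2, Ideal.Quotient.eq_zero_iff_mem.2 h1]
  rfl

variable {𝒟 : ∀ ⦃A : Type⦄ [CommRing A] [IsLocalRing A] [Algebra 𝒪 A], GaloisRepAdic A → Prop}

theorem cond_truncRep (h𝒟 : IsDeformationCondition 𝒪 𝒟) [IsNoetherianRing A]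
    [IsAdicComplete (maximalIdeal A) A] [Finite (ResidueField 𝒪)]
    (hloc : IsLocalHom (algebraMap 𝒪 A))
    (hres : Function.Surjective (IsLocalRing.residue A ∘ algebraMap 𝒪 A))
    (r : MRep A) (hD : 𝒟 r.toAdic) (n : ℕ) : 𝒟 (truncRep r n).toAdic :=
  (cond_iff_forall_map h𝒟 hloc hres r).1 hD (trunc_testAlg hloc hres n)
    (Ideal.Quotient.mkₐ 𝒪 (maximalIdeal A ^ (n + 1))) (isLocalHom_mk_trunc A n)
    Ideal.Quotient.mk_surjective

/-- The admissible ideal of level `n` attached to a normalized lift over a complete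
Noetherian local algebra: the kernel of `Poly 𝒪 → A ⧸ 𝔪 ^ (n + 1)`. -/
noncomputable def levelIdeal [IsNoetherianRing A] [Finite (ResidueField 𝒪)]
    (hloc : IsLocalHom (algebraMap 𝒪 A))
    (hres : Function.Surjective (IsLocalRing.residue A ∘ algebraMap 𝒪 A))
    (r : MRep A) (hN : S.IsNRep r.m) (hL : S.IsLiftFn r.m) (n : ℕ) : S.PIdeal :=
  haveI := trunc_finite hloc hres n
  haveI := trunc_isLocalHom_algebraMap hloc n
  PIdeal.ofHom (evalHom (truncRep r n).m)
    (by rw [matOf_evalHom]; exact isNRep_truncRep hN n)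
    (by rw [matOf_evalHom]; exact isLiftFn_truncRep hL n)
    (by rw [matOf_evalHom]; exact truncRep_cont r n)

theorem mem_levelIdeal [IsNoetherianRing A] [Finite (ResidueField 𝒪)]
    (hloc : IsLocalHom (algebraMap 𝒪 A))
    (hres : Function.Surjective (IsLocalRing.residue A ∘ algebraMap 𝒪 A))
    (r : MRep A) (hN : S.IsNRep r.m) (hL : S.IsLiftFn r.m) (n : ℕ) (p : Poly 𝒪) :
    p ∈ (levelIdeal hloc hres r hN hL n).a ↔ evalHom r.m p ∈ maximalIdeal A ^ (n + 1) := by
  change evalHom (𝒪 := 𝒪) (truncRep r n).m p = 0 ↔ _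
  rw [evalHom_truncRep_apply, Ideal.Quotient.eq_zero_iff_mem]

theorem levelIdeal_antitone [IsNoetherianRing A] [Finite (ResidueField 𝒪)]
    (hloc : IsLocalHom (algebraMap 𝒪 A))
    (hres : Function.Surjective (IsLocalRing.residue A ∘ algebraMap 𝒪 A))
    (r : MRep A) (hN : S.IsNRep r.m) (hL : S.IsLiftFn r.m) {m n : ℕ} (hmn : m ≤ n) :
    (levelIdeal hloc hres r hN hL n).a ≤ (levelIdeal hloc hres r hN hL m).a := by
  intro p hp
  rw [mem_levelIdeal] at hp ⊢
  exact Ideal.pow_le_pow_right (Nat.succ_le_succ hmn) hp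

theorem good_levelIdeal (h𝒟 : IsDeformationCondition 𝒪 𝒟) [IsNoetherianRing A]
    [IsAdicComplete (maximalIdeal A) A] [Finite (ResidueField 𝒪)]
    (hloc : IsLocalHom (algebraMap 𝒪 A))
    (hres : Function.Surjective (IsLocalRing.residue A ∘ algebraMap 𝒪 A))
    (r : MRep A) (hN : S.IsNRep r.m) (hL : S.IsLiftFn r.m) (hD : 𝒟 r.toAdic) (n : ℕ) :
    Good 𝒟 (levelIdeal hloc hres r hN hL n) := by
  have := trunc_finite hloc hres n
  have := trunc_isLocalHom_algebraMap hloc n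
  exact good_ofHom h𝒟 (trunc_testAlg hloc hres n) (truncRep r n) _ _ _
    (cond_truncRep h𝒟 hloc hres r hD n)

/-- The injection of the level-`n` quotient into `A ⧸ 𝔪 ^ (n + 1)`. -/
noncomputable def levelHom [IsNoetherianRing A] [Finite (ResidueField 𝒪)]
    (hloc : IsLocalHom (algebraMap 𝒪 A))
    (hres : Function.Surjective (IsLocalRing.residue A ∘ algebraMap 𝒪 A))
    (r : MRep A) (hN : S.IsNRep r.m) (hL : S.IsLiftFn r.m) (n : ℕ) :
    Poly 𝒪 ⧸ (levelIdeal hloc hres r hN hL n).a →ₐ[𝒪] A ⧸ maximalIdeal A ^ (n + 1) :=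
  Ideal.kerLiftAlg (evalHom (truncRep r n).m)

theorem levelHom_mk [IsNoetherianRing A] [Finite (ResidueField 𝒪)]
    (hloc : IsLocalHom (algebraMap 𝒪 A))
    (hres : Function.Surjective (IsLocalRing.residue A ∘ algebraMap 𝒪 A))
    (r : MRep A) (hN : S.IsNRep r.m) (hL : S.IsLiftFn r.m) (n : ℕ) (p : Poly 𝒪) :
    levelHom hloc hres r hN hL n (Ideal.Quotient.mk _ p) =
      Ideal.Quotient.mk (maximalIdeal A ^ (n + 1)) (evalHom r.m p) := by
  rw [← evalHom_truncRep_apply]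
  rfl

theorem levelHom_injective [IsNoetherianRing A] [Finite (ResidueField 𝒪)]
    (hloc : IsLocalHom (algebraMap 𝒪 A))
    (hres : Function.Surjective (IsLocalRing.residue A ∘ algebraMap 𝒪 A))
    (r : MRep A) (hN : S.IsNRep r.m) (hL : S.IsLiftFn r.m) (n : ℕ) :
    Function.Injective (levelHom hloc hres r hN hL n) :=
  Ideal.kerLiftAlg_injective _

end Level

section Normalize

variable {A : Type} [CommRing A] [IsLocalRing A] [Algebra 𝒪 A]
variable {𝒟 : ∀ ⦃A : Type⦄ [CommRing A] [IsLocalRing A] [Algebra 𝒪 A], GaloisRepAdic A → Prop}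

/-- Every deformation of type `𝒟` over a complete Noetherian local algebra is equivalent to a
normalized matrix lift of type `𝒟`. -/
theorem exists_normalized (S : Setup 𝒪 ρbar) (h𝒟 : IsDeformationCondition 𝒪 𝒟)
    [IsNoetherianRing A] [IsAdicComplete (maximalIdeal A) A]
    [hloc : IsLocalHom (algebraMap 𝒪 A)]
    (hres : Function.Surjective (IsLocalRing.residue A ∘ algebraMap 𝒪 A))
    (ρA : GaloisRepAdic A) (hD : 𝒟 ρA)
    (hbar : ρA.residual.IsEquiv
      (ρbar.baseChangeAlong (IsLocalRing.ResidueField.map (algebraMap 𝒪 A)))) :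
    ∃ r : MRep A, ρA.IsEquiv r.toAdic ∧ S.IsNRep r.m ∧ S.IsLiftFn r.m ∧ 𝒟 r.toAdic := by
  obtain ⟨r, hr, hlift⟩ := exists_lift_of_residual_isEquiv ρbar S.b
    (IsLocalRing.ResidueField.map (algebraMap 𝒪 A)) ρA hbar
  have hl : S.IsLiftFn r.m := (isLiftFn_iff r.m).2 hlift
  obtain ⟨u, hN, hL⟩ := exists_conj_isNRep r hl
  have he : ρA.IsEquiv (r.conj u).toAdic := isEquiv_trans hr (r.toAdic_conj_isEquiv u)
  exact ⟨r.conj u, he, hN, hL, (cond_congr_complete h𝒟 hloc hres he).1 hD⟩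

end Normalize

end Setup

section Glue

variable {𝒪 : Type} [CommRing 𝒪] {A : Type} [CommRing A] [IsLocalRing A] [Algebra 𝒪 A]
  {R : Type} [CommRing R] [Algebra 𝒪 R]

/-- Gluing a compatible system of algebra homs into the truncations of a complete local
algebra. -/
theorem exists_algHom_of_compatible [IsAdicComplete (maximalIdeal A) A]
    (f : ∀ n : ℕ, R →ₐ[𝒪] A ⧸ maximalIdeal A ^ (n + 1))
    (hf : ∀ (n : ℕ) (x : R), Ideal.Quotient.factor
      (Ideal.pow_le_pow_right (Nat.le_succ (n + 1))) (f (n + 1) x) = f n x) :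
    ∃ φ : R →ₐ[𝒪] A, ∀ (n : ℕ) (x : R),
      Ideal.Quotient.mk (maximalIdeal A ^ (n + 1)) (φ x) = f n x := by
  let g : ∀ n : ℕ, R →ₐ[𝒪] A ⧸ maximalIdeal A ^ n := fun n =>
    (Ideal.Quotient.factorₐ 𝒪 (Ideal.pow_le_pow_right (Nat.le_succ n))).comp (f n)
  have hg1 : ∀ (n : ℕ) (x : R), g (n + 1) x = f n x := by
    intro n x
    exact hf n x
  have hstep : ∀ (n : ℕ) (x : R), Ideal.Quotient.factor
      (Ideal.pow_le_pow_right (Nat.le_succ n)) (g (n + 1) x) = g n x := by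
    intro n x
    rw [hg1]
    rfl
  have hg : ∀ {m n : ℕ} (hle : m ≤ n),
      (Ideal.Quotient.factorₐ 𝒪 (Ideal.pow_le_pow_right hle)).comp (g n) = g m := by
    intro m n hle
    induction n, hle using Nat.le_induction with
    | base =>
      ext x
      obtain ⟨a, ha⟩ := Ideal.Quotient.mk_surjective (g m x)
      simp only [AlgHom.comp_apply, ← ha]
      rfl
    | succ n hmn ih =>
      ext x
      rw [← ih]
      simp only [AlgHom.comp_apply]
      rw [← hstep n x]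
      obtain ⟨a, ha⟩ := Ideal.Quotient.mk_surjective (g (n + 1) x)
      rw [← ha]
      rfl
  refine ⟨IsAdicComplete.liftAlgHom (maximalIdeal A) g hg, fun n x => ?_⟩
  rw [IsAdicComplete.mk_liftAlgHom, hg1]

end Glue

section Dense

variable {R A : Type} [CommRing R] [IsLocalRing R] [CommRing A] [IsLocalRing A]

/-- Two local homs into a Hausdorff local ring which agree on an adically dense subset are
equal. -/
theorem ringHom_ext_of_dense [IsHausdorff (maximalIdeal A) A] (φ φ' : R →+* A)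
    (hφ : IsLocalHom φ) (hφ' : IsLocalHom φ') (D : Set R)
    (hD : ∀ (x : R) (n : ℕ), ∃ p ∈ D, x - p ∈ maximalIdeal R ^ n)
    (h : ∀ p ∈ D, φ p = φ' p) : φ = φ' := by
  have hmap : ∀ (ψ : R →+* A), IsLocalHom ψ → ∀ (n : ℕ) (y : R),
      y ∈ maximalIdeal R ^ n → ψ y ∈ maximalIdeal A ^ n := by
    intro ψ hψ n y hy
    have h1 : (maximalIdeal R ^ n).map ψ ≤ maximalIdeal A ^ n := by
      rw [Ideal.map_pow]
      exact Ideal.pow_right_mono (Ideal.map_le_iff_le_comap.mpr fun a ha =>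
        Ideal.mem_comap.mpr (map_nonunit ψ a ha)) n
    exact h1 (Ideal.mem_map_of_mem ψ hy)
  ext x
  rw [← sub_eq_zero]
  apply IsHausdorff.haus' (I := maximalIdeal A) (φ x - φ' x)
  intro n
  rw [SModEq.zero, smul_eq_mul, Ideal.mul_top]
  obtain ⟨p, hp, hxp⟩ := hD x n
  have e : φ x - φ' x = φ (x - p) - φ' (x - p) := by
    rw [map_sub, map_sub, h p hp]; ring
  rw [e]
  exact Ideal.sub_mem _ (hmap φ hφ n _ hxp) (hmap φ' hφ' n _ hxp)

end Dense

end Fermat.Agent.S53
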