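import Fermat.Agent.S53.Ring
import Fermat.Agent.S53.Level
import Fermat.Agent.S53.TangentCount

set_option autoImplicit false
set_option linter.unusedSectionVars false

open GaloisRep IsLocalRing

namespace Fermat.Agent.S53

namespace Setup

variable {𝒪 : Type} [CommRing 𝒪] [IsLocalRing 𝒪] {ρbar : ResidualGaloisRep (ResidueField 𝒪)}
  {S : Setup 𝒪 ρbar}
  {𝒟 : ∀ ⦃A : Type⦄ [CommRing A] [IsLocalRing A] [Algebra 𝒪 A], GaloisRepAdic A → Prop}
  [Nonempty (S.Idx 𝒟)]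

/-- Existence of the classifying hom for a normalized matrix lift of type `𝒟`. -/
theorem exists_hom_of_normalized [Finite (ResidueField 𝒪)] (h𝒟 : IsDeformationCondition 𝒪 𝒟)
    (A : Type) [CommRing A] [IsLocalRing A] [IsNoetherianRing A]
    [IsAdicComplete (maximalIdeal A) A] [Algebra 𝒪 A] [hloc : IsLocalHom (algebraMap 𝒪 A)]
    (hres : Function.Surjective (residue A ∘ algebraMap 𝒪 A))
    (r : MRep A) (hN : S.IsNRep r.m) (hL : S.IsLiftFn r.m) (hD : 𝒟 r.toAdic) :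
    ∃ φ : S.R 𝒟 →ₐ[𝒪] A, ∀ p : Poly 𝒪, φ (S.iota 𝒟 p) = evalHom r.m p := by
  let i : ℕ → S.Idx 𝒟 := fun n =>
    ⟨levelIdeal hloc hres r hN hL n, good_levelIdeal h𝒟 hloc hres r hN hL hD n⟩
  let f : ∀ n : ℕ, S.R 𝒟 →ₐ[𝒪] A ⧸ maximalIdeal A ^ (n + 1) := fun n =>
    (levelHom hloc hres r hN hL n).comp (proj (i n))
  have hf : ∀ (n : ℕ) (x : S.R 𝒟), Ideal.Quotient.factor
      (Ideal.pow_le_pow_right (Nat.le_succ (n + 1))) (f (n + 1) x) = f n x := by
    intro n x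
    have hle : (i (n + 1)).1.a ≤ (i n).1.a :=
      levelIdeal_antitone hloc hres r hN hL (Nat.le_succ n)
    have h1 := fac_proj hle x
    obtain ⟨p, hp⟩ := Ideal.Quotient.mk_surjective (proj (i (n + 1)) x)
    have h2 : f (n + 1) x = Ideal.Quotient.mk _ (evalHom r.m p) := by
      change levelHom hloc hres r hN hL (n + 1) (proj (i (n + 1)) x) = _
      rw [← hp]
      exact levelHom_mk hloc hres r hN hL (n + 1) p
    have h3 : f n x = Ideal.Quotient.mk _ (evalHom r.m p) := by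
      change levelHom hloc hres r hN hL n (proj (i n) x) = _
      rw [← h1, ← hp]
      exact levelHom_mk hloc hres r hN hL n p
    rw [h2, h3]
    rfl
  obtain ⟨φ, hφ⟩ := exists_algHom_of_compatible f hf
  refine ⟨φ, fun p => ?_⟩
  rw [← sub_eq_zero]
  apply IsHausdorff.haus' (I := maximalIdeal A) (φ (S.iota 𝒟 p) - evalHom r.m p)
  intro n
  rw [SModEq.zero, smul_eq_mul, Ideal.mul_top]
  have h1 : Ideal.Quotient.mk (maximalIdeal A ^ (n + 1)) (φ (S.iota 𝒟 p)) =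
      Ideal.Quotient.mk (maximalIdeal A ^ (n + 1)) (evalHom r.m p) := by
    rw [hφ n]
    exact levelHom_mk hloc hres r hN hL n p
  rw [Ideal.Quotient.eq] at h1
  exact Ideal.pow_le_pow_right (Nat.le_succ n) h1

theorem exists_hom [Finite (ResidueField 𝒪)] (h𝒟 : IsDeformationCondition 𝒪 𝒟)
    (hfg : (maximalIdeal (S.R 𝒟)).FG) (A : Type) [CommRing A] [IsLocalRing A]
    [IsNoetherianRing A] [IsAdicComplete (maximalIdeal A) A] [Algebra 𝒪 A]
    [IsLocalHom (algebraMap 𝒪 A)]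
    (hres : Function.Surjective (residue A ∘ algebraMap 𝒪 A)) (ρA : GaloisRepAdic A)
    (hD : 𝒟 ρA)
    (hbar : ρA.residual.IsEquiv
      (ρbar.baseChangeAlong (IsLocalRing.ResidueField.map (algebraMap 𝒪 A)))) :
    ∃ φ : S.R 𝒟 →ₐ[𝒪] A, ∃ hφ : IsLocalHom (φ : S.R 𝒟 →+* A),
      ((univRep h𝒟 hfg).toAdic.baseChangeAlong (φ : S.R 𝒟 →+* A) hφ).IsEquiv ρA := by
  obtain ⟨r, hr, hN, hL, hDr⟩ := exists_normalized S h𝒟 hres ρA hD hbar
  obtain ⟨φ, hφ⟩ := exists_hom_of_normalized (S := S) (𝒟 := 𝒟) h𝒟 A hres r hN hL hDr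
  have hloc : IsLocalHom (φ : S.R 𝒟 →+* A) := isLocalHom_of_residue_surjective hres φ
  refine ⟨φ, hloc, ?_⟩
  have hmap : (univRep h𝒟 hfg).map (φ : S.R 𝒟 →+* A) hloc = r := by
    apply MRep.ext'
    funext g
    ext a b
    change φ (S.iota 𝒟 (MvPolynomial.X (g, a, b))) = r.m g a b
    rw [hφ, evalHom_X]
  have h1 := (univRep h𝒟 hfg).toAdic_map_isEquiv (φ : S.R 𝒟 →+* A) hloc
  rw [hmap] at h1
  exact isEquiv_trans h1 (isEquiv_symm hr)

end Setup

end Fermat.Agent.S53
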