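import Fermat.Agent.S53.Ring
import Fermat.Agent.S53.Rigid

set_option autoImplicit false

open GaloisRep IsLocalRing

namespace Fermat.Agent.S53

namespace Setup

variable {𝒪 : Type} [CommRing 𝒪] [IsLocalRing 𝒪] {ρbar : ResidualGaloisRep (ResidueField 𝒪)}
  {S : Setup 𝒪 ρbar}
  {𝒟 : ∀ ⦃A : Type⦄ [CommRing A] [IsLocalRing A] [Algebra 𝒪 A], GaloisRepAdic A → Prop}
  [Nonempty (S.Idx 𝒟)]

/-- The residues of the universal matrix entries. -/
theorem residue_univRep (h𝒟 : IsDeformationCondition 𝒪 𝒟) (hfg : (maximalIdeal (S.R 𝒟)).FG)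
    (g : Gal) (i i' : Fin 2) :
    haveI := isLocalHom_algebraMap_R (S := S) (𝒟 := 𝒟)
    residue (S.R 𝒟) ((univRep h𝒟 hfg).m g i i') =
      IsLocalRing.ResidueField.map (algebraMap 𝒪 (S.R 𝒟)) (barMat ρbar S.b g i i') := by
  haveI := isLocalHom_algebraMap_R (S := S) (𝒟 := 𝒟)
  rw [univRep_m]
  exact (isLiftFn_iff (matOf (S.iota 𝒟))).1 isLiftFn_iota g i i'

theorem univRep_residual (h𝒟 : IsDeformationCondition 𝒪 𝒟) (hfg : (maximalIdeal (S.R 𝒟)).FG) :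
    haveI := isLocalHom_algebraMap_R (S := S) (𝒟 := 𝒟)
    (univRep h𝒟 hfg).toAdic.residual.IsEquiv
      (ρbar.baseChangeAlong (IsLocalRing.ResidueField.map (algebraMap 𝒪 (S.R 𝒟)))) := by
  haveI := isLocalHom_algebraMap_R (S := S) (𝒟 := 𝒟)
  exact residual_isEquiv_of_lift ρbar S.b (IsLocalRing.ResidueField.map (algebraMap 𝒪 (S.R 𝒟)))
    (univRep h𝒟 hfg) (residue_univRep h𝒟 hfg)

end Setup

end Fermat.Agent.S53
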