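import Fermat.Agent.S53.Ring
import Fermat.Agent.S53.CondMat
import Fermat.Agent.S53.TangentCount

set_option autoImplicit false

open GaloisRep IsLocalRing

namespace Fermat.Agent.S53

namespace Setup

variable {𝒪 : Type} [CommRing 𝒪] [IsLocalRing 𝒪] {ρbar : ResidualGaloisRep (ResidueField 𝒪)}
  {S : Setup 𝒪 ρbar}
  {𝒟 : ∀ ⦃A : Type⦄ [CommRing A] [IsLocalRing A] [Algebra 𝒪 A], GaloisRepAdic A → Prop}
  [Nonempty (S.Idx 𝒟)]

/-- Every Artinian quotient of the universal ring factors through a good finite quotient of the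
polynomial ring, and the pushed-forward universal representation satisfies the condition. -/
theorem cond_univRep_map (h𝒟 : IsDeformationCondition 𝒪 𝒟) (hfg : (maximalIdeal (S.R 𝒟)).FG)
    {B : Type} [CommRing B] [IsLocalRing B] [Algebra 𝒪 B] (hB : IsArtinianTestAlgebra 𝒪 B)
    (q : S.R 𝒟 →ₐ[𝒪] B) (hq : IsLocalHom (q : S.R 𝒟 →+* B)) :
    𝒟 ((univRep h𝒟 hfg).map (q : S.R 𝒟 →+* B) hq).toAdic := by
  have := hB.isArtinian
  obtain ⟨N, hN⟩ := (isArtinianRing_iff_isNilpotent_maximalIdeal B).mp inferInstance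
  obtain ⟨i, hi⟩ := exists_ker_proj_le_pow h𝒟 hfg N
  -- `q` kills `m_R ^ N`
  have hq0 : ∀ x ∈ maximalIdeal (S.R 𝒟) ^ N, q x = 0 := by
    intro x hx
    have hmap : (maximalIdeal (S.R 𝒟)).map (q : S.R 𝒟 →+* B) ≤ maximalIdeal B :=
      Ideal.map_le_iff_le_comap.mpr fun a ha =>
        Ideal.mem_comap.mpr (map_nonunit (q : S.R 𝒟 →+* B) a ha)
    have h1 : (q : S.R 𝒟 →+* B) x ∈ (maximalIdeal (S.R 𝒟) ^ N).map (q : S.R 𝒟 →+* B) :=
      Ideal.mem_map_of_mem _ hx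
    rw [Ideal.map_pow] at h1
    have h2 : (q : S.R 𝒟 →+* B) x ∈ maximalIdeal B ^ N := Ideal.pow_right_mono hmap N h1
    rw [hN] at h2
    exact h2
  let f : Poly 𝒪 →ₐ[𝒪] B := q.comp (S.iota 𝒟)
  have hle1 : i.1.a ≤ RingHom.ker f := by
    intro p hp
    rw [RingHom.mem_ker]
    refine hq0 _ (hi _ ?_)
    exact (proj_iota i p).trans (Ideal.Quotient.eq_zero_iff_mem.2 hp)
  have hle2 : RingHom.ker f ≤ RingHom.ker S.eps := by
    intro p hp
    rw [RingHom.mem_ker] at hp ⊢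
    by_contra hne
    have hu : IsUnit (S.iota 𝒟 p) := isUnit_of_resR_ne_zero _ (by rwa [resR_iota])
    have hu' : IsUnit (f p) := hu.map q
    rw [hp] at hu'
    exact not_isUnit_zero hu'
  let c : S.PIdeal := i.1.up (RingHom.ker f) hle1 hle2
  have hc : Good 𝒟 c := good_of_le h𝒟 (i := i.1) (j := c) hle1 i.2
  let φ : Poly 𝒪 ⧸ c.a →ₐ[𝒪] B := Ideal.kerLiftAlg f
  have hφ : IsLocalHom (φ : Poly 𝒪 ⧸ c.a →+* B) :=
    isLocalHom_of_residue_surjective hB.residue_surjective φ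
  have h1 : 𝒟 (c.rep.map (φ : Poly 𝒪 ⧸ c.a →+* B) hφ).toAdic :=
    cond_map h𝒟 c.testAlg hB φ hφ c.rep hc
  have hmap : c.rep.map (φ : Poly 𝒪 ⧸ c.a →+* B) hφ =
      (univRep h𝒟 hfg).map (q : S.R 𝒟 →+* B) hq := by
    apply MRep.ext'
    funext g
    ext a b
    rfl
  rw [← hmap]
  exact h1

/-- The universal representation satisfies the deformation condition. -/
theorem univRep_isOfType (h𝒟 : IsDeformationCondition 𝒪 𝒟) (hfg : (maximalIdeal (S.R 𝒟)).FG) :
    𝒟 (univRep h𝒟 hfg).toAdic := by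
  have := isNoetherianRing_R hfg
  have := isAdicComplete_R hfg
  rw [cond_iff_forall_map h𝒟 isLocalHom_algebraMap_R residue_surjective_R (univRep h𝒟 hfg)]
  intro B _ _ _ hB q hq _
  exact cond_univRep_map h𝒟 hfg hB q hq

end Setup

end Fermat.Agent.S53
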