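import Fermat.Agent.S53.Ring
import Fermat.Agent.S53.Rigid
import Fermat.Agent.S53.Level

set_option autoImplicit false

open GaloisRep IsLocalRing

namespace Fermat.Agent.S53

namespace Setup

variable {𝒪 : Type} [CommRing 𝒪] [IsLocalRing 𝒪] {ρbar : ResidualGaloisRep (ResidueField 𝒪)}
  {S : Setup 𝒪 ρbar}
  {𝒟 : ∀ ⦃A : Type⦄ [CommRing A] [IsLocalRing A] [Algebra 𝒪 A], GaloisRepAdic A → Prop}
  [Nonempty (S.Idx 𝒟)]

/-- The image of the polynomial ring is adically dense in the universal ring. -/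
theorem exists_iota_sub_mem_pow (h𝒟 : IsDeformationCondition 𝒪 𝒟)
    (hfg : (maximalIdeal (S.R 𝒟)).FG) (x : S.R 𝒟) (n : ℕ) :
    ∃ p ∈ Set.range (S.iota 𝒟), x - p ∈ maximalIdeal (S.R 𝒟) ^ n := by
  obtain ⟨i, hi⟩ := exists_ker_proj_le_pow h𝒟 hfg n
  obtain ⟨p, hp⟩ := i.1.q_surjective (proj i x)
  refine ⟨S.iota 𝒟 p, ⟨p, rfl⟩, hi _ ?_⟩
  rw [map_sub, proj_iota, hp, sub_self]

/-- The matrices of the push-forward of the universal representation. -/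
theorem univRep_map_m (h𝒟 : IsDeformationCondition 𝒪 𝒟) (hfg : (maximalIdeal (S.R 𝒟)).FG)
    {A : Type} [CommRing A] [IsLocalRing A] [Algebra 𝒪 A] (φ : S.R 𝒟 →ₐ[𝒪] A)
    (hφ : IsLocalHom (φ : S.R 𝒟 →+* A)) :
    ((univRep h𝒟 hfg).map (φ : S.R 𝒟 →+* A) hφ).m = matOf (φ.comp (S.iota 𝒟)) := by
  funext g
  ext a b
  rfl

omit [Nonempty (S.Idx 𝒟)] in
theorem isNRep_comp_iota {A : Type} [CommRing A] [Algebra 𝒪 A] (φ : S.R 𝒟 →ₐ[𝒪] A) :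
    S.IsNRep (matOf (φ.comp (S.iota 𝒟))) := by
  have e : matOf (φ.comp (S.iota 𝒟)) = fun g => (matOf (S.iota 𝒟) g).map φ :=
    funext fun g => matOf_comp _ _ g
  rw [e]
  exact IsNRep.map S isNRep_iota φ

theorem isLiftFn_comp_iota {A : Type} [CommRing A] [IsLocalRing A] [Algebra 𝒪 A]
    (φ : S.R 𝒟 →ₐ[𝒪] A) (hφ : IsLocalHom (φ : S.R 𝒟 →+* A)) :
    S.IsLiftFn (matOf (φ.comp (S.iota 𝒟))) := by
  have e : matOf (φ.comp (S.iota 𝒟)) = fun g => (matOf (S.iota 𝒟) g).map φ :=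
    funext fun g => matOf_comp _ _ g
  rw [e]
  exact isLiftFn_iota.map φ hφ

/-- (WP-M) uniqueness of the classifying hom. -/
theorem hom_unique (h𝒟 : IsDeformationCondition 𝒪 𝒟) (hfg : (maximalIdeal (S.R 𝒟)).FG)
    (A : Type) [CommRing A] [IsLocalRing A] [IsNoetherianRing A]
    [IsAdicComplete (maximalIdeal A) A] [Algebra 𝒪 A] [IsLocalHom (algebraMap 𝒪 A)]
    (φ φ' : S.R 𝒟 →ₐ[𝒪] A) (hφ : IsLocalHom (φ : S.R 𝒟 →+* A))
    (hφ' : IsLocalHom (φ' : S.R 𝒟 →+* A))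
    (h : ((univRep h𝒟 hfg).toAdic.baseChangeAlong (φ : S.R 𝒟 →+* A) hφ).IsEquiv
      ((univRep h𝒟 hfg).toAdic.baseChangeAlong (φ' : S.R 𝒟 →+* A) hφ')) : φ = φ' := by
  have h1 : ((univRep h𝒟 hfg).map (φ : S.R 𝒟 →+* A) hφ).toAdic.IsEquiv
      ((univRep h𝒟 hfg).map (φ' : S.R 𝒟 →+* A) hφ').toAdic :=
    isEquiv_trans (isEquiv_symm ((univRep h𝒟 hfg).toAdic_map_isEquiv (φ : S.R 𝒟 →+* A) hφ))
      (isEquiv_trans h ((univRep h𝒟 hfg).toAdic_map_isEquiv (φ' : S.R 𝒟 →+* A) hφ'))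
  obtain ⟨u, hu⟩ := (MRep.toAdic_isEquiv_iff _ _).1 h1
  rw [univRep_map_m, univRep_map_m] at hu
  have h2 := IsNRep.eq_of_conj (isNRep_comp_iota φ) (isNRep_comp_iota φ')
    (isLiftFn_comp_iota φ hφ) (isLiftFn_comp_iota φ' hφ') u hu
  have h3 : φ.comp (S.iota 𝒟) = φ'.comp (S.iota 𝒟) := algHom_ext_matOf h2
  have h4 : (φ : S.R 𝒟 →+* A) = (φ' : S.R 𝒟 →+* A) := by
    refine ringHom_ext_of_dense (φ : S.R 𝒟 →+* A) (φ' : S.R 𝒟 →+* A) hφ hφ'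
      (Set.range (S.iota 𝒟)) (exists_iota_sub_mem_pow h𝒟 hfg) ?_
    rintro _ ⟨p, rfl⟩
    exact DFunLike.congr_fun h3 p
  exact AlgHom.ext fun x => DFunLike.congr_fun h4 x

end Setup

end Fermat.Agent.S53
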