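import Fermat.Statements.S53

set_option autoImplicit false

namespace Fermat.Agent.S53

open IsLocalRing

/-- The absolute Galois group of `ℚ` as an abstract group. -/
abbrev Gal : Type := AlgebraicClosure ℚ ≃ₐ[ℚ] AlgebraicClosure ℚ

/-- A continuous representation `Gal → GL₂(A)` in matrix form. -/
structure MRep (A : Type) [CommRing A] [IsLocalRing A] where
  m : Gal → Matrix (Fin 2) (Fin 2) A
  map_one : m 1 = 1
  map_mul : ∀ g h, m (g * h) = m g * m h
  cont : ∀ n : ℕ, ∃ L : IntermediateField ℚ (AlgebraicClosure ℚ), FiniteDimensional ℚ L ∧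
      ∀ σ : Gal, (∀ x ∈ L, σ x = x) → ∀ i j, (m σ - 1) i j ∈ maximalIdeal A ^ n

namespace MRep

variable {A : Type} [CommRing A] [IsLocalRing A]

omit [IsLocalRing A] in
theorem mem_smul_top_of_forall_mem (I : Ideal A) (v : Fin 2 → A) (h : ∀ i, v i ∈ I) :
    v ∈ I • (⊤ : Submodule A (Fin 2 → A)) := by
  have hv : v = ∑ i, v i • (Pi.single i (1 : A) : Fin 2 → A) := by
    funext j
    simp [Finset.sum_apply, Pi.single_apply]
  rw [hv]
  exact Submodule.sum_mem _ fun i _ => Submodule.smul_mem_smul (h i) Submodule.mem_top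

/-- The `GaloisRepAdic` attached to a matrix representation (on `Fin 2 → A`). -/
noncomputable def toAdic (r : MRep A) : GaloisRepAdic A where
  V := Fin 2 → A
  finrank_eq := by simp
  ρ :=
    { toFun := fun g => Matrix.toLin' (r.m g)
      map_one' := by rw [r.map_one, Matrix.toLin'_one]; rfl
      map_mul' := fun g h => by rw [r.map_mul, Matrix.toLin'_mul]; rfl }
  isAdicContinuous := by
    intro n
    obtain ⟨L, hL, h1⟩ := r.cont n
    refine ⟨L, hL, fun σ hσ v => ?_⟩
    have hv : Matrix.toLin' (r.m σ) v - v = (r.m σ - 1).mulVec v := by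
      rw [Matrix.toLin'_apply, Matrix.sub_mulVec, Matrix.one_mulVec]
    change Matrix.toLin' (r.m σ) v - v ∈ _
    rw [hv]
    apply mem_smul_top_of_forall_mem
    intro i
    change ∑ j, (r.m σ - 1) i j * v j ∈ _
    exact Ideal.sum_mem _ fun j _ => Ideal.mul_mem_right _ _ (h1 σ hσ i j)

@[simp] theorem toAdic_ρ_apply (r : MRep A) (g : Gal) (v : Fin 2 → A) :
    r.toAdic.ρ g v = (r.m g).mulVec v := rfl

/-- Push a matrix representation forward along a local ring hom. -/
def map {B : Type} [CommRing B] [IsLocalRing B] (r : MRep A) (φ : A →+* B)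
    (hφ : IsLocalHom φ) : MRep B where
  m := fun g => (r.m g).map φ
  map_one := by rw [r.map_one]; simp
  map_mul := fun g h => by rw [r.map_mul, Matrix.map_mul]
  cont := by
    intro n
    obtain ⟨L, hL, h1⟩ := r.cont n
    refine ⟨L, hL, fun σ hσ i j => ?_⟩
    have hmap : (maximalIdeal A ^ n).map φ ≤ maximalIdeal B ^ n := by
      rw [Ideal.map_pow]
      exact Ideal.pow_right_mono (Ideal.map_le_iff_le_comap.mpr fun a ha =>
        Ideal.mem_comap.mpr (haveI := hφ; map_nonunit φ a ha)) n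
    have : ((r.m σ).map φ - 1) i j = φ ((r.m σ - 1) i j) := by
      by_cases hij : i = j <;> simp [Matrix.sub_apply, hij]
    rw [this]
    exact hmap (Ideal.mem_map_of_mem φ (h1 σ hσ i j))

@[simp] theorem map_m {B : Type} [CommRing B] [IsLocalRing B] (r : MRep A) (φ : A →+* B)
    (hφ : IsLocalHom φ) (g : Gal) : (r.map φ hφ).m g = (r.m g).map φ := rfl

/-- Conjugate a matrix representation by an invertible matrix. -/
def conj (r : MRep A) (u : (Matrix (Fin 2) (Fin 2) A)ˣ) : MRep A where
  m := fun g => u.1 * r.m g * u.2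
  map_one := by rw [r.map_one, mul_one]; exact u.3
  map_mul := fun g h => by
    rw [r.map_mul]
    have h21 : u.2 * u.1 = 1 := u.4
    calc u.1 * (r.m g * r.m h) * u.2
        = u.1 * r.m g * 1 * r.m h * u.2 := by simp [mul_assoc]
      _ = u.1 * r.m g * u.2 * (u.1 * r.m h * u.2) := by rw [← h21]; simp [mul_assoc]
  cont := by
    intro n
    obtain ⟨L, hL, h1⟩ := r.cont n
    refine ⟨L, hL, fun σ hσ i j => ?_⟩
    have h12 : u.1 * u.2 = 1 := u.3
    have : u.1 * r.m σ * u.2 - 1 = u.1 * (r.m σ - 1) * u.2 := by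
      rw [mul_sub, sub_mul, mul_one, h12]
    rw [this]
    simp only [Matrix.mul_apply]
    exact Ideal.sum_mem _ fun a _ => Ideal.mul_mem_right _ _
      (Ideal.sum_mem _ fun b _ => Ideal.mul_mem_left _ _ (h1 σ hσ b a))

@[simp] theorem conj_m (r : MRep A) (u : (Matrix (Fin 2) (Fin 2) A)ˣ) (g : Gal) :
    (r.conj u).m g = u.1 * r.m g * u.2 :=
  rfl

end MRep

/-- The `𝒪`-algebra structure on the dual numbers used in `GaloisRep.TangentFinite`. -/
@[reducible] noncomputable def dualAlg (𝒪 : Type) [CommRing 𝒪] [IsLocalRing 𝒪] :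
    Algebra 𝒪 (DualNumber (ResidueField 𝒪)) :=
  ((algebraMap (ResidueField 𝒪) (DualNumber (ResidueField 𝒪))).comp
      (algebraMap 𝒪 (ResidueField 𝒪))).toAlgebra

/-- The matrix of `ρbar` in a basis. -/
noncomputable def barMat {k : Type} [Field k] (ρbar : ResidualGaloisRep k)
    (b : Module.Basis (Fin 2) k ρbar.V) (g : Gal) : Matrix (Fin 2) (Fin 2) k :=
  LinearMap.toMatrix b b (ρbar.ρ g)

end Fermat.Agent.S53
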