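import Mathlib
import Fermat.Agent.S53.Defs

set_option autoImplicit false

namespace Fermat.Agent.S53

open scoped TensorProduct

section AlgClosed

variable {K V : Type*} [Field K] [IsAlgClosed K] [AddCommGroup V] [Module K V]
  [FiniteDimensional K V]

/-- Burnside: a subalgebra of `End_K V` without nontrivial invariant subspaces is everything
(over an algebraically closed field). -/
theorem burnside_algClosed [Nontrivial V] (A : Subalgebra K (Module.End K V))
    (hA : ∀ W : Submodule K V, (∀ a ∈ A, ∀ x ∈ W, a x ∈ W) → W = ⊥ ∨ W = ⊤) : A = ⊤ := by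
  classical
  have hsimple : IsSimpleModule A V := by
    have : Nontrivial (Submodule A V) := (Submodule.nontrivial_iff _).2 inferInstance
    refine { toIsSimpleOrder := ⟨fun W' => ?_⟩ }
    let W : Submodule K V :=
      { carrier := W'
        add_mem' := W'.add_mem
        zero_mem' := W'.zero_mem
        smul_mem' := fun c x hx => by
          have : c • x = (algebraMap K A c) • x := by
            rw [Subalgebra.smul_def]
            simp
          rw [this]
          exact W'.smul_mem _ hx }
    have hW : ∀ a ∈ A, ∀ x ∈ W, a x ∈ W := fun a ha x hx =>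
      W'.smul_mem (⟨a, ha⟩ : A) hx
    rcases hA W hW with h | h
    · left
      apply SetLike.ext
      intro x
      have := SetLike.ext_iff.mp h x
      simpa [W] using this
    · right
      apply SetLike.ext
      intro x
      have := SetLike.ext_iff.mp h x
      simpa [W] using this
  have hschur := IsSimpleModule.algebraMap_end_bijective_of_isAlgClosed (A := A) (V := V) K
  rw [eq_top_iff]
  intro g _
  let f : Module.End (Module.End A V) V :=
    { toFun := g
      map_add' := g.map_add
      map_smul' := fun e m => by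
        obtain ⟨c, rfl⟩ := hschur.2 e
        simp }
  let b := Module.finBasis K V
  obtain ⟨r, hr⟩ := jacobson_density (R := A) (M := V) f (Finset.univ.image b)
  have hgr : g = (r : Module.End K V) := by
    apply b.ext
    intro i
    have := hr (b i) (Finset.mem_image_of_mem _ (Finset.mem_univ i))
    simpa [f, Subalgebra.smul_def] using this
  rw [hgr]
  exact r.2

end AlgClosed

theorem finrank_span_image_le {k K M N : Type*} [Field k] [Field K] [Algebra k K]
    [AddCommGroup M] [Module k M] [AddCommGroup N] [Module k N] [Module K N]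
    [IsScalarTower k K N] (φ : M →ₗ[k] N) (S : Submodule k M) [FiniteDimensional k S] :
    Module.finrank K (Submodule.span K (φ '' (S : Set M))) ≤ Module.finrank k S := by
  classical
  let b := Module.finBasis k S
  have hle : Submodule.span K (φ '' (S : Set M)) ≤
      Submodule.span K (Set.range fun i => φ (b i)) := by
    rw [Submodule.span_le]
    rintro _ ⟨x, hx, rfl⟩
    have hx'' : ∑ i, (b.repr ⟨x, hx⟩ i) • (b i : M) = x := by
      have := congrArg (Subtype.val) (b.sum_repr ⟨x, hx⟩)
      simpa only [Submodule.coe_sum, Submodule.coe_smul] using this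
    rw [← hx'', map_sum]
    refine Submodule.sum_mem _ fun i _ => ?_
    rw [map_smul, ← algebraMap_smul K (b.repr ⟨x, hx⟩ i) (φ (b i))]
    exact Submodule.smul_mem _ _ (Submodule.subset_span ⟨i, rfl⟩)
  calc Module.finrank K (Submodule.span K (φ '' (S : Set M)))
      ≤ Module.finrank K (Submodule.span K (Set.range fun i => φ (b i))) := by
        have : Module.Finite K (Submodule.span K (Set.range fun i => φ (b i))) :=
          FiniteDimensional.span_of_finite K (Set.finite_range _)
        exact Submodule.finrank_mono hle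
    _ ≤ Fintype.card (Fin (Module.finrank k S)) := finrank_range_le_card _
    _ = Module.finrank k S := Fintype.card_fin _

theorem span_range_baseChange_eq_top {k : Type} [Field k] (ρ : ResidualGaloisRep k)
    (h : ρ.IsAbsolutelyIrreducible) :
    Submodule.span (AlgebraicClosure k)
      (Set.range fun σ => (ρ.ρ σ).baseChange (AlgebraicClosure k)) =
      (⊤ : Submodule (AlgebraicClosure k)
        (Module.End (AlgebraicClosure k) (AlgebraicClosure k ⊗[k] ρ.V))) := by
  classical
  have h' : ∀ W : Submodule (AlgebraicClosure k) (AlgebraicClosure k ⊗[k] ρ.V),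
      (∀ σ, ∀ x ∈ W, (ρ.ρ σ).baseChange (AlgebraicClosure k) x ∈ W) → W = ⊥ ∨ W = ⊤ := h
  have hfr : Module.finrank (AlgebraicClosure k) (AlgebraicClosure k ⊗[k] ρ.V) = 2 := by
    rw [Module.finrank_baseChange, ρ.finrank_eq]
  have : Nontrivial (AlgebraicClosure k ⊗[k] ρ.V) := by
    apply Module.nontrivial_of_finrank_pos (R := AlgebraicClosure k)
    rw [hfr]; norm_num
  let ρ' : (AlgebraicClosure ℚ ≃ₐ[ℚ] AlgebraicClosure ℚ) →*
      Module.End (AlgebraicClosure k) (AlgebraicClosure k ⊗[k] ρ.V) :=
    { toFun := fun σ => (ρ.ρ σ).baseChange (AlgebraicClosure k)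
      map_one' := by rw [map_one, LinearMap.baseChange_one]
      map_mul' := fun σ τ => by rw [map_mul, LinearMap.baseChange_mul] }
  have hA' : Algebra.adjoin (AlgebraicClosure k) (Set.range ρ') = ⊤ := by
    apply burnside_algClosed
    intro W hW
    exact h' W (fun σ x hx => hW (ρ' σ) (Algebra.subset_adjoin ⟨σ, rfl⟩) x hx)
  have h1 := Algebra.adjoin_eq_span (AlgebraicClosure k) (Set.range ρ')
  have h2 : (Submonoid.closure (Set.range ρ') : Set (Module.End (AlgebraicClosure k)
      (AlgebraicClosure k ⊗[k] ρ.V))) = Set.range ρ' := by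
    rw [← MonoidHom.coe_mrange, Submonoid.closure_eq]
  rw [h2, hA'] at h1
  show Submodule.span (AlgebraicClosure k) (Set.range ρ') = ⊤
  rw [← h1]
  simp

theorem span_range_eq_top {k : Type} [Field k] (ρ : ResidualGaloisRep k)
    (h : ρ.IsAbsolutelyIrreducible) :
    Submodule.span k (Set.range ρ.ρ) = (⊤ : Submodule k (Module.End k ρ.V)) := by
  classical
  have hspan' := span_range_baseChange_eq_top ρ h
  let φ : Module.End k ρ.V →ₗ[k] Module.End (AlgebraicClosure k) (AlgebraicClosure k ⊗[k] ρ.V) :=
    LinearMap.baseChangeHom k (AlgebraicClosure k) ρ.V ρ.V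
  let S : Submodule k (Module.End k ρ.V) := Submodule.span k (Set.range ρ.ρ)
  have hsub : (Set.range fun σ => (ρ.ρ σ).baseChange (AlgebraicClosure k)) ⊆
      φ '' (S : Set (Module.End k ρ.V)) := by
    rintro _ ⟨σ, rfl⟩
    exact ⟨ρ.ρ σ, Submodule.subset_span ⟨σ, rfl⟩, rfl⟩
  have htop : Submodule.span (AlgebraicClosure k) (φ '' (S : Set (Module.End k ρ.V))) = ⊤ := by
    rw [eq_top_iff, ← hspan']
    exact Submodule.span_mono hsub
  have hle := finrank_span_image_le (K := AlgebraicClosure k) (M := Module.End k ρ.V)
    (N := Module.End (AlgebraicClosure k) (AlgebraicClosure k ⊗[k] ρ.V)) φ S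
  rw [htop, finrank_top] at hle
  have hfr : Module.finrank (AlgebraicClosure k) (AlgebraicClosure k ⊗[k] ρ.V) = 2 := by
    rw [Module.finrank_baseChange, ρ.finrank_eq]
  have hK : Module.finrank (AlgebraicClosure k)
      (Module.End (AlgebraicClosure k) (AlgebraicClosure k ⊗[k] ρ.V)) = 4 := by
    have := Module.finrank_linearMap (AlgebraicClosure k) (AlgebraicClosure k)
      (AlgebraicClosure k ⊗[k] ρ.V) (AlgebraicClosure k ⊗[k] ρ.V)
    rw [hfr] at this
    exact this
  have hk : Module.finrank k (Module.End k ρ.V) = 4 := by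
    have := Module.finrank_linearMap k k ρ.V ρ.V
    rw [ρ.finrank_eq] at this
    exact this
  rw [hK] at hle
  have h4 : Module.finrank k S = 4 :=
    le_antisymm (by have := Submodule.finrank_le S; rw [hk] at this; exact this) hle
  exact Submodule.eq_top_of_finrank_eq (h4.trans hk.symm)

/-- Matrix form of Burnside: every `2 × 2` matrix over `k` is a finite `k`-linear combination of
the matrices `barMat ρ b g`. -/
theorem exists_finsupp_sum_eq {k : Type} [Field k] (ρ : ResidualGaloisRep k)
    (h : ρ.IsAbsolutelyIrreducible) (b : Module.Basis (Fin 2) k ρ.V)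
    (M : Matrix (Fin 2) (Fin 2) k) :
    ∃ c : Gal →₀ k, (c.sum fun g a => a • barMat ρ b g) = M := by
  classical
  have hmem : (LinearMap.toMatrix b b).symm M ∈ Submodule.span k (Set.range ρ.ρ) := by
    rw [span_range_eq_top ρ h]
    exact Submodule.mem_top
  obtain ⟨c, hc⟩ := Finsupp.mem_span_range_iff_exists_finsupp.mp hmem
  refine ⟨c, ?_⟩
  have := congrArg (LinearMap.toMatrix b b) hc
  rw [LinearEquiv.apply_symm_apply, map_finsuppSum] at this
  rw [← this]
  simp only [map_smul]
  rfl

end Fermat.Agent.S53
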