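import Mathlib

set_option autoImplicit false

namespace Fermat.Agent.S53

section CompactRing

variable {R : Type} [CommRing R] [TopologicalSpace R] [IsTopologicalRing R] [CompactSpace R]
  [T2Space R]

theorem isClosed_of_fg_ideal (I : Ideal R) (hI : I.FG) : IsClosed (I : Set R) :=
  (Ideal.isCompact_of_fg hI).isClosed

theorem iInf_sup_pow_le_of_fg (J : Ideal R) (hJ : J.FG) (hJ0 : ⨅ n : ℕ, J ^ n = ⊥)
    (𝔮 : Ideal R) (h𝔮 : 𝔮.FG) : ⨅ n : ℕ, (𝔮 ⊔ J ^ n) ≤ 𝔮 := by
  obtain ⟨s, rfl⟩ := h𝔮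
  intro f hf
  let F : (s → R) → R := fun a => f - ∑ i : s, a i * (i : R)
  have hF : Continuous F := by fun_prop
  let C : ℕ → Set (s → R) := fun n => F ⁻¹' ((J ^ n : Ideal R) : Set R)
  have hCcl : ∀ n, IsClosed (C n) := fun n =>
    (isClosed_of_fg_ideal _ (hJ.pow (n := n))).preimage hF
  have hCne : ∀ n, (C n).Nonempty := by
    intro n
    have hfn : f ∈ Ideal.span (s : Set R) ⊔ J ^ n := (Ideal.mem_iInf.mp hf) n
    obtain ⟨q, hq, j, hj, rfl⟩ := Submodule.mem_sup.mp hfn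
    obtain ⟨a, ha⟩ := (Submodule.mem_span_finset' (s := s) (x := q)).mp hq
    refine ⟨a, ?_⟩
    change q + j - ∑ i : s, a i * (i : R) ∈ J ^ n
    have hsum : ∑ i : s, a i * (i : R) = q := by
      rw [← ha]
      rfl
    rw [hsum]
    simpa using hj
  have hCanti : ∀ n, C (n + 1) ⊆ C n := fun n a ha =>
    Ideal.pow_le_pow_right (Nat.le_succ n) ha
  obtain ⟨a, ha⟩ := IsCompact.nonempty_iInter_of_sequence_nonempty_isCompact_isClosed C hCanti hCne
    (hCcl 0).isCompact hCcl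
  have hmem : F a ∈ ⨅ n : ℕ, J ^ n := Ideal.mem_iInf.mpr fun n => Set.mem_iInter.mp ha n
  rw [hJ0] at hmem
  have hF0 : f = ∑ i : s, a i * (i : R) := sub_eq_zero.mp hmem
  rw [hF0]
  exact Ideal.sum_mem _ fun i _ => Ideal.mul_mem_left _ _ (Ideal.subset_span i.2)

theorem isAdicComplete_of_compact (J : Ideal R) (hJ : J.FG) (hJ0 : ⨅ n : ℕ, J ^ n = ⊥) :
    IsAdicComplete J R := by
  have hpow : ∀ n : ℕ, (J ^ n • (⊤ : Submodule R R) : Submodule R R) = J ^ n := fun n => by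
    simp
  refine { toIsHausdorff := ⟨?_⟩, toIsPrecomplete := ⟨?_⟩ }
  · intro x hx
    have hmem : x ∈ ⨅ n : ℕ, J ^ n := by
      refine Ideal.mem_iInf.mpr fun n => ?_
      have := hx n
      rw [SModEq.zero, hpow] at this
      exact this
    rw [hJ0] at hmem
    exact hmem
  · intro f hf
    let C : ℕ → Set R := fun n => (fun y => y - f n) ⁻¹' ((J ^ n : Ideal R) : Set R)
    have hCcl : ∀ n, IsClosed (C n) := fun n =>
      (isClosed_of_fg_ideal _ (hJ.pow (n := n))).preimage (by fun_prop)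
    have hCne : ∀ n, (C n).Nonempty := fun n => ⟨f n, by simp [C]⟩
    have hCanti : ∀ n, C (n + 1) ⊆ C n := by
      intro n y hy
      have h1 : y - f (n + 1) ∈ J ^ n := Ideal.pow_le_pow_right (Nat.le_succ n) hy
      have h2 : f n - f (n + 1) ∈ J ^ n := by
        have := hf (Nat.le_succ n)
        rw [SModEq.sub_mem, hpow] at this
        exact this
      have : y - f n = (y - f (n + 1)) - (f n - f (n + 1)) := by ring
      change y - f n ∈ J ^ n
      rw [this]
      exact Ideal.sub_mem _ h1 h2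
    obtain ⟨L, hL⟩ := IsCompact.nonempty_iInter_of_sequence_nonempty_isCompact_isClosed C hCanti
      hCne (hCcl 0).isCompact hCcl
    refine ⟨L, fun n => ?_⟩
    have hLn : L - f n ∈ J ^ n := Set.mem_iInter.mp hL n
    rw [SModEq.sub_mem, hpow]
    have : f n - L = -(L - f n) := by ring
    rw [this]
    exact Ideal.neg_mem_iff _ |>.mpr hLn

end CompactRing

section CohenKaplansky

variable {A : Type} [CommRing A]

theorem exists_finset_le_span_sup_of_noetherian_quotient (x : A)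
    [IsNoetherianRing (A ⧸ Ideal.span {x})] (𝔭 : Ideal A) :
    ∃ t : Finset A, (t : Set A) ⊆ 𝔭 ∧ 𝔭 ≤ Ideal.span (t : Set A) ⊔ Ideal.span {x} := by
  classical
  have hfg : (𝔭.map (Ideal.Quotient.mk (Ideal.span {x}))).FG := IsNoetherian.noetherian _
  obtain ⟨S, hS⟩ := hfg
  have hlift : ∀ y ∈ S, ∃ p ∈ 𝔭, Ideal.Quotient.mk (Ideal.span {x}) p = y := by
    intro y hy
    have hy' : y ∈ 𝔭.map (Ideal.Quotient.mk (Ideal.span {x})) := by
      rw [← hS]; exact Submodule.subset_span hy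
    exact (Ideal.mem_map_iff_of_surjective _ Ideal.Quotient.mk_surjective).mp hy'
  choose! g hg𝔭 hg using hlift
  refine ⟨S.image g, ?_, ?_⟩
  · intro p hp
    simp only [Finset.coe_image, Set.mem_image, Finset.mem_coe] at hp
    obtain ⟨y, hy, rfl⟩ := hp
    exact hg𝔭 y hy
  · intro f hf
    have hmap : Ideal.Quotient.mk (Ideal.span {x}) f ∈
        (Ideal.span ((S.image g : Finset A) : Set A)).map (Ideal.Quotient.mk (Ideal.span {x})) := by
      rw [Ideal.map_span]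
      have himg : (Ideal.Quotient.mk (Ideal.span {x})) '' ((S.image g : Finset A) : Set A)
          = (S : Set (A ⧸ Ideal.span {x})) := by
        ext y
        simp only [Finset.coe_image, Set.mem_image, Finset.mem_coe]
        constructor
        · rintro ⟨p, ⟨z, hz, rfl⟩, rfl⟩
          rw [hg z hz]; exact hz
        · intro hy
          exact ⟨g y, ⟨y, hy, rfl⟩, hg y hy⟩
      rw [himg]
      have : Ideal.Quotient.mk (Ideal.span {x}) f ∈ 𝔭.map (Ideal.Quotient.mk (Ideal.span {x})) :=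
        Ideal.mem_map_of_mem _ hf
      rw [← hS] at this
      exact this
    obtain ⟨q, hq, hqf⟩ := (Ideal.mem_map_iff_of_surjective _ Ideal.Quotient.mk_surjective).mp hmap
    have hsub : f - q ∈ Ideal.span {x} := by
      rw [← Ideal.Quotient.eq]; exact hqf.symm
    have : f = q + (f - q) := by ring
    rw [this]
    exact Ideal.add_mem _ (Ideal.mem_sup_left hq) (Ideal.mem_sup_right hsub)

theorem isNoetherianRing_of_quotient_span_singleton (x : A)
    [IsNoetherianRing (A ⧸ Ideal.span {x})]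
    (h : ∀ 𝔮 : Ideal A, 𝔮.FG → ⨅ n : ℕ, (𝔮 ⊔ Ideal.span {x ^ n}) ≤ 𝔮) :
    IsNoetherianRing A := by
  refine IsNoetherianRing.of_prime fun 𝔭 h𝔭 => ?_
  obtain ⟨t, ht𝔭, ht⟩ := exists_finset_le_span_sup_of_noetherian_quotient x 𝔭
  have hq𝔭 : Ideal.span (t : Set A) ≤ 𝔭 := Ideal.span_le.mpr ht𝔭
  by_cases hx : x ∈ 𝔭
  · have : 𝔭 = Ideal.span (t : Set A) ⊔ Ideal.span {x} :=
      le_antisymm ht (sup_le hq𝔭 ((Ideal.span_singleton_le_iff_mem _).mpr hx))
    rw [this]
    exact Submodule.FG.sup ⟨t, rfl⟩ ⟨{x}, by simp⟩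
  · have key : ∀ n : ℕ, 𝔭 ≤ Ideal.span (t : Set A) ⊔ Ideal.span {x ^ n} := by
      intro n
      induction n with
      | zero => intro f _; simp
      | succ n ih =>
        intro f hf
        obtain ⟨q, hq, y, hy, rfl⟩ := Submodule.mem_sup.mp (ht hf)
        obtain ⟨a, rfl⟩ := Ideal.mem_span_singleton'.mp hy
        have ha𝔭 : a ∈ 𝔭 := by
          have hax : a * x ∈ 𝔭 := by
            have : a * x = (q + a * x) - q := by ring
            rw [this]
            exact Ideal.sub_mem _ hf (hq𝔭 hq)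
          exact (h𝔭.mem_or_mem hax).resolve_right hx
        obtain ⟨q', hq', z, hz, hqz⟩ := Submodule.mem_sup.mp (ih ha𝔭)
        obtain ⟨b, rfl⟩ := Ideal.mem_span_singleton'.mp hz
        have : q + a * x = (q + q' * x) + b * x ^ (n + 1) := by
          rw [← hqz]; ring
        rw [this]
        refine Ideal.add_mem _ (Ideal.mem_sup_left (Ideal.add_mem _ hq (Ideal.mul_mem_right _ _ hq')))
          (Ideal.mem_sup_right (Ideal.mem_span_singleton'.mpr ⟨b, rfl⟩))
    have hle : 𝔭 ≤ Ideal.span (t : Set A) :=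
      le_trans (le_iInf key) (h _ ⟨t, rfl⟩)
    have : 𝔭 = Ideal.span (t : Set A) := le_antisymm hle hq𝔭
    rw [this]
    exact ⟨t, rfl⟩

end CohenKaplansky

section Main

variable {R : Type} [CommRing R] [TopologicalSpace R] [IsTopologicalRing R] [CompactSpace R]
  [T2Space R]

theorem isNoetherianRing_quotient_of_sup_span (J : Ideal R) (hJ : J.FG)
    (hJ0 : ⨅ n : ℕ, J ^ n = ⊥) (s : Finset R) :
    (s : Set R) ⊆ J → ∀ 𝔠 : Ideal R, 𝔠.FG →
      IsNoetherianRing (R ⧸ (𝔠 ⊔ Ideal.span (s : Set R))) → IsNoetherianRing (R ⧸ 𝔠) := by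
  classical
  induction s using Finset.induction_on with
  | empty =>
    intro _ 𝔠 _ h
    have e : 𝔠 ⊔ Ideal.span ((∅ : Finset R) : Set R) = 𝔠 := by simp
    rw [e] at h
    exact h
  | insert a s ha ih =>
    intro hs 𝔠 h𝔠 h
    have haJ : a ∈ J := hs (by simp)
    have hsJ : (s : Set R) ⊆ J := fun y hy => hs (by simp [Finset.mem_coe.mp hy])
    have e : 𝔠 ⊔ Ideal.span ((insert a s : Finset R) : Set R)
        = (𝔠 ⊔ Ideal.span {a}) ⊔ Ideal.span (s : Set R) := by
      rw [Finset.coe_insert, Ideal.span_insert, sup_assoc]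
    rw [e] at h
    have h1 : IsNoetherianRing (R ⧸ (𝔠 ⊔ Ideal.span {a})) :=
      ih hsJ _ (Submodule.FG.sup h𝔠 ⟨{a}, by simp⟩) h
    -- Cohen–Kaplansky step for A = R ⧸ 𝔠, x = mk a
    have hmapspan : (Ideal.span {a}).map (Ideal.Quotient.mk 𝔠)
        = Ideal.span {Ideal.Quotient.mk 𝔠 a} := by
      rw [Ideal.map_span, Set.image_singleton]
    have : IsNoetherianRing ((R ⧸ 𝔠) ⧸ Ideal.span {Ideal.Quotient.mk 𝔠 a}) := by
      rw [← hmapspan]
      exact isNoetherianRing_of_ringEquiv _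
        (DoubleQuot.quotQuotEquivQuotSup 𝔠 (Ideal.span {a})).symm
    refine isNoetherianRing_of_quotient_span_singleton (Ideal.Quotient.mk 𝔠 a) ?_
    intro 𝔮 h𝔮 y hy
    obtain ⟨S, rfl⟩ := h𝔮
    set T : Finset R := S.image (Function.surjInv (Ideal.Quotient.mk_surjective (I := 𝔠))) with hT
    have hTS : (Ideal.Quotient.mk 𝔠) '' (T : Set R) = (S : Set (R ⧸ 𝔠)) := by
      ext z
      simp only [hT, Finset.coe_image, Set.mem_image, Finset.mem_coe]
      constructor
      · rintro ⟨p, ⟨w, hw, rfl⟩, rfl⟩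
        have := Function.surjInv_eq (Ideal.Quotient.mk_surjective (I := 𝔠)) w
        rw [this]; exact hw
      · intro hz
        exact ⟨_, ⟨z, hz, rfl⟩, Function.surjInv_eq (Ideal.Quotient.mk_surjective (I := 𝔠)) z⟩
    set 𝔮' : Ideal R := Ideal.span (T : Set R) ⊔ 𝔠 with h𝔮'
    have h𝔮'fg : 𝔮'.FG := Submodule.FG.sup ⟨T, rfl⟩ h𝔠
    have hmap𝔮' : 𝔮'.map (Ideal.Quotient.mk 𝔠) = Ideal.span (S : Set (R ⧸ 𝔠)) := by
      rw [h𝔮', Ideal.map_sup, Ideal.map_span, hTS, Ideal.map_quotient_self, sup_bot_eq]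
    obtain ⟨f, rfl⟩ := Ideal.Quotient.mk_surjective y
    have hfmem : f ∈ ⨅ n : ℕ, (𝔮' ⊔ J ^ n) := by
      refine Ideal.mem_iInf.mpr fun n => ?_
      have hyn : Ideal.Quotient.mk 𝔠 f ∈ Ideal.span (S : Set (R ⧸ 𝔠)) ⊔
          Ideal.span {Ideal.Quotient.mk 𝔠 a ^ n} := (Ideal.mem_iInf.mp hy) n
      have hmapn : (𝔮' ⊔ Ideal.span {a ^ n}).map (Ideal.Quotient.mk 𝔠)
          = Ideal.span (S : Set (R ⧸ 𝔠)) ⊔ Ideal.span {Ideal.Quotient.mk 𝔠 a ^ n} := by
        rw [Ideal.map_sup, hmap𝔮', Ideal.map_span, Set.image_singleton, map_pow]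
      rw [← hmapn] at hyn
      obtain ⟨g, hg, hgf⟩ :=
        (Ideal.mem_map_iff_of_surjective _ Ideal.Quotient.mk_surjective).mp hyn
      have hsub : f - g ∈ 𝔠 := by
        rw [← Ideal.Quotient.eq]; exact hgf.symm
      have hfg' : f = g + (f - g) := by ring
      rw [hfg']
      have hle : 𝔮' ⊔ Ideal.span {a ^ n} ≤ 𝔮' ⊔ J ^ n :=
        sup_le_sup_left ((Ideal.span_singleton_le_iff_mem _).mpr (Ideal.pow_mem_pow haJ n)) _
      exact Ideal.add_mem _ (hle hg) (Ideal.mem_sup_left (Ideal.mem_sup_right hsub))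
    have hf𝔮' : f ∈ 𝔮' := iInf_sup_pow_le_of_fg J hJ hJ0 𝔮' h𝔮'fg hfmem
    rw [← hmap𝔮']
    exact Ideal.mem_map_of_mem _ hf𝔮'

theorem isNoetherianRing_of_compact (J : Ideal R) (hJ : J.FG) (hJ0 : ⨅ n : ℕ, J ^ n = ⊥)
    [IsNoetherianRing (R ⧸ J)] : IsNoetherianRing R := by
  obtain ⟨s, hs⟩ := id hJ
  have hsJ : (s : Set R) ⊆ J := by
    rw [← hs]; exact Ideal.subset_span
  have h0 : IsNoetherianRing (R ⧸ ((⊥ : Ideal R) ⊔ Ideal.span (s : Set R))) := by
    have e : (⊥ : Ideal R) ⊔ Ideal.span (s : Set R) = J := by rw [bot_sup_eq]; exact hs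
    rw [e]
    infer_instance
  have h1 : IsNoetherianRing (R ⧸ (⊥ : Ideal R)) :=
    isNoetherianRing_quotient_of_sup_span J hJ hJ0 s hsJ ⊥ Submodule.fg_bot h0
  exact isNoetherianRing_of_ringEquiv _ (RingEquiv.quotientBot R)

end Main

end Fermat.Agent.S53
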