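import Fermat.Agent.S53.Defs

set_option autoImplicit false

namespace Fermat.Agent.S53

open IsLocalRing

section DualHom

variable {𝒪 : Type} [CommRing 𝒪] [IsLocalRing 𝒪] {S : Type} [CommRing S] [IsLocalRing S]
  [Algebra 𝒪 S]

/-- The section `k → S` when the structure map kills the maximal ideal. -/
noncomputable def dualSec (hπ : ∀ a ∈ maximalIdeal 𝒪, algebraMap 𝒪 S a = 0) :
    ResidueField 𝒪 →+* S :=
  Ideal.Quotient.lift (maximalIdeal 𝒪) (algebraMap 𝒪 S) hπ

omit [IsLocalRing S] in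
theorem dualSec_residue (hπ : ∀ a ∈ maximalIdeal 𝒪, algebraMap 𝒪 S a = 0) (r : 𝒪) :
    dualSec hπ (residue 𝒪 r) = algebraMap 𝒪 S r :=
  Ideal.Quotient.lift_mk _ _ _

theorem dualSec_bijective (hres : Function.Surjective (residue S ∘ algebraMap 𝒪 S))
    (hπ : ∀ a ∈ maximalIdeal 𝒪, algebraMap 𝒪 S a = 0) :
    Function.Bijective ((residue S).comp (dualSec hπ)) := by
  refine ⟨RingHom.injective _, fun y => ?_⟩
  obtain ⟨r, hr⟩ := hres y
  refine ⟨residue 𝒪 r, ?_⟩
  rw [RingHom.comp_apply, dualSec_residue]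
  exact hr

/-- The retraction `S → k`. -/
noncomputable def dualRet (hres : Function.Surjective (residue S ∘ algebraMap 𝒪 S))
    (hπ : ∀ a ∈ maximalIdeal 𝒪, algebraMap 𝒪 S a = 0) : S →+* ResidueField 𝒪 :=
  ((RingEquiv.ofBijective _ (dualSec_bijective hres hπ)).symm : _ →+* _).comp (residue S)

theorem dualRet_dualSec (hres : Function.Surjective (residue S ∘ algebraMap 𝒪 S))
    (hπ : ∀ a ∈ maximalIdeal 𝒪, algebraMap 𝒪 S a = 0) (c : ResidueField 𝒪) :
    dualRet hres hπ (dualSec hπ c) = c := by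
  show (RingEquiv.ofBijective _ (dualSec_bijective hres hπ)).symm (residue S (dualSec hπ c)) = c
  rw [RingEquiv.symm_apply_eq]
  rfl

theorem sub_dualSec_dualRet_mem (hres : Function.Surjective (residue S ∘ algebraMap 𝒪 S))
    (hπ : ∀ a ∈ maximalIdeal 𝒪, algebraMap 𝒪 S a = 0) (t : S) :
    t - dualSec hπ (dualRet hres hπ t) ∈ maximalIdeal S := by
  rw [← residue_eq_zero_iff, map_sub, sub_eq_zero]
  have h := (RingEquiv.ofBijective _ (dualSec_bijective hres hπ)).apply_symm_apply (residue S t)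
  exact h.symm

theorem dualRet_eq_zero_of_mem (hres : Function.Surjective (residue S ∘ algebraMap 𝒪 S))
    (hπ : ∀ a ∈ maximalIdeal 𝒪, algebraMap 𝒪 S a = 0) {t : S} (ht : t ∈ maximalIdeal S) :
    dualRet hres hπ t = 0 := by
  show (RingEquiv.ofBijective _ (dualSec_bijective hres hπ)).symm (residue S t) = 0
  rw [(residue_eq_zero_iff t).mpr ht, map_zero]

theorem dualRet_algebraMap (hres : Function.Surjective (residue S ∘ algebraMap 𝒪 S))
    (hπ : ∀ a ∈ maximalIdeal 𝒪, algebraMap 𝒪 S a = 0) (r : 𝒪) :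
    dualRet hres hπ (algebraMap 𝒪 S r) = residue 𝒪 r := by
  rw [← dualSec_residue hπ, dualRet_dualSec]

end DualHom

theorem exists_algHom_dualNumber_ne_zero {𝒪 : Type} [CommRing 𝒪] [IsLocalRing 𝒪] {S : Type}
    [CommRing S] [IsLocalRing S] [Algebra 𝒪 S]
    (hres : Function.Surjective (residue S ∘ algebraMap 𝒪 S))
    (hsq : ∀ x ∈ maximalIdeal S, ∀ y ∈ maximalIdeal S, x * y = 0)
    (hπ : ∀ a ∈ maximalIdeal 𝒪, algebraMap 𝒪 S a = 0) (s : S) (hs : s ≠ 0) :
    letI := dualAlg 𝒪; ∃ ψ : S →ₐ[𝒪] DualNumber (ResidueField 𝒪), ψ s ≠ 0 := by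
  let _ := dualAlg 𝒪
  let _ : Algebra (ResidueField 𝒪) S := (dualSec hπ).toAlgebra
  have hsmul : ∀ (c : ResidueField 𝒪) (t : S), c • t = dualSec hπ c * t := fun c t => rfl
  -- every linear functional vanishing at `1` gives an algebra hom
  have key : ∀ l : S →ₗ[ResidueField 𝒪] ResidueField 𝒪, l 1 = 0 →
      ∃ ψ : S →ₐ[𝒪] DualNumber (ResidueField 𝒪),
        ∀ t, (ψ t).fst = dualRet hres hπ t ∧ (ψ t).snd = l t := by
    intro l hl
    have hlsec : ∀ c : ResidueField 𝒪, l (dualSec hπ c) = 0 := by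
      intro c
      have : dualSec hπ c = c • (1 : S) := by rw [hsmul, mul_one]
      rw [this, map_smul, hl, smul_zero]
    have hlmul : ∀ t u : S, l (t * u) = dualRet hres hπ t * l u + dualRet hres hπ u * l t := by
      intro t u
      set a := dualRet hres hπ t
      set b := dualRet hres hπ u
      have hm := sub_dualSec_dualRet_mem hres hπ t
      have hn := sub_dualSec_dualRet_mem hres hπ u
      have h0 := hsq _ hm _ hn
      have htu : t * u = dualSec hπ (a * b) + a • (u - dualSec hπ b) + b • (t - dualSec hπ a) := by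
        rw [hsmul, hsmul, map_mul]
        linear_combination h0
      have hu : l u = l (u - dualSec hπ b) := by rw [map_sub, hlsec, sub_zero]
      have ht : l t = l (t - dualSec hπ a) := by rw [map_sub, hlsec, sub_zero]
      rw [htu, map_add, map_add, hlsec, map_smul, map_smul, ← hu, ← ht, zero_add]
      rfl
    refine ⟨{ toFun := fun t => TrivSqZeroExt.inl (dualRet hres hπ t) + TrivSqZeroExt.inr (l t)
              map_one' := ?_
              map_mul' := ?_
              map_zero' := ?_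
              map_add' := ?_
              commutes' := ?_ }, fun t => ⟨?_, ?_⟩⟩
    · refine TrivSqZeroExt.ext ?_ ?_
      · simp
      · simp [hl]
    · intro t u
      refine TrivSqZeroExt.ext ?_ ?_
      · simp
      · simp [hlmul, mul_comm]
    · refine TrivSqZeroExt.ext ?_ ?_
      · simp
      · simp
    · intro t u
      refine TrivSqZeroExt.ext ?_ ?_
      · simp
      · simp
    · intro r
      refine TrivSqZeroExt.ext ?_ ?_
      · show (TrivSqZeroExt.inl (dualRet hres hπ (algebraMap 𝒪 S r))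
          + TrivSqZeroExt.inr (l (algebraMap 𝒪 S r))).fst = residue 𝒪 r
        simp [dualRet_algebraMap]
      · show (TrivSqZeroExt.inl (dualRet hres hπ (algebraMap 𝒪 S r))
          + TrivSqZeroExt.inr (l (algebraMap 𝒪 S r))).snd = 0
        rw [← dualSec_residue hπ, hlsec]
        simp
    · show (TrivSqZeroExt.inl (dualRet hres hπ t) + TrivSqZeroExt.inr (l t)).fst = _
      simp
    · show (TrivSqZeroExt.inl (dualRet hres hπ t) + TrivSqZeroExt.inr (l t)).snd = _
      simp
  by_cases hsm : s ∈ maximalIdeal S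
  · -- `s` is not a scalar multiple of `1`
    have hnot : s ∉ Submodule.span (ResidueField 𝒪) {(1 : S)} := by
      intro hmem
      obtain ⟨c, hc⟩ := Submodule.mem_span_singleton.mp hmem
      rw [hsmul, mul_one] at hc
      have h1 : dualRet hres hπ s = c := by rw [← hc, dualRet_dualSec]
      rw [dualRet_eq_zero_of_mem hres hπ hsm] at h1
      rw [← h1, map_zero] at hc
      exact hs hc.symm
    obtain ⟨l, hl, hl0⟩ := Submodule.exists_dual_map_eq_bot_of_notMem hnot inferInstance
    have hl1 : l 1 = 0 := by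
      have : l 1 ∈ Submodule.map l (Submodule.span (ResidueField 𝒪) {(1 : S)}) :=
        Submodule.mem_map_of_mem (Submodule.mem_span_singleton_self 1)
      rw [hl0] at this
      exact (Submodule.mem_bot _).mp this
    obtain ⟨ψ, hψ⟩ := key l hl1
    refine ⟨ψ, fun h => hl ?_⟩
    rw [← (hψ s).2, h]
    rfl
  · obtain ⟨ψ, hψ⟩ := key 0 rfl
    refine ⟨ψ, fun h => ?_⟩
    have h1 : dualRet hres hπ s = 0 := by
      rw [← (hψ s).1, h]
      rfl
    have h2 := sub_dualSec_dualRet_mem hres hπ s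
    rw [h1, map_zero, sub_zero] at h2
    exact hsm h2

theorem isArtinianTestAlgebra_dualNumber (𝒪 : Type) [CommRing 𝒪] [IsLocalRing 𝒪]
    [Finite (ResidueField 𝒪)] :
    letI := dualAlg 𝒪; GaloisRep.IsArtinianTestAlgebra 𝒪 (DualNumber (ResidueField 𝒪)) := by
  let _ := dualAlg 𝒪
  have halg : ∀ r : 𝒪, algebraMap 𝒪 (DualNumber (ResidueField 𝒪)) r
      = TrivSqZeroExt.inl (residue 𝒪 r) := fun r => rfl
  refine ⟨⟨?_⟩, ?_, ?_⟩
  · intro a ha
    rw [halg, TrivSqZeroExt.isUnit_iff_isUnit_fst] at ha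
    exact (residue_ne_zero_iff_isUnit a).mp (IsUnit.ne_zero ha)
  · intro y
    obtain ⟨x, rfl⟩ := residue_surjective y
    obtain ⟨r, hr⟩ := residue_surjective x.fst
    refine ⟨r, ?_⟩
    show residue _ (algebraMap 𝒪 (DualNumber (ResidueField 𝒪)) r) = residue _ x
    rw [halg, hr, ← sub_eq_zero, ← map_sub, residue_eq_zero_iff, mem_maximalIdeal, mem_nonunits_iff,
      TrivSqZeroExt.isUnit_iff_isUnit_fst]
    simp
  · have : Finite (DualNumber (ResidueField 𝒪)) :=
      inferInstanceAs (Finite (ResidueField 𝒪 × ResidueField 𝒪))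
    infer_instance

end Fermat.Agent.S53
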