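import Fermat.Agent.S53.Tangent

set_option autoImplicit false

open GaloisRep IsLocalRing

namespace Fermat.Agent.S53

namespace Setup

variable {𝒪 : Type} [CommRing 𝒪] [IsLocalRing 𝒪] {ρbar : ResidualGaloisRep (ResidueField 𝒪)}
  {S : Setup 𝒪 ρbar}
variable {𝒟 : ∀ ⦃A : Type⦄ [CommRing A] [IsLocalRing A] [Algebra 𝒪 A], GaloisRepAdic A → Prop}

/-- The maximal ideal of a quotient is the image of the kernel of `eps`. -/
theorem PIdeal.map_ker_eps (i : S.PIdeal) :
    Ideal.map (Ideal.Quotient.mk i.a) (RingHom.ker S.eps) = maximalIdeal (Poly 𝒪 ⧸ i.a) := by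
  ext x
  rw [Ideal.mem_map_iff_of_surjective _ Ideal.Quotient.mk_surjective, PIdeal.mem_maximalIdeal_iff]
  constructor
  · rintro ⟨p, hp, rfl⟩
    exact hp
  · intro hx
    obtain ⟨p, rfl⟩ := Ideal.Quotient.mk_surjective x
    exact ⟨p, hx, rfl⟩

/-- Nakayama in the finite local quotient: generation modulo the square of the kernel implies
generation. -/
theorem PIdeal.ker_le_of_le_sq (i : S.PIdeal) (N : Ideal (Poly 𝒪))
    (h : RingHom.ker S.eps ≤ N ⊔ (RingHom.ker S.eps) ^ 2 ⊔ i.a) :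
    RingHom.ker S.eps ≤ N ⊔ i.a := by
  have h1 : maximalIdeal (Poly 𝒪 ⧸ i.a) ≤ Ideal.map (Ideal.Quotient.mk i.a) N ⊔
      maximalIdeal (Poly 𝒪 ⧸ i.a) • maximalIdeal (Poly 𝒪 ⧸ i.a) := by
    have h2 := Ideal.map_mono (f := Ideal.Quotient.mk i.a) h
    rw [Ideal.map_sup, Ideal.map_sup, Ideal.map_pow, i.map_ker_eps, Ideal.map_quotient_self,
      sup_bot_eq, pow_two] at h2
    exact h2
  have hfg : (maximalIdeal (Poly 𝒪 ⧸ i.a)).FG := IsNoetherian.noetherian _
  have h3 : maximalIdeal (Poly 𝒪 ⧸ i.a) ≤ Ideal.map (Ideal.Quotient.mk i.a) N :=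
    Submodule.le_of_le_smul_of_le_jacobson_bot hfg
      (IsLocalRing.maximalIdeal_le_jacobson _) h1
  rw [← i.map_ker_eps, Ideal.map_le_iff_le_comap,
    Ideal.comap_map_of_surjective _ Ideal.Quotient.mk_surjective, ← RingHom.ker_eq_comap_bot,
    Ideal.mk_ker] at h3
  exact h3

/-- One finite subset of the kernel of `eps` generates it modulo every good ideal. -/
theorem exists_finset_ker_le [Finite (ResidueField 𝒪)] [IsNoetherianRing 𝒪]
    (h𝒟 : IsDeformationCondition 𝒪 𝒟) (hfin : TangentFinite 𝒪 ρbar 𝒟)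
    (hne : ∃ i : S.PIdeal, Good 𝒟 i) :
    ∃ g : Finset (Poly 𝒪), (∀ p ∈ g, S.eps p = 0) ∧
      ∀ i : S.PIdeal, Good 𝒟 i → RingHom.ker S.eps ≤ Ideal.span (g : Set (Poly 𝒪)) ⊔ i.a := by
  classical
  obtain ⟨s, hs0, hs⟩ := exists_finset_gens h𝒟 hfin hne
  obtain ⟨t, ht⟩ : (maximalIdeal 𝒪).FG := IsNoetherian.noetherian _
  refine ⟨s ∪ t.image (algebraMap 𝒪 (Poly 𝒪)), ?_, fun i hi => ?_⟩
  · intro p hp
    rcases Finset.mem_union.1 hp with hp | hp
    · exact hs0 p hp
    · obtain ⟨a, ha, rfl⟩ := Finset.mem_image.1 hp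
      have ham : a ∈ maximalIdeal 𝒪 := by
        rw [← ht]; exact Ideal.subset_span ha
      rw [AlgHom.commutes, IsLocalRing.ResidueField.algebraMap_eq,
        IsLocalRing.residue_eq_zero_iff]
      exact ham
  · apply PIdeal.ker_le_of_le_sq
    refine (hs i hi).trans ?_
    have hN1 : Ideal.span (s : Set (Poly 𝒪)) ≤
        Ideal.span ((s ∪ t.image (algebraMap 𝒪 (Poly 𝒪)) : Finset (Poly 𝒪)) : Set (Poly 𝒪)) :=
      Ideal.span_mono (by
        intro p hp
        exact Finset.mem_coe.2 (Finset.mem_union_left _ (Finset.mem_coe.1 hp)))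
    have hN2 : Ideal.map (algebraMap 𝒪 (Poly 𝒪)) (maximalIdeal 𝒪) ≤
        Ideal.span ((s ∪ t.image (algebraMap 𝒪 (Poly 𝒪)) : Finset (Poly 𝒪)) : Set (Poly 𝒪)) := by
      rw [← ht, Ideal.map_span]
      apply Ideal.span_mono
      rintro _ ⟨a, ha, rfl⟩
      exact Finset.mem_coe.2 (Finset.mem_union_right _
        (Finset.mem_image.2 ⟨a, Finset.mem_coe.1 ha, rfl⟩))
    refine sup_le (sup_le (sup_le ?_ ?_) ?_) ?_
    · exact hN1.trans (le_sup_left.trans le_sup_left)
    · exact le_sup_right.trans le_sup_left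
    · exact hN2.trans (le_sup_left.trans le_sup_left)
    · exact le_sup_right

/-- The maximal ideal of a quotient is generated by the image of any set generating the kernel
of `eps` modulo the ideal. -/
theorem PIdeal.maximalIdeal_eq_span (i : S.PIdeal) (g : Set (Poly 𝒪))
    (hg0 : ∀ p ∈ g, S.eps p = 0) (hg : RingHom.ker S.eps ≤ Ideal.span g ⊔ i.a) :
    maximalIdeal (Poly 𝒪 ⧸ i.a) = Ideal.span (Ideal.Quotient.mk i.a '' g) := by
  rw [← Ideal.map_span, ← i.map_ker_eps]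
  apply le_antisymm
  · have h2 := Ideal.map_mono (f := Ideal.Quotient.mk i.a) hg
    rw [Ideal.map_sup, Ideal.map_quotient_self, sup_bot_eq] at h2
    exact h2
  · apply Ideal.map_mono
    rw [Ideal.span_le]
    exact fun p hp => hg0 p hp

end Setup

end Fermat.Agent.S53
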