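import Fermat.Agent.S53.Index

set_option autoImplicit false

open GaloisRep IsLocalRing

namespace Fermat.Agent.S53

theorem MRep.ext' {A : Type} [CommRing A] [IsLocalRing A] {r r' : MRep A} (h : r.m = r'.m) :
    r = r' := by
  cases r; cases r'
  simp only at h
  subst h
  rfl

theorem isUnit_of_injective_of_finite {S B : Type} [CommRing S] [CommRing B] [Finite S]
    (φ : S →+* B) (hφ : Function.Injective φ) (x : S) (hx : IsUnit (φ x)) : IsUnit x := by
  have hinj : Function.Injective (fun y : S => x * y) := by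
    intro y y' h
    apply hφ
    have h2 : φ x * φ y = φ x * φ y' := by rw [← map_mul, ← map_mul]; exact congrArg φ h
    exact hx.mul_left_cancel h2
  obtain ⟨y, hy⟩ := (Finite.injective_iff_surjective.1 hinj) 1
  exact IsUnit.of_mul_eq_one y hy

theorem isEquiv_symm {A : Type} [CommRing A] [IsLocalRing A]
    {ρ ρ' : GaloisRepAdic A} (h : ρ.IsEquiv ρ') : ρ'.IsEquiv ρ := by
  obtain ⟨e⟩ := h
  exact ⟨e.symm⟩

theorem isEquiv_trans {A : Type} [CommRing A] [IsLocalRing A]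
    {ρ ρ' ρ'' : GaloisRepAdic A} (h : ρ.IsEquiv ρ') (h' : ρ'.IsEquiv ρ'') : ρ.IsEquiv ρ'' := by
  obtain ⟨e⟩ := h
  obtain ⟨e'⟩ := h'
  exact ⟨e.trans e'⟩

namespace Setup

variable {𝒪 : Type} [CommRing 𝒪] [IsLocalRing 𝒪] {ρbar : ResidualGaloisRep (ResidueField 𝒪)}
  {S : Setup 𝒪 ρbar}

namespace PIdeal

/-- Intersection of two admissible ideals. -/
noncomputable def inf (i j : S.PIdeal) : S.PIdeal where
  a := i.a ⊓ j.a
  rel := fun p hp => ⟨i.rel p hp, j.rel p hp⟩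
  le := inf_le_left.trans i.le
  fin := by
    have hinj : Function.Injective (fun x : Poly 𝒪 ⧸ (i.a ⊓ j.a) =>
        (Ideal.Quotient.factor (inf_le_left : i.a ⊓ j.a ≤ i.a) x,
          Ideal.Quotient.factor (inf_le_right : i.a ⊓ j.a ≤ j.a) x)) := by
      intro x y h
      obtain ⟨p, rfl⟩ := Ideal.Quotient.mk_surjective x
      obtain ⟨p', rfl⟩ := Ideal.Quotient.mk_surjective y
      simp only [Ideal.Quotient.factor_mk, Prod.mk.injEq] at h
      rw [Ideal.Quotient.eq] at h ⊢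
      rw [Ideal.Quotient.eq] at h
      exact ⟨h.1, h.2⟩
    exact Finite.of_injective _ hinj
  unit := by
    intro p hp
    obtain ⟨y, hy⟩ := (i.unit p hp).exists_right_inv
    obtain ⟨y', hy'⟩ := (j.unit p hp).exists_right_inv
    obtain ⟨p', rfl⟩ := Ideal.Quotient.mk_surjective y
    obtain ⟨p'', rfl⟩ := Ideal.Quotient.mk_surjective y'
    rw [← map_mul, ← map_one (Ideal.Quotient.mk _), Ideal.Quotient.eq] at hy hy'
    refine IsUnit.of_mul_eq_one (Ideal.Quotient.mk _ (p' + p'' - p * p' * p'')) ?_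
    rw [← map_mul, ← map_one (Ideal.Quotient.mk _), Ideal.Quotient.eq]
    have e : p * (p' + p'' - p * p' * p'') - 1 = -((p * p' - 1) * (p * p'' - 1)) := by ring
    rw [e]
    exact ⟨neg_mem (Ideal.mul_mem_right _ _ hy), neg_mem (Ideal.mul_mem_left _ _ hy')⟩
  cont := by
    obtain ⟨L, hL, h⟩ := i.cont
    obtain ⟨L', hL', h'⟩ := j.cont
    refine ⟨L ⊔ L', inferInstance, fun σ hσ a b => ⟨h σ (fun x hx => hσ x ?_) a b,
      h' σ (fun x hx => hσ x ?_) a b⟩⟩
    · exact (le_sup_left : L ≤ L ⊔ L') hx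
    · exact (le_sup_right : L' ≤ L ⊔ L') hx

@[simp] theorem inf_a (i j : S.PIdeal) : (i.inf j).a = i.a ⊓ j.a := rfl

/-- Enlarging an admissible ideal inside the kernel of the residual map. -/
noncomputable def up (i : S.PIdeal) (c : Ideal (Poly 𝒪)) (hic : i.a ≤ c)
    (hc : c ≤ RingHom.ker S.eps) : S.PIdeal where
  a := c
  rel := fun p hp => hic (i.rel p hp)
  le := hc
  fin := Finite.of_surjective (Ideal.Quotient.factor hic) (Ideal.Quotient.factor_surjective hic)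
  unit := fun p hp => by
    have := (i.unit p hp).map (Ideal.Quotient.factor hic)
    rwa [Ideal.Quotient.factor_mk] at this
  cont := by
    obtain ⟨L, hL, h⟩ := i.cont
    exact ⟨L, hL, fun σ hσ a b => hic (h σ hσ a b)⟩

@[simp] theorem up_a (i : S.PIdeal) (c : Ideal (Poly 𝒪)) (hic : i.a ≤ c)
    (hc : c ≤ RingHom.ker S.eps) : (i.up c hic hc).a = c := rfl

/-- The transition map between quotients. -/
noncomputable def fac {i j : S.PIdeal} (h : i.a ≤ j.a) : Poly 𝒪 ⧸ i.a →ₐ[𝒪] Poly 𝒪 ⧸ j.a :=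
  Ideal.Quotient.factorₐ 𝒪 h

@[simp] theorem fac_q {i j : S.PIdeal} (h : i.a ≤ j.a) (p : Poly 𝒪) : fac h (i.q p) = j.q p := rfl

@[simp] theorem fac_mk {i j : S.PIdeal} (h : i.a ≤ j.a) (p : Poly 𝒪) :
    fac h (Ideal.Quotient.mk i.a p) = Ideal.Quotient.mk j.a p := rfl

theorem fac_surjective {i j : S.PIdeal} (h : i.a ≤ j.a) : Function.Surjective (fac h) :=
  Ideal.Quotient.factor_surjective h

theorem res_fac {i j : S.PIdeal} (h : i.a ≤ j.a) (x : Poly 𝒪 ⧸ i.a) : j.res (fac h x) = i.res x := by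
  obtain ⟨p, rfl⟩ := i.q_surjective x
  rfl

theorem isLocalHom_fac {i j : S.PIdeal} (h : i.a ≤ j.a) :
    IsLocalHom (fac h : Poly 𝒪 ⧸ i.a →+* Poly 𝒪 ⧸ j.a) := by
  refine ⟨fun x hx => i.isUnit_of_res_ne_zero x ?_⟩
  have : IsUnit (j.res (fac h x)) := hx.map j.res
  rw [res_fac] at this
  exact this.ne_zero

theorem rep_map_fac {i j : S.PIdeal} (h : i.a ≤ j.a) :
    i.rep.map (fac h : Poly 𝒪 ⧸ i.a →+* Poly 𝒪 ⧸ j.a) (isLocalHom_fac h) = j.rep := by
  apply MRep.ext'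
  funext g
  ext a b
  rfl

end PIdeal

section ofHom

variable {B : Type} [CommRing B] [IsLocalRing B] [Algebra 𝒪 B]

/-- the lifting condition for a matrix-valued function. -/
def IsLiftFn (S : Setup 𝒪 ρbar) (m : Gal → Matrix (Fin 2) (Fin 2) B) : Prop :=
  ∀ g i j, m g i j - algebraMap 𝒪 B (S.τ g i j) ∈ maximalIdeal B

theorem residue_eq_of_isLiftFn [IsLocalHom (algebraMap 𝒪 B)] (f : Poly 𝒪 →ₐ[𝒪] B)
    (hl : S.IsLiftFn (matOf f)) (p : Poly 𝒪) :
    residue B (f p) = IsLocalRing.ResidueField.map (algebraMap 𝒪 B) (S.eps p) := by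
  have key : ((residue B).comp (f : Poly 𝒪 →+* B)) =
      (IsLocalRing.ResidueField.map (algebraMap 𝒪 B)).comp (S.eps : Poly 𝒪 →+* ResidueField 𝒪) := by
    apply MvPolynomial.ringHom_ext
    · intro a
      simp only [RingHom.comp_apply, RingHom.coe_coe]
      rw [← MvPolynomial.algebraMap_eq, AlgHom.commutes, AlgHom.commutes,
        IsLocalRing.ResidueField.algebraMap_eq, IsLocalRing.ResidueField.map_residue]
    · rintro ⟨g, i, j⟩
      simp only [RingHom.comp_apply, RingHom.coe_coe]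
      have h1 := hl g i j
      rw [matOf_apply, ← IsLocalRing.residue_eq_zero_iff, map_sub, sub_eq_zero] at h1
      rw [h1, eps, evalHom_X, ← S.hτ, IsLocalRing.ResidueField.map_residue]
  exact congrFun (congrArg DFunLike.coe key) p

theorem mem_maximalIdeal_iff_of_isLiftFn [IsLocalHom (algebraMap 𝒪 B)] (f : Poly 𝒪 →ₐ[𝒪] B)
    (hl : S.IsLiftFn (matOf f)) (p : Poly 𝒪) :
    f p ∈ maximalIdeal B ↔ S.eps p = 0 := by
  rw [← IsLocalRing.residue_eq_zero_iff, residue_eq_of_isLiftFn f hl, map_eq_zero]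

/-- The admissible ideal attached to a normalized continuous lift to a finite local ring. -/
noncomputable def PIdeal.ofHom [Finite B] [IsLocalHom (algebraMap 𝒪 B)] (f : Poly 𝒪 →ₐ[𝒪] B)
    (hf : S.IsNRep (matOf f)) (hl : S.IsLiftFn (matOf f))
    (hc : ∃ L : IntermediateField ℚ (AlgebraicClosure ℚ), FiniteDimensional ℚ L ∧
      ∀ σ : Gal, (∀ x ∈ L, σ x = x) → matOf f σ = 1) : S.PIdeal where
  a := RingHom.ker f
  rel := fun p hp => (S.relSet_iff f).2 hf p hp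
  le := fun p hp => by
    have : f p ∈ maximalIdeal B := by
      rw [show f p = 0 from hp]; exact Ideal.zero_mem _
    exact (mem_maximalIdeal_iff_of_isLiftFn f hl p).1 this
  fin := Finite.of_injective _ (Ideal.kerLiftAlg_injective f)
  unit := fun p hp => by
    have : Finite (Poly 𝒪 ⧸ RingHom.ker f) :=
      Finite.of_injective _ (Ideal.kerLiftAlg_injective f)
    refine isUnit_of_injective_of_finite (Ideal.kerLiftAlg f).toRingHom
      (Ideal.kerLiftAlg_injective f) _ ?_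
    change IsUnit (f p)
    by_contra hnu
    exact hp ((mem_maximalIdeal_iff_of_isLiftFn f hl p).1 hnu)
  cont := by
    obtain ⟨L, hL, h⟩ := hc
    refine ⟨L, hL, fun σ hσ a b => ?_⟩
    change f ((Xg 𝒪 σ - 1) a b) = 0
    have h2 := congrFun (congrFun (h σ hσ) a) b
    by_cases hab : a = b
    · subst hab
      simpa [Matrix.sub_apply, Xg, sub_eq_zero] using h2
    · simpa [Matrix.sub_apply, Xg, hab] using h2

end ofHom

section Good

variable (𝒟 : ∀ ⦃A : Type⦄ [CommRing A] [IsLocalRing A] [Algebra 𝒪 A], GaloisRepAdic A → Prop)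

/-- An admissible ideal is good if its tautological representation satisfies `𝒟`. -/
def Good (i : S.PIdeal) : Prop := 𝒟 i.rep.toAdic

variable {𝒟}

theorem good_of_le (h𝒟 : IsDeformationCondition 𝒪 𝒟) {i j : S.PIdeal} (h : i.a ≤ j.a)
    (hi : Good 𝒟 i) : Good 𝒟 j := by
  have h1 := h𝒟.baseChangeAlong i.testAlg j.testAlg (PIdeal.fac h) (PIdeal.isLocalHom_fac h) hi
  have h2 := MRep.toAdic_map_isEquiv i.rep (PIdeal.fac h : Poly 𝒪 ⧸ i.a →+* Poly 𝒪 ⧸ j.a)
    (PIdeal.isLocalHom_fac h)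
  rw [PIdeal.rep_map_fac] at h2
  exact h𝒟.of_isEquiv j.testAlg h2 h1

theorem good_inf (h𝒟 : IsDeformationCondition 𝒪 𝒟) {i j : S.PIdeal}
    (hi : Good 𝒟 i) (hj : Good 𝒟 j) : Good 𝒟 (i.inf j) := by
  have hsup : i.a ⊔ j.a ≤ RingHom.ker S.eps := sup_le i.le j.le
  let c : S.PIdeal := i.up (i.a ⊔ j.a) le_sup_left hsup
  have hic : i.a ≤ c.a := le_sup_left
  have hjc : j.a ≤ c.a := le_sup_right
  have hli : (i.inf j).a ≤ i.a := inf_le_left
  have hlj : (i.inf j).a ≤ j.a := inf_le_right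
  have hA : 𝒟 ((i.inf j).rep.toAdic.baseChangeAlong
      (PIdeal.fac hli : Poly 𝒪 ⧸ (i.inf j).a →+* Poly 𝒪 ⧸ i.a) (PIdeal.isLocalHom_fac hli)) := by
    have h2 := MRep.toAdic_map_isEquiv (i.inf j).rep
      (PIdeal.fac hli : Poly 𝒪 ⧸ (i.inf j).a →+* Poly 𝒪 ⧸ i.a) (PIdeal.isLocalHom_fac hli)
    rw [PIdeal.rep_map_fac] at h2
    exact h𝒟.of_isEquiv i.testAlg (isEquiv_symm h2) hi
  have hB : 𝒟 ((i.inf j).rep.toAdic.baseChangeAlong
      (PIdeal.fac hlj : Poly 𝒪 ⧸ (i.inf j).a →+* Poly 𝒪 ⧸ j.a) (PIdeal.isLocalHom_fac hlj)) := by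
    have h2 := MRep.toAdic_map_isEquiv (i.inf j).rep
      (PIdeal.fac hlj : Poly 𝒪 ⧸ (i.inf j).a →+* Poly 𝒪 ⧸ j.a) (PIdeal.isLocalHom_fac hlj)
    rw [PIdeal.rep_map_fac] at h2
    exact h𝒟.of_isEquiv j.testAlg (isEquiv_symm h2) hj
  refine h𝒟.of_fibreProduct i.testAlg j.testAlg c.testAlg (i.inf j).testAlg
    (PIdeal.fac hic) (PIdeal.fac hjc) (PIdeal.fac hli) (PIdeal.fac hlj)
    (PIdeal.isLocalHom_fac hli) (PIdeal.isLocalHom_fac hlj) ?_ ?_ ?_ hA hB
  · apply Ideal.Quotient.algHom_ext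
    rfl
  · intro x y h
    obtain ⟨p, rfl⟩ := Ideal.Quotient.mk_surjective x
    obtain ⟨p', rfl⟩ := Ideal.Quotient.mk_surjective y
    simp only [PIdeal.fac_mk, Prod.mk.injEq] at h
    rw [Ideal.Quotient.eq] at h ⊢
    rw [Ideal.Quotient.eq] at h
    exact ⟨h.1, h.2⟩
  · intro x y h
    obtain ⟨p, rfl⟩ := Ideal.Quotient.mk_surjective x
    obtain ⟨p', rfl⟩ := Ideal.Quotient.mk_surjective y
    simp only [PIdeal.fac_mk] at h
    rw [Ideal.Quotient.eq] at h
    obtain ⟨α, hα, β, hβ, hαβ⟩ := Submodule.mem_sup.1 h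
    refine ⟨Ideal.Quotient.mk _ (p - α), ?_, ?_⟩
    · simp only [PIdeal.fac_mk]
      rw [Ideal.Quotient.eq]
      simpa using neg_mem hα
    · simp only [PIdeal.fac_mk]
      rw [Ideal.Quotient.eq]
      have : p - α - p' = β := by linear_combination (-1 : Poly 𝒪) * hαβ
      rw [this]; exact hβ

theorem good_ofHom (h𝒟 : IsDeformationCondition 𝒪 𝒟) {B : Type} [CommRing B] [IsLocalRing B]
    [Algebra 𝒪 B] [Finite B] [IsLocalHom (algebraMap 𝒪 B)] (hB : IsArtinianTestAlgebra 𝒪 B)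
    (r : MRep B) (hf : S.IsNRep (matOf (evalHom (𝒪 := 𝒪) r.m)))
    (hl : S.IsLiftFn (matOf (evalHom (𝒪 := 𝒪) r.m)))
    (hc : ∃ L : IntermediateField ℚ (AlgebraicClosure ℚ), FiniteDimensional ℚ L ∧
      ∀ σ : Gal, (∀ x ∈ L, σ x = x) → matOf (evalHom (𝒪 := 𝒪) r.m) σ = 1)
    (hD : 𝒟 r.toAdic) : Good 𝒟 (PIdeal.ofHom (evalHom r.m) hf hl hc) := by
  set i := PIdeal.ofHom (evalHom r.m) hf hl hc with hi
  let φ : Poly 𝒪 ⧸ i.a →ₐ[𝒪] B := Ideal.kerLiftAlg (evalHom r.m)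
  have hinj : Function.Injective φ := Ideal.kerLiftAlg_injective _
  have hφ : IsLocalHom (φ : Poly 𝒪 ⧸ i.a →+* B) :=
    ⟨fun x hx => isUnit_of_injective_of_finite (φ : Poly 𝒪 ⧸ i.a →+* B) hinj x hx⟩
  have hmap : i.rep.map (φ : Poly 𝒪 ⧸ i.a →+* B) hφ = r := by
    apply MRep.ext'
    funext g
    ext a b
    change φ (i.q (MvPolynomial.X (g, a, b))) = r.m g a b
    change evalHom r.m (MvPolynomial.X (g, a, b)) = r.m g a b
    rw [evalHom_X]
  have h2 := MRep.toAdic_map_isEquiv i.rep (φ : Poly 𝒪 ⧸ i.a →+* B) hφ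
  rw [hmap] at h2
  exact h𝒟.of_baseChangeAlong_injective i.testAlg hB φ hφ hinj
    (h𝒟.of_isEquiv hB (isEquiv_symm h2) hD)

end Good

end Setup

end Fermat.Agent.S53
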