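import Fermat.Agent.S53.Poly

set_option autoImplicit false

open GaloisRep IsLocalRing

namespace Fermat.Agent.S53

namespace Setup

variable {𝒪 : Type} [CommRing 𝒪] [IsLocalRing 𝒪] {ρbar : ResidualGaloisRep (ResidueField 𝒪)}
  (S : Setup 𝒪 ρbar)

/-- Continuity of the tautological representation modulo an ideal. -/
def ContAt (a : Ideal (Poly 𝒪)) : Prop :=
  ∃ L : IntermediateField ℚ (AlgebraicClosure ℚ), FiniteDimensional ℚ L ∧
    ∀ σ : Gal, (∀ x ∈ L, σ x = x) → ∀ i j, (Xg 𝒪 σ - 1) i j ∈ a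

/-- Ideals of `Poly 𝒪` whose quotient carries a normalized continuous lift to a finite local
ring. -/
structure PIdeal where
  a : Ideal (Poly 𝒪)
  rel : ∀ p ∈ S.relSet, p ∈ a
  le : a ≤ RingHom.ker S.eps
  fin : Finite (Poly 𝒪 ⧸ a)
  unit : ∀ p, S.eps p ≠ 0 → IsUnit (Ideal.Quotient.mk a p)
  cont : ContAt a

namespace PIdeal

variable {S} (i : S.PIdeal)

instance : Finite (Poly 𝒪 ⧸ i.a) := i.fin

/-- The quotient map as an algebra hom. -/
noncomputable abbrev q : Poly 𝒪 →ₐ[𝒪] Poly 𝒪 ⧸ i.a := Ideal.Quotient.mkₐ 𝒪 i.a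

theorem q_surjective : Function.Surjective i.q := Ideal.Quotient.mk_surjective

/-- The residue map of the quotient. -/
noncomputable def res : Poly 𝒪 ⧸ i.a →ₐ[𝒪] ResidueField 𝒪 :=
  Ideal.Quotient.liftₐ i.a S.eps (fun _ hp => i.le hp)

@[simp] theorem res_q (p : Poly 𝒪) : i.res (i.q p) = S.eps p := rfl

@[simp] theorem res_mk' (p : Poly 𝒪) : i.res (Ideal.Quotient.mk i.a p) = S.eps p := rfl

theorem res_surjective : Function.Surjective i.res := by
  intro x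
  obtain ⟨p, rfl⟩ := S.eps_surjective x
  exact ⟨i.q p, rfl⟩

theorem isUnit_of_res_ne_zero (x : Poly 𝒪 ⧸ i.a) (h : i.res x ≠ 0) : IsUnit x := by
  obtain ⟨p, rfl⟩ := i.q_surjective x
  exact i.unit p h

instance : Nontrivial (Poly 𝒪 ⧸ i.a) := by
  refine ⟨⟨1, 0, fun h => ?_⟩⟩
  have := congrArg i.res h
  rw [map_one, map_zero] at this
  exact one_ne_zero this

instance isLocalHom_res : IsLocalHom (i.res : Poly 𝒪 ⧸ i.a →+* ResidueField 𝒪) :=
  ⟨fun x hx => i.isUnit_of_res_ne_zero x hx.ne_zero⟩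

instance : IsLocalRing (Poly 𝒪 ⧸ i.a) :=
  RingHom.domain_isLocalRing (i.res : Poly 𝒪 ⧸ i.a →+* ResidueField 𝒪)

theorem maximalIdeal_eq : maximalIdeal (Poly 𝒪 ⧸ i.a) =
    RingHom.ker (i.res : Poly 𝒪 ⧸ i.a →+* ResidueField 𝒪) :=
  (IsLocalRing.ker_eq_maximalIdeal (i.res : Poly 𝒪 ⧸ i.a →+* ResidueField 𝒪)
    i.res_surjective).symm

theorem mem_maximalIdeal_iff (x : Poly 𝒪 ⧸ i.a) :
    x ∈ maximalIdeal (Poly 𝒪 ⧸ i.a) ↔ i.res x = 0 := by
  rw [maximalIdeal_eq]; rfl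

theorem isNRep : S.IsNRep (matOf i.q) :=
  (S.relSet_iff i.q).1 fun p hp => Ideal.Quotient.eq_zero_iff_mem.2 (i.rel p hp)

/-- The tautological representation over the quotient. -/
noncomputable def rep : MRep (Poly 𝒪 ⧸ i.a) where
  m := matOf i.q
  map_one := i.isNRep.one
  map_mul := i.isNRep.mul
  cont := by
    intro n
    obtain ⟨L, hL, h⟩ := i.cont
    refine ⟨L, hL, fun σ hσ a b => ?_⟩
    have : (matOf i.q σ - 1) a b = i.q ((Xg 𝒪 σ - 1) a b) := by
      by_cases hab : a = b <;> simp [Matrix.sub_apply, Xg, hab]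
    rw [this, Ideal.Quotient.mkₐ_eq_mk, Ideal.Quotient.eq_zero_iff_mem.2 (h σ hσ a b)]
    exact Ideal.zero_mem _

@[simp] theorem rep_m : i.rep.m = matOf i.q := rfl

theorem isLocalHom_algebraMap : IsLocalHom (algebraMap 𝒪 (Poly 𝒪 ⧸ i.a)) := by
  refine ⟨fun a ha => ?_⟩
  have h1 : IsUnit (i.res (algebraMap 𝒪 (Poly 𝒪 ⧸ i.a) a)) := ha.map i.res
  rw [AlgHom.commutes] at h1
  by_contra hna
  have : a ∈ maximalIdeal 𝒪 := hna
  rw [← IsLocalRing.residue_eq_zero_iff] at this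
  rw [IsLocalRing.ResidueField.algebraMap_eq, this] at h1
  exact not_isUnit_zero h1

theorem residue_surjective :
    Function.Surjective (IsLocalRing.residue (Poly 𝒪 ⧸ i.a) ∘ algebraMap 𝒪 (Poly 𝒪 ⧸ i.a)) := by
  intro x
  obtain ⟨y, rfl⟩ := IsLocalRing.residue_surjective x
  obtain ⟨a, ha⟩ := IsLocalRing.residue_surjective (i.res y)
  refine ⟨a, ?_⟩
  rw [Function.comp_apply, ← sub_eq_zero, ← map_sub, IsLocalRing.residue_eq_zero_iff,
    mem_maximalIdeal_iff, map_sub, AlgHom.commutes, IsLocalRing.ResidueField.algebraMap_eq, ha,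
    sub_self]

theorem testAlg : IsArtinianTestAlgebra 𝒪 (Poly 𝒪 ⧸ i.a) where
  isLocalHom := i.isLocalHom_algebraMap
  residue_surjective := i.residue_surjective
  isArtinian := inferInstance

end PIdeal

end Setup

end Fermat.Agent.S53
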