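import Fermat.Agent.S53.Defs

set_option autoImplicit false

namespace Fermat.Agent.S53

open IsLocalRing
open scoped TensorProduct

namespace MRep

variable {A : Type} [CommRing A] [IsLocalRing A]

omit [IsLocalRing A] in
theorem repr_mem_of_mem_smul_top {V : Type} [AddCommGroup V] [Module A V]
    (b : Module.Basis (Fin 2) A V) (I : Ideal A) {x : V}
    (hx : x ∈ I • (⊤ : Submodule A V)) (i : Fin 2) : b.repr x i ∈ I := by
  refine Submodule.smul_induction_on (p := fun x => b.repr x i ∈ I) hx ?_ ?_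
  · intro a ha v _
    rw [map_smul, Finsupp.smul_apply, smul_eq_mul]
    exact Ideal.mul_mem_right _ _ ha
  · intro x y hx hy
    rw [map_add, Finsupp.add_apply]
    exact Ideal.add_mem _ hx hy

/-- The matrix representation of an abstract representation in a basis. -/
noncomputable def ofBasis (ρA : GaloisRepAdic A) (b : Module.Basis (Fin 2) A ρA.V) : MRep A where
  m := fun g => LinearMap.toMatrix b b (ρA.ρ g)
  map_one := by
    rw [_root_.map_one]
    exact LinearMap.toMatrix_one b
  map_mul := fun g h => by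
    rw [_root_.map_mul]
    exact LinearMap.toMatrix_mul b (ρA.ρ g) (ρA.ρ h)
  cont := by
    intro n
    obtain ⟨L, hL, h1⟩ := ρA.isAdicContinuous n
    refine ⟨L, hL, fun σ hσ i j => ?_⟩
    have h2 := repr_mem_of_mem_smul_top b _ (h1 σ hσ (b j)) i
    have h3 : (LinearMap.toMatrix b b (ρA.ρ σ) - 1) i j = b.repr (ρA.ρ σ (b j) - b j) i := by
      rw [Matrix.sub_apply, LinearMap.toMatrix_apply, map_sub, Finsupp.sub_apply,
        Module.Basis.repr_self, Matrix.one_apply, Finsupp.single_apply]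
      by_cases hij : i = j
      · simp [hij]
      · simp [hij, Ne.symm hij]
    rw [h3]
    exact h2

@[simp] theorem ofBasis_m (ρA : GaloisRepAdic A) (b : Module.Basis (Fin 2) A ρA.V) (g : Gal) :
    (ofBasis ρA b).m g = LinearMap.toMatrix b b (ρA.ρ g) := rfl

/-- The matrix representation in a basis is equivalent to the original representation. -/
noncomputable def equivOfBasis (ρA : GaloisRepAdic A) (b : Module.Basis (Fin 2) A ρA.V) :
    GaloisRepAdic.Equiv (ofBasis ρA b).toAdic ρA where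
  toLinearEquiv := b.equivFun.symm
  map_apply := fun σ (x : Fin 2 → A) => by
    change b.equivFun.symm ((LinearMap.toMatrix b b (ρA.ρ σ)).mulVec x) =
      ρA.ρ σ (b.equivFun.symm x)
    apply b.equivFun.injective
    rw [LinearEquiv.apply_symm_apply]
    have h := LinearMap.toMatrix_mulVec_repr b b (ρA.ρ σ) (b.equivFun.symm x)
    have hx : (b.repr (b.equivFun.symm x) : Fin 2 → A) = x :=
      b.equivFun.apply_symm_apply x
    rw [hx] at h
    rw [h]
    rfl

theorem isEquiv_ofBasis (ρA : GaloisRepAdic A) (b : Module.Basis (Fin 2) A ρA.V) :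
    (ofBasis ρA b).toAdic.IsEquiv ρA :=
  ⟨equivOfBasis ρA b⟩

theorem exists_basis (ρA : GaloisRepAdic A) : Nonempty (Module.Basis (Fin 2) A ρA.V) :=
  ⟨Module.finBasisOfFinrankEq A ρA.V ρA.finrank_eq⟩

/-- Every abstract representation is equivalent to a matrix representation. -/
theorem exists_isEquiv_toAdic (ρA : GaloisRepAdic A) : ∃ r : MRep A, r.toAdic.IsEquiv ρA := by
  obtain ⟨b⟩ := exists_basis ρA
  exact ⟨ofBasis ρA b, isEquiv_ofBasis ρA b⟩

/-- Equivalence of matrix representations is conjugacy. -/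
theorem toAdic_isEquiv_iff (r r' : MRep A) :
    r.toAdic.IsEquiv r'.toAdic ↔
      ∃ u : (Matrix (Fin 2) (Fin 2) A)ˣ, ∀ g, u.1 * r.m g = r'.m g * u.1 := by
  constructor
  · rintro ⟨e⟩
    let e' : (Fin 2 → A) ≃ₗ[A] (Fin 2 → A) := e.toLinearEquiv
    have he' : ∀ g x, e' ((r.m g).mulVec x) = (r'.m g).mulVec (e' x) := fun g x => e.map_apply g x
    have h12 : LinearMap.toMatrix' (e' : (Fin 2 → A) →ₗ[A] (Fin 2 → A)) *
        LinearMap.toMatrix' (e'.symm : (Fin 2 → A) →ₗ[A] (Fin 2 → A)) = 1 := by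
      rw [← LinearMap.toMatrix'_comp, LinearEquiv.comp_coe, LinearEquiv.symm_trans_self,
        LinearEquiv.refl_toLinearMap, LinearMap.toMatrix'_id]
    have h21 : LinearMap.toMatrix' (e'.symm : (Fin 2 → A) →ₗ[A] (Fin 2 → A)) *
        LinearMap.toMatrix' (e' : (Fin 2 → A) →ₗ[A] (Fin 2 → A)) = 1 := by
      rw [← LinearMap.toMatrix'_comp, LinearEquiv.comp_coe, LinearEquiv.self_trans_symm,
        LinearEquiv.refl_toLinearMap, LinearMap.toMatrix'_id]
    refine ⟨⟨_, _, h12, h21⟩, fun g => ?_⟩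
    change LinearMap.toMatrix' (e' : (Fin 2 → A) →ₗ[A] (Fin 2 → A)) * r.m g =
      r'.m g * LinearMap.toMatrix' (e' : (Fin 2 → A) →ₗ[A] (Fin 2 → A))
    apply Matrix.toLin'.injective
    rw [Matrix.toLin'_mul, Matrix.toLin'_mul, Matrix.toLin'_toMatrix']
    refine LinearMap.ext fun x => ?_
    exact he' g x
  · rintro ⟨u, hu⟩
    refine ⟨⟨Matrix.toLin'OfInv u.4 u.3, ?_⟩⟩
    intro σ (x : Fin 2 → A)
    change (u.1).mulVec ((r.m σ).mulVec x) = (r'.m σ).mulVec ((u.1).mulVec x)
    rw [Matrix.mulVec_mulVec, Matrix.mulVec_mulVec, hu σ]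

theorem toAdic_conj_isEquiv (r : MRep A) (u : (Matrix (Fin 2) (Fin 2) A)ˣ) :
    r.toAdic.IsEquiv (r.conj u).toAdic := by
  rw [toAdic_isEquiv_iff]
  refine ⟨u, fun g => ?_⟩
  have h21 : u.2 * u.1 = 1 := u.4
  rw [conj_m, mul_assoc, mul_assoc, h21, mul_one]

/-- Base change of a matrix representation is (equivalent to) the entrywise image. -/
theorem toAdic_map_isEquiv {B : Type} [CommRing B] [IsLocalRing B] (r : MRep A)
    (φ : A →+* B) (hφ : IsLocalHom φ) :
    (r.toAdic.baseChangeAlong φ hφ).IsEquiv (r.map φ hφ).toAdic := by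
  let _ : Algebra A B := φ.toAlgebra
  have hsmul : ∀ (a : A) (b : B), a • b = φ a * b := fun a b => rfl
  let e : (B ⊗[A] (Fin 2 → A)) ≃ₗ[B] (Fin 2 → B) := TensorProduct.piScalarRight A B B (Fin 2)
  have key : ∀ (σ : Gal) (x : B ⊗[A] (Fin 2 → A)),
      e ((Matrix.toLin' (r.m σ)).baseChange B x) = ((r.m σ).map φ).mulVec (e x) := by
    intro σ x
    induction x using TensorProduct.induction_on with
    | zero => simp
    | tmul b v =>
      rw [LinearMap.baseChange_tmul]
      funext i
      simp only [e, TensorProduct.piScalarRight_apply, TensorProduct.piScalarRightHom_tmul,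
        Matrix.toLin'_apply, Matrix.mulVec, dotProduct, Matrix.map_apply, hsmul, map_sum,
        Finset.sum_mul]
      exact Finset.sum_congr rfl fun j _ => by rw [_root_.map_mul, mul_assoc]
    | add x y hx hy =>
      rw [map_add, map_add, hx, hy, map_add, Matrix.mulVec_add]
  exact ⟨⟨e, fun σ x => key σ x⟩⟩

/-- An abstract representation with a chosen basis is equivalent to a matrix representation
with the expected matrices. -/
theorem exists_of_basis (ρ : GaloisRepAdic A) (b : Module.Basis (Fin 2) A ρ.V) :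
    ∃ r : MRep A, (∀ g, r.m g = LinearMap.toMatrix b b (ρ.ρ g)) ∧ ρ.IsEquiv r.toAdic :=
  ⟨ofBasis ρ b, fun _ => rfl, ⟨(equivOfBasis ρ b).symm⟩⟩

end MRep

end Fermat.Agent.S53
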