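import Mathlib

set_option autoImplicit false

namespace Fermat.Agent.S53

open IsLocalRing Polynomial

theorem rigid {A : Type} [CommRing A] [IsLocalRing A] (y y' z z' u : Matrix (Fin 2) (Fin 2) A)
    (hy : u * y = y' * u) (hz : u * z = z' * u) (hy10 : y 1 0 = 0) (hy'10 : y' 1 0 = 0)
    (hy00 : y 0 0 - 1 ∈ maximalIdeal A) (hy'11 : y' 1 1 ∈ maximalIdeal A) (hz00 : z 0 0 = 0)
    (hz10 : z 1 0 = 1) (hz'00 : z' 0 0 = 0) (hz'10 : z' 1 0 = 1) :
    u 1 0 = 0 ∧ u 0 1 = 0 ∧ u 0 0 = u 1 1 := by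
  have e1 := congrFun (congrFun hy 1) 0
  have e2 := congrFun (congrFun hz 0) 0
  have e3 := congrFun (congrFun hz 1) 0
  simp only [Matrix.mul_apply, Fin.sum_univ_two] at e1 e2 e3
  rw [hy10, hy'10] at e1
  rw [hz00, hz10, hz'00] at e2
  rw [hz00, hz10, hz'10] at e3
  have hunit : IsUnit (y 0 0 - y' 1 1) := by
    have hmem : (y 0 0 - 1) - y' 1 1 ∈ maximalIdeal A := (maximalIdeal A).sub_mem hy00 hy'11
    have h1 : y 0 0 - y' 1 1 = 1 + ((y 0 0 - 1) - y' 1 1) := by ring
    rw [h1]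
    by_contra hnu
    have h2 : (1 : A) + ((y 0 0 - 1) - y' 1 1) ∈ maximalIdeal A :=
      (IsLocalRing.mem_maximalIdeal _).2 hnu
    have h3 : (1 : A) ∈ maximalIdeal A := by
      have := (maximalIdeal A).sub_mem h2 hmem
      simp at this
    exact (IsLocalRing.mem_maximalIdeal _).1 h3 isUnit_one
  have h10 : u 1 0 = 0 := by
    have h4 : u 1 0 * (y 0 0 - y' 1 1) = 0 := by linear_combination e1
    exact (IsUnit.mul_left_eq_zero hunit).1 h4
  refine ⟨h10, ?_, ?_⟩
  · rw [h10] at e2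
    linear_combination e2
  · rw [h10] at e3
    linear_combination -e3

theorem exists_normalizer {A : Type} [CommRing A] [IsLocalRing A]
    [IsAdicComplete (maximalIdeal A) A] (y z : Matrix (Fin 2) (Fin 2) A)
    (hy00 : y 0 0 - 1 ∈ maximalIdeal A) (hy01 : y 0 1 ∈ maximalIdeal A)
    (hy10 : y 1 0 ∈ maximalIdeal A) (hy11 : y 1 1 ∈ maximalIdeal A)
    (hz00 : z 0 0 ∈ maximalIdeal A) (hz10 : z 1 0 - 1 ∈ maximalIdeal A) :
    ∃ u : (Matrix (Fin 2) (Fin 2) A)ˣ, (∀ i j, (u.1 - 1) i j ∈ maximalIdeal A) ∧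
      (u.2 * y * u.1) 1 0 = 0 ∧ (u.2 * z * u.1) 0 0 = 0 ∧ (u.2 * z * u.1) 1 0 = 1 := by
  have hunit_of : ∀ a : A, a - 1 ∈ maximalIdeal A → IsUnit a := by
    intro a ha
    by_contra hnu
    have h2 : a ∈ maximalIdeal A := (IsLocalRing.mem_maximalIdeal _).2 hnu
    have h3 : (1 : A) ∈ maximalIdeal A := by
      have := (maximalIdeal A).sub_mem h2 ha
      simp at this
    exact (IsLocalRing.mem_maximalIdeal _).1 h3 isUnit_one
  -- Hensel: a root `β ∈ m` of the characteristic polynomial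
  let t : A := y 0 0 + y 1 1
  let d : A := y 0 0 * y 1 1 - y 0 1 * y 1 0
  let f : A[X] := X * (X - C t) + C d
  have hf : f.Monic := by
    apply Monic.add_of_left (monic_X.mul (monic_X_sub_C t))
    rw [(monic_X_sub_C t).degree_mul, degree_X, degree_X_sub_C]
    exact lt_of_le_of_lt degree_C_le (by norm_num)
  have hf0 : f.eval 0 ∈ maximalIdeal A := by
    have : f.eval 0 = d := by simp [f]
    rw [this]
    exact (maximalIdeal A).sub_mem ((maximalIdeal A).mul_mem_left _ hy11)
      ((maximalIdeal A).mul_mem_left _ hy10)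
  have hf' : IsUnit (Ideal.Quotient.mk (maximalIdeal A) (f.derivative.eval 0)) := by
    have : f.derivative.eval 0 = -t := by simp [f]
    rw [this]
    apply IsUnit.map
    apply IsUnit.neg
    apply hunit_of
    have : t - 1 = (y 0 0 - 1) + y 1 1 := by ring
    rw [this]
    exact (maximalIdeal A).add_mem hy00 hy11
  obtain ⟨β, hβroot, hβ⟩ :=
    HenselianRing.is_henselian (I := maximalIdeal A) f hf 0 hf0 hf'
  rw [sub_zero] at hβ
  have hβeq : β * (β - t) + d = 0 := by
    have := hβroot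
    simp only [IsRoot, f, eval_add, eval_mul, eval_X, eval_sub, eval_C] at this
    exact this
  -- the eigenvector `(1, s)`
  have hu0 : IsUnit (y 0 0 - β) := by
    apply hunit_of
    have : y 0 0 - β - 1 = (y 0 0 - 1) - β := by ring
    rw [this]
    exact (maximalIdeal A).sub_mem hy00 hβ
  obtain ⟨w, hw⟩ := hu0
  let s : A := y 1 0 * (w⁻¹ : Aˣ)
  have hs : s ∈ maximalIdeal A := (maximalIdeal A).mul_mem_right _ hy10
  have hsw : s * (y 0 0 - β) = y 1 0 := by
    rw [← hw]
    simp [s, mul_assoc]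
  let lam : A := t - β
  have hev0 : y 0 0 + y 0 1 * s = lam := by
    have h1 : (y 0 0 + y 0 1 * s - lam) * (y 0 0 - β) = 0 := by
      have : (y 0 0 + y 0 1 * s - lam) * (y 0 0 - β)
          = -(β * (β - t) + d) + y 0 1 * (s * (y 0 0 - β) - y 1 0) := by
        simp only [lam, t, d]
        ring
      rw [this, hβeq, hsw]
      ring
    have h2 := (IsUnit.mul_left_eq_zero (hw ▸ w.isUnit)).1 h1
    exact sub_eq_zero.1 h2
  have hev1 : y 1 0 + y 1 1 * s = lam * s := by
    have : lam * s - (y 1 0 + y 1 1 * s) = s * (y 0 0 - β) - y 1 0 := by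
      simp only [lam, t]
      ring
    have h2 : lam * s - (y 1 0 + y 1 1 * s) = 0 := by rw [this, hsw, sub_self]
    exact (sub_eq_zero.1 h2).symm
  -- the matrix
  let a : A := z 0 0 + z 0 1 * s
  let b : A := z 1 0 + z 1 1 * s
  have ha : a ∈ maximalIdeal A :=
    (maximalIdeal A).add_mem hz00 ((maximalIdeal A).mul_mem_left _ hs)
  have hb : b - 1 ∈ maximalIdeal A := by
    have : b - 1 = (z 1 0 - 1) + z 1 1 * s := by simp only [b]; ring
    rw [this]
    exact (maximalIdeal A).add_mem hz10 ((maximalIdeal A).mul_mem_left _ hs)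
  let U : Matrix (Fin 2) (Fin 2) A := !![1, a; s, b]
  have hdet : IsUnit U.det := by
    rw [Matrix.det_fin_two_of]
    apply hunit_of
    have : 1 * b - a * s - 1 = (b - 1) - a * s := by ring
    rw [this]
    exact (maximalIdeal A).sub_mem hb ((maximalIdeal A).mul_mem_left _ hs)
  obtain ⟨u, hu⟩ := (Matrix.isUnit_iff_isUnit_det U).2 hdet
  have hyU : ∀ j, (y * U) j 0 = lam * U j 0 := by
    intro j
    fin_cases j
    · simp [U, Matrix.mul_apply, Fin.sum_univ_two, hev0]
    · simp [U, Matrix.mul_apply, Fin.sum_univ_two, hev1]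
  have hzU : ∀ j, (z * U) j 0 = U j 1 := by
    intro j
    fin_cases j
    · simp [U, Matrix.mul_apply, Fin.sum_univ_two, a]
    · simp [U, Matrix.mul_apply, Fin.sum_univ_two, b]
  have hinv : u.2 * U = 1 := by
    rw [← hu]
    exact u.inv_val
  refine ⟨u, ?_, ?_, ?_, ?_⟩
  · intro i j
    have hu1 : u.1 = U := hu
    rw [hu1]
    fin_cases i <;> fin_cases j
    · simp [U]
    · simpa [U] using ha
    · simpa [U] using hs
    · simpa [U] using hb
  · have hu1 : u.1 = U := hu
    rw [hu1, Matrix.mul_assoc, Matrix.mul_apply]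
    simp only [hyU]
    have : ∑ j, u.2 1 j * (lam * U j 0) = lam * (u.2 * U) 1 0 := by
      rw [Matrix.mul_apply, Finset.mul_sum]
      exact Finset.sum_congr rfl fun j _ => by ring
    rw [this, hinv]
    simp
  · have hu1 : u.1 = U := hu
    rw [hu1, Matrix.mul_assoc, Matrix.mul_apply]
    simp only [hzU]
    rw [← Matrix.mul_apply, hinv]
    simp
  · have hu1 : u.1 = U := hu
    rw [hu1, Matrix.mul_assoc, Matrix.mul_apply]
    simp only [hzU]
    rw [← Matrix.mul_apply, hinv]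
    simp

end Fermat.Agent.S53
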