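import Mathlib

set_option autoImplicit false

namespace Fermat.Agent.S53.OpenKer

open IsLocalRing

/-- In a compact space, a directed family of closed sets whose intersection lies in an open set
has a member inside that open set. -/
theorem exists_subset_of_directed_closed {X : Type*} {ι : Type*} [TopologicalSpace X]
    [CompactSpace X] [Nonempty ι] (K : ι → Set X) (hK : ∀ i, IsClosed (K i))
    (hdir : Directed (· ⊇ ·) K) (U : Set X) (hU : IsOpen U) (h : ⋂ i, K i ⊆ U) :
    ∃ i, K i ⊆ U := by
  have hc : IsCompact Uᶜ := hU.isClosed_compl.isCompact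
  have hempty : Uᶜ ∩ ⋂ i, K i = ∅ := by
    rw [Set.eq_empty_iff_forall_notMem]
    rintro x ⟨hx1, hx2⟩
    exact hx1 (h hx2)
  obtain ⟨i, hi⟩ := hc.elim_directed_family_closed K hK hempty hdir
  refine ⟨i, fun x hx => ?_⟩
  by_contra hxU
  have : x ∈ Uᶜ ∩ K i := ⟨hxU, hx⟩
  rw [hi] at this
  exact this

section

variable {R : Type} [CommRing R] [TopologicalSpace R] [IsTopologicalRing R] [CompactSpace R]
  [T2Space R] [IsLocalRing R] [IsNoetherianRing R]
  {ι : Type*} [Nonempty ι] (K : ι → Ideal R) (hK : ∀ i, IsClosed (K i : Set R))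
  (hdir : ∀ i j, ∃ k, K k ≤ K i ⊓ K j) (hbot : ⨅ i, K i = ⊥)

include hK hdir hbot

omit [IsTopologicalRing R] [T2Space R] [IsLocalRing R] [IsNoetherianRing R] in
/-- A directed family of closed ideals with zero intersection in a compact ring is cofinal among
the open ideals. -/
theorem exists_le_of_isOpen (I : Ideal R) (hI : IsOpen (I : Set R)) : ∃ i, K i ≤ I := by
  have hdir' : Directed (· ⊇ ·) (fun i => (K i : Set R)) := by
    intro i j
    obtain ⟨k, hk⟩ := hdir i j
    exact ⟨k, fun x hx => (hk hx).1, fun x hx => (hk hx).2⟩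
  have hsub : ⋂ i, (K i : Set R) ⊆ (I : Set R) := by
    intro x hx
    have hx' : x ∈ ⨅ i, K i := by
      rw [Ideal.mem_iInf]
      exact fun i => Set.mem_iInter.1 hx i
    rw [hbot] at hx'
    rw [Ideal.mem_bot.1 hx']
    exact I.zero_mem
  obtain ⟨i, hi⟩ := exists_subset_of_directed_closed (fun i => (K i : Set R)) hK hdir' _ hI hsub
  exact ⟨i, hi⟩

/-- The family is cofinal among the powers of the maximal ideal. -/
theorem exists_le_maximalIdeal_pow (n : ℕ) : ∃ i, K i ≤ maximalIdeal R ^ n :=
  exists_le_of_isOpen K hK hdir hbot _ (IsLocalRing.isOpen_maximalIdeal_pow R n)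

/-- Every ideal with Artinian quotient contains a member of the family. -/
theorem exists_le_of_isArtinianRing_quotient (I : Ideal R) [IsArtinianRing (R ⧸ I)] :
    ∃ i, K i ≤ I := by
  obtain ⟨n, hn⟩ := IsLocalRing.exists_maximalIdeal_pow_le_of_isArtinianRing_quotient I
  obtain ⟨i, hi⟩ := exists_le_maximalIdeal_pow K hK hdir hbot n
  exact ⟨i, hi.trans hn⟩

/-- The kernel of a surjection onto an Artinian ring contains a member of the family. -/
theorem exists_le_ker_of_surjective {B : Type*} [CommRing B] [IsArtinianRing B] (q : R →+* B)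
    (hq : Function.Surjective q) : ∃ i, K i ≤ RingHom.ker q := by
  have : IsArtinianRing (R ⧸ RingHom.ker q) :=
    (RingHom.quotientKerEquivOfSurjective hq).symm.surjective.isArtinianRing
  exact exists_le_of_isArtinianRing_quotient K hK hdir hbot (RingHom.ker q)

end

end Fermat.Agent.S53.OpenKer
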