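import Fermat.Agent.S53.MatRep

set_option autoImplicit false

namespace Fermat.Agent.S53

open IsLocalRing
open scoped TensorProduct

/-- The action of a base-changed endomorphism on the base-changed basis. -/
theorem baseChange_basis_apply {R S M : Type} [CommRing R] [CommRing S] [Algebra R S]
    [AddCommGroup M] [Module R M] (b : Module.Basis (Fin 2) R M) (f : M →ₗ[R] M) (i : Fin 2) :
    f.baseChange S (b.baseChange S i) =
      ∑ i', algebraMap R S (LinearMap.toMatrix b b f i' i) • b.baseChange S i' := by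
  rw [Module.Basis.baseChange_apply, LinearMap.baseChange_tmul]
  conv_lhs => rw [← b.sum_repr (f (b i))]
  rw [TensorProduct.tmul_sum]
  refine Finset.sum_congr rfl fun i' _ => ?_
  rw [Module.Basis.baseChange_apply, LinearMap.toMatrix_apply, TensorProduct.tmul_smul,
    algebraMap_smul]

variable {A : Type} [CommRing A] [IsLocalRing A]

theorem residual_isEquiv_of_lift {k : Type} [Field k] (ρbar : ResidualGaloisRep k)
    (b : Module.Basis (Fin 2) k ρbar.V) (j : k →+* ResidueField A) (r : MRep A)
    (h : ∀ g i i', residue A (r.m g i i') = j (barMat ρbar b g i i')) :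
    r.toAdic.residual.IsEquiv (ρbar.baseChangeAlong j) := by
  let _ : Algebra k (ResidueField A) := j.toAlgebra
  let b1 : Module.Basis (Fin 2) (ResidueField A) (ResidueField A ⊗[A] (Fin 2 → A)) :=
    (Pi.basisFun A (Fin 2)).baseChange (ResidueField A)
  let b2 : Module.Basis (Fin 2) (ResidueField A) (ResidueField A ⊗[k] ρbar.V) :=
    b.baseChange (ResidueField A)
  let e : (ResidueField A ⊗[A] (Fin 2 → A)) ≃ₗ[ResidueField A] (ResidueField A ⊗[k] ρbar.V) :=
    b1.equiv b2 (Equiv.refl _)
  have key : ∀ σ : Gal,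
      (e : (ResidueField A ⊗[A] (Fin 2 → A)) →ₗ[ResidueField A] (ResidueField A ⊗[k] ρbar.V)) ∘ₗ
        ((Matrix.toLin' (r.m σ)).baseChange (ResidueField A)) =
      ((ρbar.ρ σ).baseChange (ResidueField A)) ∘ₗ
        (e : (ResidueField A ⊗[A] (Fin 2 → A)) →ₗ[ResidueField A] (ResidueField A ⊗[k] ρbar.V)) := by
    intro σ
    refine b1.ext fun i => ?_
    rw [LinearMap.comp_apply, LinearMap.comp_apply]
    have h1 : (Matrix.toLin' (r.m σ)).baseChange (ResidueField A) (b1 i) =
        ∑ i', residue A (r.m σ i' i) • b1 i' := by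
      have := baseChange_basis_apply (S := ResidueField A) (Pi.basisFun A (Fin 2))
        (Matrix.toLin' (r.m σ)) i
      rw [LinearMap.toMatrix_eq_toMatrix', LinearMap.toMatrix'_toLin'] at this
      exact this
    have h2 : (ρbar.ρ σ).baseChange (ResidueField A) (b2 i) =
        ∑ i', j (barMat ρbar b σ i' i) • b2 i' :=
      baseChange_basis_apply (S := ResidueField A) b (ρbar.ρ σ) i
    rw [h1]
    simp only [LinearEquiv.coe_coe, map_sum, map_smul]
    have he : ∀ i', e (b1 i') = b2 i' := fun i' => by
      simp [e]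
    simp only [he]
    rw [h2]
    exact Finset.sum_congr rfl fun i' _ => by rw [h σ i' i]
  exact ⟨⟨e, fun σ x => LinearMap.congr_fun (key σ) x⟩⟩

theorem exists_lift_of_residual_isEquiv {k : Type} [Field k] (ρbar : ResidualGaloisRep k)
    (b : Module.Basis (Fin 2) k ρbar.V) (j : k →+* ResidueField A) (ρ : GaloisRepAdic A)
    (h : ρ.residual.IsEquiv (ρbar.baseChangeAlong j)) :
    ∃ r : MRep A, ρ.IsEquiv r.toAdic ∧
      ∀ g i i', residue A (r.m g i i') = j (barMat ρbar b g i i') := by
  let _ : Algebra k (ResidueField A) := j.toAlgebra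
  obtain ⟨e⟩ := h
  let e' : (ResidueField A ⊗[A] ρ.V) ≃ₗ[ResidueField A] (ResidueField A ⊗[k] ρbar.V) :=
    e.toLinearEquiv
  have he' : ∀ (σ : Gal) (x : ResidueField A ⊗[A] ρ.V),
      e' ((ρ.ρ σ).baseChange (ResidueField A) x) =
        (ρbar.ρ σ).baseChange (ResidueField A) (e' x) := fun σ x => e.map_apply σ x
  let b2 : Module.Basis (Fin 2) (ResidueField A) (ResidueField A ⊗[k] ρbar.V) :=
    b.baseChange (ResidueField A)
  let w : Module.Basis (Fin 2) (ResidueField A) (ResidueField A ⊗[A] ρ.V) := b2.map e'.symm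
  have hsurj : Function.Surjective (TensorProduct.mk A (ResidueField A) ρ.V 1) :=
    TensorProduct.mk_surjective A ρ.V (ResidueField A) IsLocalRing.residue_surjective
  choose v hv using fun i => hsurj (w i)
  have hv' : ∀ i, (1 : ResidueField A) ⊗ₜ[A] v i = w i := hv
  have hli : LinearIndependent A v := by
    apply Module.IsLocalRing.linearIndependent_of_flat
    have : (TensorProduct.mk A (ResidueField A) ρ.V 1 ∘ v) = w := funext hv
    rw [this]
    exact w.linearIndependent
  have hsp : Submodule.span A (Set.range v) = ⊤ :=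
    IsLocalRing.span_eq_top_of_tmul_eq_basis v w hv'
  let bv : Module.Basis (Fin 2) A ρ.V := Module.Basis.mk hli hsp.ge
  have hbv : ∀ i, bv i = v i := fun i => Module.Basis.mk_apply hli hsp.ge i
  refine ⟨MRep.ofBasis ρ bv, ⟨(MRep.equivOfBasis ρ bv).symm⟩, fun σ i i' => ?_⟩
  rw [MRep.ofBasis_m]
  have hw : ∀ i, bv.baseChange (ResidueField A) i = w i := fun i => by
    rw [Module.Basis.baseChange_apply, hbv, hv']
  have h1 := baseChange_basis_apply (S := ResidueField A) bv (ρ.ρ σ) i'
  have h2 : (ρbar.ρ σ).baseChange (ResidueField A) (b2 i') =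
      ∑ i, j (barMat ρbar b σ i i') • b2 i :=
    baseChange_basis_apply (S := ResidueField A) b (ρbar.ρ σ) i'
  have hew : ∀ i, e' (w i) = b2 i := fun i => by
    simp [w]
  simp only [hw] at h1
  have h3 := congrArg e' h1
  rw [he', hew, h2] at h3
  simp only [map_sum, map_smul, hew] at h3
  have h4 := congrArg (fun x => b2.repr x i) h3
  simp only [Module.Basis.repr_sum_self] at h4
  exact h4.symm

end Fermat.Agent.S53
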