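import Fermat.Agent.S53.Burnside
import Fermat.Agent.S53.MatRep
import Fermat.Agent.S53.Residual
import Fermat.Agent.S53.Dual
import Fermat.Agent.S53.Compact
import Fermat.Agent.S53.Normal

set_option autoImplicit false

open GaloisRep IsLocalRing

namespace Fermat.Agent.S53

/-- The fixed data attached to `ρbar`. -/
structure Setup (𝒪 : Type) [CommRing 𝒪] [IsLocalRing 𝒪]
    (ρbar : ResidualGaloisRep (ResidueField 𝒪)) where
  b : Module.Basis (Fin 2) (ResidueField 𝒪) ρbar.V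
  τ : Gal → Matrix (Fin 2) (Fin 2) 𝒪
  hτ : ∀ g i j, residue 𝒪 (τ g i j) = barMat ρbar b g i j
  x0 : Gal →₀ 𝒪
  x1 : Gal →₀ 𝒪
  hx0 : (x0.sum fun g a => residue 𝒪 a • barMat ρbar b g) = Matrix.single 0 0 1
  hx1 : (x1.sum fun g a => residue 𝒪 a • barMat ρbar b g) = Matrix.single 1 0 1

/-- The polynomial ring on the matrix coefficients. -/
abbrev Poly (𝒪 : Type) [CommRing 𝒪] : Type := MvPolynomial (Gal × Fin 2 × Fin 2) 𝒪

/-- The generic matrix. -/
noncomputable def Xg (𝒪 : Type) [CommRing 𝒪] (g : Gal) : Matrix (Fin 2) (Fin 2) (Poly 𝒪) :=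
  Matrix.of fun i j => MvPolynomial.X (g, i, j)

section
variable {𝒪 : Type} [CommRing 𝒪] {A : Type} [CommRing A] [Algebra 𝒪 A]

/-- Evaluate a group-algebra element at a matrix-valued function. -/
noncomputable def evx (x : Gal →₀ 𝒪) (m : Gal → Matrix (Fin 2) (Fin 2) A) :
    Matrix (Fin 2) (Fin 2) A :=
  x.sum fun g a => a • m g

/-- The matrix-valued function attached to a hom out of `Poly 𝒪`. -/
noncomputable def matOf (f : Poly 𝒪 →ₐ[𝒪] A) (g : Gal) : Matrix (Fin 2) (Fin 2) A :=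
  (Xg 𝒪 g).map f

@[simp] theorem matOf_apply (f : Poly 𝒪 →ₐ[𝒪] A) (g : Gal) (i j : Fin 2) :
    matOf f g i j = f (MvPolynomial.X (g, i, j)) := rfl

/-- The hom out of `Poly 𝒪` attached to a matrix-valued function. -/
noncomputable def evalHom (m : Gal → Matrix (Fin 2) (Fin 2) A) : Poly 𝒪 →ₐ[𝒪] A :=
  MvPolynomial.aeval fun x => m x.1 x.2.1 x.2.2

@[simp] theorem evalHom_X (m : Gal → Matrix (Fin 2) (Fin 2) A) (g : Gal) (i j : Fin 2) :
    evalHom (𝒪 := 𝒪) m (MvPolynomial.X (g, i, j)) = m g i j := by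
  simp [evalHom]

@[simp] theorem matOf_evalHom (m : Gal → Matrix (Fin 2) (Fin 2) A) :
    matOf (evalHom (𝒪 := 𝒪) m) = m := by
  funext g
  ext i j
  simp

theorem evalHom_matOf (f : Poly 𝒪 →ₐ[𝒪] A) : evalHom (matOf f) = f := by
  apply MvPolynomial.algHom_ext
  rintro ⟨g, i, j⟩
  simp

theorem algHom_ext_matOf {f f' : Poly 𝒪 →ₐ[𝒪] A} (h : matOf f = matOf f') : f = f' := by
  rw [← evalHom_matOf f, ← evalHom_matOf f', h]

theorem matOf_comp {B : Type} [CommRing B] [Algebra 𝒪 B] (f : Poly 𝒪 →ₐ[𝒪] A) (φ : A →ₐ[𝒪] B)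
    (g : Gal) : matOf (φ.comp f) g = (matOf f g).map φ := by
  ext i j
  simp

theorem evx_apply (x : Gal →₀ 𝒪) (m : Gal → Matrix (Fin 2) (Fin 2) A) (i j : Fin 2) :
    evx x m i j = x.sum fun g a => a • m g i j := by
  unfold evx
  rw [Finsupp.sum, Finsupp.sum, Matrix.sum_apply]
  rfl

theorem evx_map {B : Type} [CommRing B] [Algebra 𝒪 B] (x : Gal →₀ 𝒪)
    (m : Gal → Matrix (Fin 2) (Fin 2) A) (φ : A →ₐ[𝒪] B) :
    evx x (fun g => (m g).map φ) = (evx x m).map φ := by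
  ext i j
  rw [Matrix.map_apply, evx_apply, evx_apply, Finsupp.sum, Finsupp.sum, map_sum]
  refine Finset.sum_congr rfl fun g _ => ?_
  rw [Matrix.map_apply, map_smul]

theorem evx_mul_left (x : Gal →₀ 𝒪) (m : Gal → Matrix (Fin 2) (Fin 2) A)
    (u : Matrix (Fin 2) (Fin 2) A) : evx x (fun g => u * m g) = u * evx x m := by
  unfold evx
  rw [Finsupp.sum, Finsupp.sum, Finset.mul_sum]
  refine Finset.sum_congr rfl fun g _ => ?_
  rw [Matrix.mul_smul]

theorem evx_mul_right (x : Gal →₀ 𝒪) (m : Gal → Matrix (Fin 2) (Fin 2) A)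
    (u : Matrix (Fin 2) (Fin 2) A) : evx x (fun g => m g * u) = evx x m * u := by
  unfold evx
  rw [Finsupp.sum, Finsupp.sum, Finset.sum_mul]
  refine Finset.sum_congr rfl fun g _ => ?_
  rw [Matrix.smul_mul]

/-- The generic group-algebra element. -/
noncomputable def polyX (x : Gal →₀ 𝒪) : Matrix (Fin 2) (Fin 2) (Poly 𝒪) :=
  evx x (Xg 𝒪)

theorem map_polyX (x : Gal →₀ 𝒪) (f : Poly 𝒪 →ₐ[𝒪] A) (i j : Fin 2) :
    f (polyX x i j) = evx x (matOf f) i j := by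
  have := evx_map x (Xg 𝒪) f
  have h2 := congrFun (congrFun this i) j
  rw [Matrix.map_apply] at h2
  rw [polyX, ← h2]
  rfl

end

namespace Setup

variable {𝒪 : Type} [CommRing 𝒪] [IsLocalRing 𝒪] {ρbar : ResidualGaloisRep (ResidueField 𝒪)}
  (S : Setup 𝒪 ρbar)

/-- The relations cutting out normalized representations. -/
def relSet : Set (Poly 𝒪) :=
  {p | (∃ g h i j, p = (Xg 𝒪 (g * h) - Xg 𝒪 g * Xg 𝒪 h) i j) ∨ (∃ i j, p = (Xg 𝒪 1 - 1) i j) ∨
       p = polyX S.x0 1 0 ∨ p = polyX S.x1 0 0 ∨ p = polyX S.x1 1 0 - 1}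

/-- A hom out of `Poly 𝒪` is a normalized representation. -/
structure IsNRep {A : Type} [CommRing A] [Algebra 𝒪 A] (m : Gal → Matrix (Fin 2) (Fin 2) A) :
    Prop where
  one : m 1 = 1
  mul : ∀ g h, m (g * h) = m g * m h
  n1 : evx S.x0 m 1 0 = 0
  n2 : evx S.x1 m 0 0 = 0
  n3 : evx S.x1 m 1 0 = 1

theorem relSet_iff {A : Type} [CommRing A] [Algebra 𝒪 A] (f : Poly 𝒪 →ₐ[𝒪] A) :
    (∀ p ∈ S.relSet, f p = 0) ↔ S.IsNRep (matOf f) := by
  have hmul : ∀ g h i j, f ((Xg 𝒪 (g * h) - Xg 𝒪 g * Xg 𝒪 h) i j) =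
      (matOf f (g * h) - matOf f g * matOf f h) i j := by
    intro g h i j
    simp [matOf, Matrix.mul_apply, Matrix.sub_apply, Xg]
  have hone : ∀ i j, f ((Xg 𝒪 1 - 1) i j) = (matOf f 1 - 1) i j := by
    intro i j
    by_cases hij : i = j <;> simp [matOf, Matrix.sub_apply, Xg, hij]
  constructor
  · intro h
    refine ⟨?_, ?_, ?_, ?_, ?_⟩
    · rw [← sub_eq_zero]
      ext i j
      rw [← hone]
      exact h _ (Or.inr (Or.inl ⟨i, j, rfl⟩))
    · intro g g'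
      rw [← sub_eq_zero]
      ext i j
      rw [← hmul]
      exact h _ (Or.inl ⟨g, g', i, j, rfl⟩)
    · rw [← map_polyX]; exact h _ (Or.inr (Or.inr (Or.inl rfl)))
    · rw [← map_polyX]; exact h _ (Or.inr (Or.inr (Or.inr (Or.inl rfl))))
    · rw [← map_polyX]
      have := h _ (Or.inr (Or.inr (Or.inr (Or.inr rfl))))
      rwa [map_sub, map_one, sub_eq_zero] at this
  · rintro ⟨h1, h2, h3, h4, h5⟩ p hp
    rcases hp with ⟨g, h, i, j, rfl⟩ | ⟨i, j, rfl⟩ | rfl | rfl | rfl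
    · rw [hmul, h2, sub_self]; rfl
    · rw [hone, h1, sub_self]; rfl
    · rw [map_polyX, h3]
    · rw [map_polyX, h4]
    · rw [map_sub, map_one, map_polyX, h5, sub_self]

theorem IsNRep.map {A B : Type} [CommRing A] [Algebra 𝒪 A] [CommRing B] [Algebra 𝒪 B]
    {m : Gal → Matrix (Fin 2) (Fin 2) A} (h : S.IsNRep m) (φ : A →ₐ[𝒪] B) :
    S.IsNRep (fun g => (m g).map φ) := by
  refine ⟨?_, ?_, ?_, ?_, ?_⟩
  · rw [h.one]; simp
  · intro g g'
    rw [h.mul, Matrix.map_mul]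
  · rw [evx_map, Matrix.map_apply, h.n1, map_zero]
  · rw [evx_map, Matrix.map_apply, h.n2, map_zero]
  · rw [evx_map, Matrix.map_apply, h.n3, map_one]

/-- The residual hom `Poly 𝒪 → k`. -/
noncomputable def eps : Poly 𝒪 →ₐ[𝒪] ResidueField 𝒪 :=
  evalHom (barMat ρbar S.b)

theorem eps_surjective : Function.Surjective S.eps := by
  intro x
  obtain ⟨a, rfl⟩ := IsLocalRing.residue_surjective x
  exact ⟨MvPolynomial.C a, by simp [eps, evalHom]⟩

theorem barMat_one : barMat ρbar S.b 1 = 1 := by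
  simp [barMat]

theorem barMat_mul (g h : Gal) : barMat ρbar S.b (g * h) = barMat ρbar S.b g * barMat ρbar S.b h := by
  simp [barMat, LinearMap.toMatrix_mul]

theorem evx_barMat (x : Gal →₀ 𝒪) :
    evx x (barMat ρbar S.b) = x.sum fun g a => residue 𝒪 a • barMat ρbar S.b g := by
  unfold evx
  refine Finset.sum_congr rfl fun g _ => ?_
  ext i j
  simp [Algebra.smul_def]

theorem isNRep_barMat : S.IsNRep (barMat ρbar S.b) := by
  refine ⟨S.barMat_one, S.barMat_mul, ?_, ?_, ?_⟩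
  · rw [evx_barMat, S.hx0]; simp [Matrix.single]
  · rw [evx_barMat, S.hx1]; simp [Matrix.single]
  · rw [evx_barMat, S.hx1]; simp [Matrix.single]

theorem eps_relSet (p : Poly 𝒪) (hp : p ∈ S.relSet) : S.eps p = 0 := by
  have := (S.relSet_iff S.eps).2 (by rw [eps, matOf_evalHom]; exact S.isNRep_barMat)
  exact this p hp

end Setup

end Fermat.Agent.S53
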