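import Fermat.Agent.S53.Good

set_option autoImplicit false

open GaloisRep IsLocalRing Topology

namespace Fermat.Agent.S53

namespace Setup

variable {𝒪 : Type} [CommRing 𝒪] [IsLocalRing 𝒪] {ρbar : ResidualGaloisRep (ResidueField 𝒪)}
  (S : Setup 𝒪 ρbar)
  (𝒟 : ∀ ⦃A : Type⦄ [CommRing A] [IsLocalRing A] [Algebra 𝒪 A], GaloisRepAdic A → Prop)

/-- The index type: good admissible ideals. -/
abbrev Idx : Type := {i : S.PIdeal // Good 𝒟 i}

instance instTopQuot (i : S.PIdeal) : TopologicalSpace (Poly 𝒪 ⧸ i.a) := ⊥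

instance instDiscQuot (i : S.PIdeal) : DiscreteTopology (Poly 𝒪 ⧸ i.a) := ⟨rfl⟩

/-- The ambient product of all finite quotients. -/
abbrev Prod : Type := ∀ i : S.Idx 𝒟, Poly 𝒪 ⧸ i.1.a

/-- The diagonal map. -/
noncomputable def diag : Poly 𝒪 →ₐ[𝒪] S.Prod 𝒟 :=
  AlgHom.pi (fun i : S.Idx 𝒟 => i.1.q)

/-- The universal ring as a closed subalgebra of the product. -/
noncomputable def Rsub : Subalgebra 𝒪 (S.Prod 𝒟) :=
  (S.diag 𝒟).range.topologicalClosure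

/-- The universal ring. -/
def R : Type := ↥(S.Rsub 𝒟)

noncomputable instance instCommRingR : CommRing (S.R 𝒟) :=
  inferInstanceAs (CommRing ↥(S.Rsub 𝒟))

noncomputable instance instAlgebraR : Algebra 𝒪 (S.R 𝒟) :=
  inferInstanceAs (Algebra 𝒪 ↥(S.Rsub 𝒟))

instance instTopR : TopologicalSpace (S.R 𝒟) :=
  inferInstanceAs (TopologicalSpace ↥(S.Rsub 𝒟))

instance instTopRingR : IsTopologicalRing (S.R 𝒟) :=
  inferInstanceAs (IsTopologicalRing (S.Rsub 𝒟).toSubring)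

instance instCompactR : CompactSpace (S.R 𝒟) :=
  isCompact_iff_compactSpace.1 (Subalgebra.isClosed_topologicalClosure _).isCompact

instance instT2R : T2Space (S.R 𝒟) :=
  inferInstanceAs (T2Space ↥(S.Rsub 𝒟))

variable {S 𝒟}

/-- The projections. -/
noncomputable def proj (i : S.Idx 𝒟) : S.R 𝒟 →ₐ[𝒪] Poly 𝒪 ⧸ i.1.a :=
  (Pi.evalAlgHom 𝒪 _ i).comp (S.Rsub 𝒟).val

variable (S 𝒟) in
/-- The canonical map from the polynomial ring. -/
noncomputable def iota : Poly 𝒪 →ₐ[𝒪] S.R 𝒟 :=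
  (S.diag 𝒟).codRestrict (S.Rsub 𝒟)
    (fun p => Subalgebra.le_topologicalClosure _ (AlgHom.mem_range_self _ p))

@[simp] theorem proj_iota (i : S.Idx 𝒟) (p : Poly 𝒪) : proj i (S.iota 𝒟 p) = i.1.q p := rfl

theorem proj_surjective (i : S.Idx 𝒟) : Function.Surjective (proj i) := by
  intro x
  obtain ⟨p, rfl⟩ := i.1.q_surjective x
  exact ⟨S.iota 𝒟 p, rfl⟩

theorem R_ext {x y : S.R 𝒟} (h : ∀ i, proj i x = proj i y) : x = y :=
  Subtype.ext (funext h)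

theorem continuous_proj (i : S.Idx 𝒟) : Continuous (proj i) :=
  (continuous_apply i).comp continuous_subtype_val

/-- Closure induction for the universal ring. -/
theorem R_induction (C : S.Prod 𝒟 → Prop) (hC : IsClosed {x | C x})
    (h : ∀ p, C (S.diag 𝒟 p)) (r : S.R 𝒟) : C r.1 := by
  have hr : r.1 ∈ closure (Set.range (S.diag 𝒟)) := by
    have : r.1 ∈ ((S.diag 𝒟).range.topologicalClosure : Set (S.Prod 𝒟)) := r.2
    rw [Subalgebra.topologicalClosure_coe, AlgHom.coe_range] at this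
    exact this
  exact closure_minimal (s := Set.range (S.diag 𝒟)) (t := {x | C x})
    (by rintro _ ⟨p, rfl⟩; exact h p) hC hr

theorem fac_proj {i j : S.Idx 𝒟} (h : i.1.a ≤ j.1.a) (r : S.R 𝒟) :
    PIdeal.fac h (proj i r) = proj j r := by
  refine R_induction (fun x => PIdeal.fac h (x i) = x j) ?_ (fun p => rfl) r
  exact isClosed_eq (continuous_of_discreteTopology.comp (continuous_apply i)) (continuous_apply j)

theorem res_proj_eq (i j : S.Idx 𝒟) (r : S.R 𝒟) : i.1.res (proj i r) = j.1.res (proj j r) := by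
  letI : TopologicalSpace (ResidueField 𝒪) := ⊥
  haveI : DiscreteTopology (ResidueField 𝒪) := ⟨rfl⟩
  refine R_induction (fun x => i.1.res (x i) = j.1.res (x j)) ?_ (fun p => rfl) r
  exact isClosed_eq (continuous_of_discreteTopology.comp (continuous_apply i))
    (continuous_of_discreteTopology.comp (continuous_apply j))

section residue

variable [Nonempty (S.Idx 𝒟)]

variable (S 𝒟) in
/-- The residue map of the universal ring. -/
noncomputable def resR : S.R 𝒟 →ₐ[𝒪] ResidueField 𝒪 :=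
  (Classical.arbitrary (S.Idx 𝒟)).1.res.comp (proj (Classical.arbitrary (S.Idx 𝒟)))

theorem resR_eq (i : S.Idx 𝒟) (r : S.R 𝒟) : S.resR 𝒟 r = i.1.res (proj i r) :=
  res_proj_eq _ _ _

@[simp] theorem resR_iota (p : Poly 𝒪) : S.resR 𝒟 (S.iota 𝒟 p) = S.eps p := rfl

theorem resR_surjective : Function.Surjective (S.resR 𝒟) := by
  intro x
  obtain ⟨p, rfl⟩ := S.eps_surjective x
  exact ⟨S.iota 𝒟 p, rfl⟩

theorem isUnit_of_resR_ne_zero (r : S.R 𝒟) (h : S.resR 𝒟 r ≠ 0) : IsUnit r := by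
  have hu : ∀ i : S.Idx 𝒟, IsUnit (proj i r) := fun i =>
    i.1.isUnit_of_res_ne_zero _ (by rwa [← resR_eq])
  let s : S.Prod 𝒟 := fun i => ((hu i).unit⁻¹ : (Poly 𝒪 ⧸ i.1.a)ˣ)
  have hs : s ∈ S.Rsub 𝒟 := by
    have hcl : IsClosed ((S.Rsub 𝒟 : Subalgebra 𝒪 (S.Prod 𝒟)) : Set (S.Prod 𝒟)) :=
      Subalgebra.isClosed_topologicalClosure _
    refine hcl.mem_of_tendsto (f := fun n : ℕ => r.1 ^ (n.factorial - 1)) (b := Filter.atTop)
      ?_ (Filter.Eventually.of_forall fun n => Subalgebra.pow_mem _ r.2 _)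
    rw [tendsto_pi_nhds]
    intro i
    refine tendsto_atTop_of_eventually_const (i₀ := orderOf (hu i).unit) ?_
    intro n hn
    have hpos : 0 < orderOf (hu i).unit := orderOf_pos _
    have hdvd : orderOf (hu i).unit ∣ n.factorial := Nat.dvd_factorial hpos hn
    have h1 : (hu i).unit ^ n.factorial = 1 := orderOf_dvd_iff_pow_eq_one.1 hdvd
    have hfac : n.factorial = (n.factorial - 1) + 1 := by
      have := Nat.factorial_pos n
      omega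
    have h2 : (hu i).unit ^ (n.factorial - 1) = (hu i).unit⁻¹ := by
      apply eq_inv_of_mul_eq_one_left
      rw [← pow_succ, ← hfac, h1]
    have h3 := congrArg (fun u : (Poly 𝒪 ⧸ i.1.a)ˣ => (u : Poly 𝒪 ⧸ i.1.a)) h2
    simp only [Units.val_pow_eq_pow_val, IsUnit.unit_spec] at h3
    exact h3
  refine IsUnit.of_mul_eq_one ⟨s, hs⟩ ?_
  apply R_ext
  intro i
  rw [map_mul, map_one]
  exact (hu i).mul_val_inv

instance isLocalHom_resR : IsLocalHom (S.resR 𝒟 : S.R 𝒟 →+* ResidueField 𝒪) :=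
  ⟨fun r hr => isUnit_of_resR_ne_zero r hr.ne_zero⟩

instance isLocalRing_R : IsLocalRing (S.R 𝒟) :=
  RingHom.domain_isLocalRing (S.resR 𝒟 : S.R 𝒟 →+* ResidueField 𝒪)

theorem mem_maximalIdeal_R_iff (r : S.R 𝒟) : r ∈ maximalIdeal (S.R 𝒟) ↔ S.resR 𝒟 r = 0 := by
  rw [IsLocalRing.mem_maximalIdeal, mem_nonunits_iff]
  constructor
  · intro h
    by_contra h0
    exact h (isUnit_of_resR_ne_zero r h0)
  · intro h hu
    have := hu.map (S.resR 𝒟)
    rw [h] at this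
    exact not_isUnit_zero this

theorem isLocalHom_algebraMap_R : IsLocalHom (algebraMap 𝒪 (S.R 𝒟)) := by
  refine ⟨fun a ha => ?_⟩
  have h1 : IsUnit (S.resR 𝒟 (algebraMap 𝒪 (S.R 𝒟) a)) := ha.map (S.resR 𝒟)
  rw [AlgHom.commutes] at h1
  by_contra hna
  have : a ∈ maximalIdeal 𝒪 := hna
  rw [← IsLocalRing.residue_eq_zero_iff] at this
  rw [IsLocalRing.ResidueField.algebraMap_eq, this] at h1
  exact not_isUnit_zero h1

theorem residue_surjective_R :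
    Function.Surjective (IsLocalRing.residue (S.R 𝒟) ∘ algebraMap 𝒪 (S.R 𝒟)) := by
  intro x
  obtain ⟨y, rfl⟩ := IsLocalRing.residue_surjective x
  obtain ⟨a, ha⟩ := IsLocalRing.residue_surjective (S.resR 𝒟 y)
  refine ⟨a, ?_⟩
  rw [Function.comp_apply, ← sub_eq_zero, ← map_sub, IsLocalRing.residue_eq_zero_iff,
    mem_maximalIdeal_R_iff, map_sub, AlgHom.commutes, IsLocalRing.ResidueField.algebraMap_eq, ha,
    sub_self]

theorem proj_mem_maximalIdeal (i : S.Idx 𝒟) {r : S.R 𝒟} (hr : r ∈ maximalIdeal (S.R 𝒟)) :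
    proj i r ∈ maximalIdeal (Poly 𝒪 ⧸ i.1.a) := by
  rw [PIdeal.mem_maximalIdeal_iff, ← resR_eq]
  exact (mem_maximalIdeal_R_iff r).1 hr

theorem proj_mem_pow (i : S.Idx 𝒟) (n : ℕ) {r : S.R 𝒟} (hr : r ∈ maximalIdeal (S.R 𝒟) ^ n) :
    proj i r ∈ maximalIdeal (Poly 𝒪 ⧸ i.1.a) ^ n := by
  have hle : (maximalIdeal (S.R 𝒟)).map (proj i : S.R 𝒟 →+* Poly 𝒪 ⧸ i.1.a) ≤
      maximalIdeal (Poly 𝒪 ⧸ i.1.a) := by
    rw [Ideal.map_le_iff_le_comap]
    intro x hx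
    exact proj_mem_maximalIdeal i hx
  have := Ideal.mem_map_of_mem (proj i : S.R 𝒟 →+* Poly 𝒪 ⧸ i.1.a) hr
  rw [Ideal.map_pow] at this
  exact Ideal.pow_right_mono hle n this

theorem iInf_pow_maximalIdeal_R : ⨅ n : ℕ, maximalIdeal (S.R 𝒟) ^ n = ⊥ := by
  rw [eq_bot_iff]
  intro r hr
  rw [Ideal.mem_bot]
  apply R_ext
  intro i
  rw [map_zero]
  have h0 : ⨅ n : ℕ, maximalIdeal (Poly 𝒪 ⧸ i.1.a) ^ n = ⊥ :=
    Ideal.iInf_pow_eq_bot_of_isLocalRing _ (IsLocalRing.maximalIdeal.isMaximal _).ne_top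
  have : proj i r ∈ ⨅ n : ℕ, maximalIdeal (Poly 𝒪 ⧸ i.1.a) ^ n := by
    rw [Ideal.mem_iInf]
    intro n
    exact proj_mem_pow i n ((Ideal.mem_iInf.1 hr) n)
  rwa [h0, Ideal.mem_bot] at this

end residue

section directed

variable [Nonempty (S.Idx 𝒟)]

theorem exists_le_finset (h𝒟 : IsDeformationCondition 𝒪 𝒟) (I : Finset (S.Idx 𝒟)) :
    ∃ i : S.Idx 𝒟, ∀ j ∈ I, i.1.a ≤ j.1.a := by
  classical
  induction I using Finset.induction_on with
  | empty => exact ⟨Classical.arbitrary _, fun j hj => absurd hj (Finset.notMem_empty j)⟩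
  | insert j I hj ih =>
    obtain ⟨i, hi⟩ := ih
    refine ⟨⟨i.1.inf j.1, good_inf h𝒟 i.2 j.2⟩, fun l hl => ?_⟩
    rcases Finset.mem_insert.1 hl with rfl | hl
    · exact inf_le_right
    · exact inf_le_left.trans (hi l hl)

theorem exists_proj_nhds (h𝒟 : IsDeformationCondition 𝒪 𝒟) (r : S.R 𝒟) {U : Set (S.R 𝒟)}
    (hU : IsOpen U) (hr : r ∈ U) :
    ∃ i : S.Idx 𝒟, ∀ x : S.R 𝒟, proj i x = proj i r → x ∈ U := by
  obtain ⟨U', hU', rfl⟩ := isOpen_induced_iff.1 hU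
  obtain ⟨I, u, hu, hsub⟩ := isOpen_pi_iff.1 hU' r.1 hr
  obtain ⟨i, hi⟩ := exists_le_finset h𝒟 I
  refine ⟨i, fun x hx => hsub ?_⟩
  intro j hj
  have h1 := fac_proj (hi j hj) x
  have h2 := fac_proj (hi j hj) r
  rw [hx] at h1
  have h3 : x.1 j = r.1 j := h1.symm.trans h2
  rw [h3]
  exact (hu j hj).2

theorem maximalIdeal_R_fg (h𝒟 : IsDeformationCondition 𝒪 𝒟) [IsNoetherianRing 𝒪]
    (s : Finset (Poly 𝒪)) (hs : ∀ p ∈ s, S.eps p = 0)
    (hgen : ∀ i : S.PIdeal, Good 𝒟 i →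
      RingHom.ker S.eps ≤ Ideal.span (s : Set (Poly 𝒪)) ⊔ (RingHom.ker S.eps) ^ 2 ⊔
        Ideal.map (algebraMap 𝒪 (Poly 𝒪)) (maximalIdeal 𝒪) ⊔ i.a) :
    (maximalIdeal (S.R 𝒟)).FG := by
  set 𝔧 : Ideal (Poly 𝒪) :=
    Ideal.span (s : Set (Poly 𝒪)) ⊔ Ideal.map (algebraMap 𝒪 (Poly 𝒪)) (maximalIdeal 𝒪) with h𝔧
  have h𝔧fg : 𝔧.FG :=
    Submodule.FG.sup ⟨s, rfl⟩ (Ideal.FG.map (IsNoetherian.noetherian (maximalIdeal 𝒪)) _)
  have h𝔧le : 𝔧 ≤ RingHom.ker S.eps := by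
    refine sup_le (Ideal.span_le.2 fun p hp => hs p hp) ?_
    rw [Ideal.map_le_iff_le_comap]
    intro a ha
    rw [Ideal.mem_comap, RingHom.mem_ker, AlgHom.commutes,
      IsLocalRing.ResidueField.algebraMap_eq, IsLocalRing.residue_eq_zero_iff]
    exact ha
  set J : Ideal (S.R 𝒟) := Ideal.map (S.iota 𝒟 : Poly 𝒪 →+* S.R 𝒟) 𝔧 with hJ
  have hJfg : J.FG := Ideal.FG.map h𝔧fg _
  have hJle : J ≤ maximalIdeal (S.R 𝒟) := by
    rw [hJ, Ideal.map_le_iff_le_comap]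
    intro p hp
    rw [Ideal.mem_comap, mem_maximalIdeal_R_iff]
    exact h𝔧le hp
  have hfin : ∀ (i : S.Idx 𝒟) (y : Poly 𝒪 ⧸ i.1.a), y ∈ maximalIdeal (Poly 𝒪 ⧸ i.1.a) →
      ∃ p ∈ 𝔧, i.1.q p = y := by
    intro i y hy
    have hsurj : Function.Surjective (i.1.q : Poly 𝒪 →+* Poly 𝒪 ⧸ i.1.a) := i.1.q_surjective
    set N : Ideal (Poly 𝒪 ⧸ i.1.a) := Ideal.map (i.1.q : Poly 𝒪 →+* Poly 𝒪 ⧸ i.1.a) 𝔧 with hN
    have hker : Ideal.map (i.1.q : Poly 𝒪 →+* Poly 𝒪 ⧸ i.1.a) (RingHom.ker S.eps) ≤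
        maximalIdeal (Poly 𝒪 ⧸ i.1.a) := by
      rw [Ideal.map_le_iff_le_comap]
      intro p hp
      rw [Ideal.mem_comap, PIdeal.mem_maximalIdeal_iff]
      exact hp
    have hle : maximalIdeal (Poly 𝒪 ⧸ i.1.a) ≤
        N ⊔ maximalIdeal (Poly 𝒪 ⧸ i.1.a) • maximalIdeal (Poly 𝒪 ⧸ i.1.a) := by
      intro z hz
      obtain ⟨p, rfl⟩ := i.1.q_surjective z
      have hp : p ∈ RingHom.ker S.eps := (PIdeal.mem_maximalIdeal_iff i.1 _).1 hz
      have hp2 := Ideal.mem_map_of_mem (i.1.q : Poly 𝒪 →+* Poly 𝒪 ⧸ i.1.a) (hgen i.1 i.2 hp)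
      have hmap : Ideal.map (i.1.q : Poly 𝒪 →+* Poly 𝒪 ⧸ i.1.a)
          (Ideal.span (s : Set (Poly 𝒪)) ⊔ (RingHom.ker S.eps) ^ 2 ⊔
            Ideal.map (algebraMap 𝒪 (Poly 𝒪)) (maximalIdeal 𝒪) ⊔ i.1.a) ≤
          N ⊔ maximalIdeal (Poly 𝒪 ⧸ i.1.a) • maximalIdeal (Poly 𝒪 ⧸ i.1.a) := by
        rw [Ideal.map_sup, Ideal.map_sup, Ideal.map_sup]
        refine sup_le (sup_le (sup_le ?_ ?_) ?_) ?_
        · exact le_sup_of_le_left (Ideal.map_mono le_sup_left)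
        · rw [Ideal.map_pow, smul_eq_mul, ← pow_two]
          exact le_sup_of_le_right (Ideal.pow_right_mono hker 2)
        · exact le_sup_of_le_left (Ideal.map_mono le_sup_right)
        · rw [Ideal.map_le_iff_le_comap]
          intro p hp
          rw [Ideal.mem_comap]
          have : (i.1.q : Poly 𝒪 →+* Poly 𝒪 ⧸ i.1.a) p = 0 := Ideal.Quotient.eq_zero_iff_mem.2 hp
          rw [this]
          exact Ideal.zero_mem _
      exact hmap hp2
    have hNak := Submodule.le_of_le_smul_of_le_jacobson_bot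
      (IsNoetherian.noetherian (maximalIdeal (Poly 𝒪 ⧸ i.1.a)))
      (IsLocalRing.maximalIdeal_le_jacobson ⊥) hle
    have hyN : y ∈ N := hNak hy
    rw [hN, Ideal.mem_map_iff_of_surjective _ hsurj] at hyN
    obtain ⟨p, hp, rfl⟩ := hyN
    exact ⟨p, hp, rfl⟩
  have hcl : IsClosed (J : Set (S.R 𝒟)) := isClosed_of_fg_ideal J hJfg
  have hmle : maximalIdeal (S.R 𝒟) ≤ J := by
    intro r hr
    have : r ∈ closure (J : Set (S.R 𝒟)) := by
      rw [mem_closure_iff]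
      intro U hU hrU
      obtain ⟨i, hi⟩ := exists_proj_nhds h𝒟 r hU hrU
      obtain ⟨p, hp, hpr⟩ := hfin i (proj i r) (proj_mem_maximalIdeal i hr)
      exact ⟨S.iota 𝒟 p, hi _ (by rw [proj_iota, hpr]), Ideal.mem_map_of_mem _ hp⟩
    rwa [hcl.closure_eq] at this
  rw [le_antisymm hmle hJle]
  exact hJfg

theorem isNoetherianRing_R (hfg : (maximalIdeal (S.R 𝒟)).FG) : IsNoetherianRing (S.R 𝒟) := by
  letI := Ideal.Quotient.field (maximalIdeal (S.R 𝒟))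
  exact isNoetherianRing_of_compact (maximalIdeal (S.R 𝒟)) hfg iInf_pow_maximalIdeal_R

theorem isAdicComplete_R (hfg : (maximalIdeal (S.R 𝒟)).FG) :
    IsAdicComplete (maximalIdeal (S.R 𝒟)) (S.R 𝒟) :=
  isAdicComplete_of_compact (maximalIdeal (S.R 𝒟)) hfg iInf_pow_maximalIdeal_R

theorem exists_ker_proj_le_pow (h𝒟 : IsDeformationCondition 𝒪 𝒟)
    (hfg : (maximalIdeal (S.R 𝒟)).FG) (n : ℕ) :
    ∃ i : S.Idx 𝒟, ∀ x : S.R 𝒟, proj i x = 0 → x ∈ maximalIdeal (S.R 𝒟) ^ n := by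
  haveI := isNoetherianRing_R hfg
  have hopen : IsOpen ((maximalIdeal (S.R 𝒟) ^ n : Ideal (S.R 𝒟)) : Set (S.R 𝒟)) :=
    IsLocalRing.isOpen_maximalIdeal_pow (S.R 𝒟) n
  obtain ⟨i, hi⟩ := exists_proj_nhds h𝒟 (0 : S.R 𝒟) hopen (Ideal.zero_mem _)
  exact ⟨i, fun x hx => hi x (by rw [hx, map_zero])⟩

theorem exists_pow_le_ker_proj (i : S.Idx 𝒟) :
    ∃ n : ℕ, ∀ x : S.R 𝒟, x ∈ maximalIdeal (S.R 𝒟) ^ n → proj i x = 0 := by
  obtain ⟨n, hn⟩ := IsArtinianRing.isNilpotent_jacobson_bot (R := Poly 𝒪 ⧸ i.1.a)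
  refine ⟨n, fun x hx => ?_⟩
  have := proj_mem_pow i n hx
  rw [← IsLocalRing.jacobson_eq_maximalIdeal (⊥ : Ideal (Poly 𝒪 ⧸ i.1.a)) bot_ne_top, hn] at this
  exact this

omit [Nonempty (S.Idx 𝒟)] in
theorem isNRep_iota : S.IsNRep (matOf (S.iota 𝒟)) := by
  rw [← relSet_iff]
  intro p hp
  apply R_ext
  intro i
  rw [proj_iota, map_zero]
  exact Ideal.Quotient.eq_zero_iff_mem.2 (i.1.rel p hp)

theorem isLiftFn_iota : S.IsLiftFn (matOf (S.iota 𝒟)) := by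
  intro g a b
  rw [mem_maximalIdeal_R_iff, map_sub, matOf_apply, resR_iota, AlgHom.commutes,
    IsLocalRing.ResidueField.algebraMap_eq, S.hτ, eps, evalHom_X, sub_self]

/-- The universal representation. -/
noncomputable def univRep (h𝒟 : IsDeformationCondition 𝒪 𝒟)
    (hfg : (maximalIdeal (S.R 𝒟)).FG) : MRep (S.R 𝒟) where
  m := matOf (S.iota 𝒟)
  map_one := isNRep_iota.one
  map_mul := isNRep_iota.mul
  cont := by
    intro n
    obtain ⟨i, hi⟩ := exists_ker_proj_le_pow h𝒟 hfg n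
    obtain ⟨L, hL, h⟩ := i.1.cont
    refine ⟨L, hL, fun σ hσ a b => hi _ ?_⟩
    have : (matOf (S.iota 𝒟) σ - 1) a b = S.iota 𝒟 ((Xg 𝒪 σ - 1) a b) := by
      by_cases hab : a = b <;> simp [Matrix.sub_apply, Xg, hab]
    rw [this, proj_iota]
    exact Ideal.Quotient.eq_zero_iff_mem.2 (h σ hσ a b)

@[simp] theorem univRep_m (h𝒟 : IsDeformationCondition 𝒪 𝒟)
    (hfg : (maximalIdeal (S.R 𝒟)).FG) : (univRep h𝒟 hfg).m = matOf (S.iota 𝒟) := rfl

end directed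

end Setup

end Fermat.Agent.S53
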