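import Mathlib

set_option autoImplicit false
set_option linter.style.haveILetI false

namespace Fermat.Agent.S53

open CategoryTheory

universe u v

section Compactness

/-- Inverse limits of finite nonempty sets over a directed index are nonempty.
`r i j` means that there is a transition map `X i → X j`. -/
theorem exists_compatible_family {ι : Type u} (r : ι → ι → Prop) (hrefl : ∀ i, r i i)
    (htrans : ∀ i j k, r i j → r j k → r i k) (hdir : ∀ i j, ∃ k, r k i ∧ r k j)
    (X : ι → Type v) [∀ i, Finite (X i)] [∀ i, Nonempty (X i)]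
    (f : ∀ i j, r i j → X i → X j)
    (hf_comp : ∀ i j k (hij : r i j) (hjk : r j k) (hik : r i k) (x : X i),
      f j k hjk (f i j hij x) = f i k hik x)
    (hf_id : ∀ i (h : r i i) (x : X i), f i i h x = x) :
    ∃ w : ∀ i, X i, ∀ i j (h : r i j), f i j h (w i) = w j := by
  letI : Preorder ι :=
    { le := fun i j => r j i
      le_refl := hrefl
      le_trans := fun i j k hij hjk => htrans k j i hjk hij }
  haveI : IsDirectedOrder ι := ⟨fun i j => by
    obtain ⟨k, hki, hkj⟩ := hdir i j
    exact ⟨k, hki, hkj⟩⟩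
  let F : ιᵒᵖ ⥤ Type v :=
    { obj := fun i => X i.unop
      map := fun {i j} g => ↾(f i.unop j.unop (leOfHom g.unop))
      map_id := fun i => by
        ext x
        exact hf_id _ _ x
      map_comp := fun {i j k} g g' => by
        ext x
        exact (hf_comp _ _ _ _ _ _ x).symm }
  haveI : ∀ j : ιᵒᵖ, Finite (F.obj j) := fun j => inferInstanceAs (Finite (X j.unop))
  haveI : ∀ j : ιᵒᵖ, Nonempty (F.obj j) := fun j => inferInstanceAs (Nonempty (X j.unop))
  obtain ⟨w, hw⟩ := nonempty_sections_of_finite_inverse_system F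
  refine ⟨fun i => w (Opposite.op i), fun i j h => ?_⟩
  exact hw (Quiver.Hom.op (homOfLE h) : Opposite.op i ⟶ Opposite.op j)

end Compactness

section Noeth

variable {R : Type u} [CommRing R]

/-- `J` is closed for the `I`-adic topology. -/
def AdicClosed (I J : Ideal R) : Prop := ∀ x : R, (∀ n : ℕ, x ∈ J ⊔ I ^ n) → x ∈ J

theorem exists_fg_le_map_eq {S : Type v} [CommRing S] (q : R →+* S) (hq : Function.Surjective q)
    (I : Ideal R) (h : (I.map q).FG) : ∃ W : Ideal R, W.FG ∧ W ≤ I ∧ W.map q = I.map q := by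
  obtain ⟨s, hs⟩ := h
  have hmem : ∀ y : (s : Set S), ∃ x : R, x ∈ I ∧ q x = y := fun y => by
    have hy : (y : S) ∈ I.map q := by
      rw [← hs]
      exact Submodule.subset_span y.2
    exact (Ideal.mem_map_iff_of_surjective q hq).1 hy
  choose g hgI hgq using hmem
  refine ⟨Ideal.span (Set.range g), Submodule.fg_span (Set.finite_range g), ?_, ?_⟩
  · rw [Ideal.span_le]
    rintro _ ⟨y, rfl⟩
    exact hgI y
  · rw [Ideal.map_span, ← hs]
    congr 1
    ext z
    constructor
    · rintro ⟨_, ⟨y, rfl⟩, rfl⟩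
      rw [hgq]
      exact y.2
    · intro hz
      exact ⟨g ⟨z, hz⟩, ⟨_, rfl⟩, hgq _⟩

theorem isNoetherianRing_of_quotient_singleton (t : R)
    (hq : IsNoetherianRing (R ⧸ Ideal.span {t}))
    (hcl : ∀ J : Ideal R, J.FG → AdicClosed (Ideal.span {t}) J) : IsNoetherianRing R := by
  rw [isNoetherianRing_iff_ideal_fg]
  intro J
  let q : R →+* R ⧸ Ideal.span {t} := Ideal.Quotient.mk _
  have hqs : Function.Surjective q := Ideal.Quotient.mk_surjective
  -- the colon ideals
  let Jn : ℕ → Ideal R := fun n => Submodule.comap (LinearMap.mulLeft R (t ^ n)) J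
  have hJn : ∀ n (r : R), r ∈ Jn n ↔ t ^ n * r ∈ J := fun n r => Iff.rfl
  have hJn_mono : ∀ n, Jn n ≤ Jn (n + 1) := fun n r hr => by
    rw [hJn] at hr ⊢
    rw [pow_succ, mul_comm (t ^ n) t, mul_assoc]
    exact J.mul_mem_left t hr
  have hJn_mono' : ∀ m n, m ≤ n → Jn m ≤ Jn n := fun m n h =>
    monotone_nat_of_le_succ hJn_mono h
  let L : ℕ →o Ideal (R ⧸ Ideal.span {t}) :=
    ⟨fun n => (Jn n).map q, fun m n h => Ideal.map_mono (hJn_mono' m n h)⟩
  obtain ⟨N, hN⟩ := monotone_stabilizes_iff_noetherian.mpr hq L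
  have hW : ∀ n, ∃ W : Ideal R, W.FG ∧ W ≤ Jn n ∧ W.map q = (Jn n).map q := fun n =>
    exists_fg_le_map_eq q hqs (Jn n) (IsNoetherian.noetherian _)
  choose W hWfg hWle hWmap using hW
  -- one step of division by `t`
  have hstep : ∀ n m, m ≤ n → (Jn m).map q = (Jn n).map q → ∀ y ∈ Jn n,
      ∃ w ∈ W m, ∃ y' ∈ Jn (n + 1), y = w + t * y' := by
    intro n m hmn hmap y hy
    have hqy : q y ∈ (W m).map q := by
      rw [hWmap, hmap]
      exact Ideal.mem_map_of_mem q hy
    obtain ⟨w, hw, hwq⟩ := (Ideal.mem_map_iff_of_surjective q hqs).1 hqy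
    have hker : y - w ∈ Ideal.span {t} := by
      rw [← Ideal.Quotient.eq_zero_iff_mem, map_sub]
      exact sub_eq_zero.mpr hwq.symm
    obtain ⟨y', hy'⟩ := Ideal.mem_span_singleton'.1 hker
    refine ⟨w, hw, y', ?_, ?_⟩
    · rw [hJn]
      have h1 : t ^ (n + 1) * y' = t ^ n * y - t ^ n * w := by
        rw [← mul_sub, ← hy']
        ring
      rw [h1]
      exact J.sub_mem ((hJn n y).1 hy) ((hJn n w).1 (hJn_mono' m n hmn (hWle m hw)))
    · rw [mul_comm, hy']
      ring
  -- `Jn N` is contained in the closure of `W N`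
  have hclos : ∀ k n, N ≤ n → Jn n ≤ W N ⊔ Ideal.span {t} ^ k := by
    intro k
    induction k with
    | zero => intro n _; simp
    | succ k ih =>
      intro n hn y hy
      obtain ⟨w, hw, y', hy', rfl⟩ := hstep n N hn (hN n hn) y hy
      obtain ⟨w', hw', z, hz, hwz⟩ := Submodule.mem_sup.1 (ih (n + 1) (by omega) hy')
      rw [← hwz, mul_add, ← add_assoc]
      refine Submodule.add_mem_sup ((W N).add_mem hw ((W N).mul_mem_left t hw')) ?_
      rw [pow_succ']
      exact Ideal.mul_mem_mul (Ideal.mem_span_singleton_self t) hz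
  have hJN : Jn N ≤ W N := fun y hy =>
    hcl (W N) (hWfg N) y fun k => hclos k N le_rfl hy
  -- the finitely generated candidate
  let F : Ideal R := ⨆ i ∈ Finset.range (N + 1), Ideal.span {t ^ i} * W i
  have hFfg : F.FG := Submodule.fg_biSup _ _ fun i _ =>
    Ideal.FG.mul (Submodule.fg_span_singleton _) (hWfg i)
  have hFmem : ∀ i, i ≤ N → ∀ w ∈ W i, t ^ i * w ∈ F := fun i hi w hw => by
    have h1 : t ^ i * w ∈ Ideal.span {t ^ i} * W i :=
      Ideal.mul_mem_mul (Ideal.mem_span_singleton_self _) hw
    have h2 : Ideal.span {t ^ i} * W i ≤ F :=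
      le_biSup (fun i => Ideal.span {t ^ i} * W i) (Finset.mem_range.2 (by omega))
    exact h2 h1
  have hmain : ∀ j, j ≤ N → ∀ y ∈ Jn (N - j), t ^ (N - j) * y ∈ F := by
    intro j
    induction j with
    | zero =>
      intro _ y hy
      exact hFmem N le_rfl y (hJN hy)
    | succ j ih =>
      intro hj y hy
      obtain ⟨w, hw, y', hy', rfl⟩ := hstep (N - (j + 1)) (N - (j + 1)) le_rfl rfl y hy
      have e : N - (j + 1) + 1 = N - j := by omega
      rw [e] at hy'
      rw [mul_add]
      refine F.add_mem (hFmem _ (by omega) w hw) ?_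
      have h3 : t ^ (N - (j + 1)) * (t * y') = t ^ (N - j) * y' := by
        rw [← e, pow_succ]
        ring
      rw [h3]
      exact ih (by omega) y' hy'
  have hle : J ≤ F := fun y hy => by
    have := hmain N le_rfl y (by rw [Nat.sub_self, hJn, pow_zero, one_mul]; exact hy)
    rwa [Nat.sub_self, pow_zero, one_mul] at this
  have hge : F ≤ J := by
    refine iSup₂_le fun i _ => ?_
    rw [Ideal.mul_le]
    intro a ha w hw
    obtain ⟨c, rfl⟩ := Ideal.mem_span_singleton'.1 ha
    rw [mul_assoc]
    exact J.mul_mem_left c ((hJn i w).1 (hWle i hw))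
  rw [le_antisymm hle hge]
  exact hFfg

theorem isNoetherianRing_of_fg_closed_aux : ∀ (m : ℕ) (R : Type u) [CommRing R] (g : Fin m → R),
    IsNoetherianRing (R ⧸ Ideal.span (Set.range g)) →
    (∀ J : Ideal R, J.FG → AdicClosed (Ideal.span (Set.range g)) J) → IsNoetherianRing R := by
  intro m
  induction m with
  | zero =>
    intro R _ g hq _
    have h0 : Ideal.span (Set.range g) = ⊥ := by
      rw [Ideal.span_eq_bot]
      rintro _ ⟨i, rfl⟩
      exact i.elim0
    rw [h0] at hq
    exact isNoetherianRing_of_ringEquiv (R ⧸ (⊥ : Ideal R)) (RingEquiv.quotientBot R)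
  | succ m ih =>
    intro R _ g hq hcl
    let t : R := g 0
    let I : Ideal R := Ideal.span (Set.range g)
    let g' : Fin m → R := fun i => g i.succ
    let q : R →+* R ⧸ Ideal.span {t} := Ideal.Quotient.mk _
    have hqs : Function.Surjective q := Ideal.Quotient.mk_surjective
    have htI : Ideal.span {t} ≤ I := by
      rw [Ideal.span_le, Set.singleton_subset_iff]
      exact Ideal.subset_span ⟨0, rfl⟩
    have hg'I : Ideal.span (Set.range g') ≤ I := by
      rw [Ideal.span_le]
      rintro _ ⟨i, rfl⟩
      exact Ideal.subset_span ⟨i.succ, rfl⟩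
    -- the quotient by `t` is Noetherian by induction
    have hR' : IsNoetherianRing (R ⧸ Ideal.span {t}) := by
      refine ih (R ⧸ Ideal.span {t}) (fun i => q (g' i)) ?_ ?_
      · -- the further quotient is a quotient of `R ⧸ I`
        let q' : (R ⧸ Ideal.span {t}) →+* _ :=
          Ideal.Quotient.mk (Ideal.span (Set.range fun i => q (g' i)))
        have hkill : ∀ a ∈ I, (q'.comp q) a = 0 := by
          intro a ha
          have hle : I ≤ RingHom.ker (q'.comp q) := by
            rw [Ideal.span_le]
            rintro _ ⟨i, rfl⟩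
            rw [SetLike.mem_coe, RingHom.mem_ker, RingHom.comp_apply]
            refine Fin.cases ?_ (fun j => ?_) i
            · have : q (g 0) = 0 :=
                Ideal.Quotient.eq_zero_iff_mem.2 (Ideal.mem_span_singleton_self _)
              rw [this, map_zero]
            · exact Ideal.Quotient.eq_zero_iff_mem.2 (Ideal.subset_span ⟨j, rfl⟩)
          exact hle ha
        have hsurj : Function.Surjective (Ideal.Quotient.lift I (q'.comp q) hkill) := by
          apply Ideal.Quotient.lift_surjective_of_surjective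
          exact Ideal.Quotient.mk_surjective.comp hqs
        exact isNoetherianRing_of_surjective _ _ _ hsurj
      · intro J' hJ' x' hx'
        obtain ⟨x, rfl⟩ := hqs x'
        have hJ'' : ((J'.comap q).map q).FG := by
          rwa [Ideal.map_comap_of_surjective q hqs]
        obtain ⟨W, hWfg, hWle, hWmap⟩ := exists_fg_le_map_eq q hqs (J'.comap q) hJ''
        rw [Ideal.map_comap_of_surjective q hqs] at hWmap
        let J₀ : Ideal R := W ⊔ Ideal.span {t}
        have hJ₀fg : J₀.FG := Submodule.FG.sup hWfg (Submodule.fg_span_singleton t)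
        have hJ₀map : J₀.map q = J' := by
          rw [Ideal.map_sup, hWmap, Ideal.map_span, Set.image_singleton]
          have : q t = 0 := Ideal.Quotient.eq_zero_iff_mem.2 (Ideal.mem_span_singleton_self _)
          rw [this, Ideal.span_singleton_zero, sup_bot_eq]
        have hx : x ∈ J₀ := by
          refine hcl J₀ hJ₀fg x fun n => ?_
          have h1 : q x ∈ (J₀ ⊔ Ideal.span (Set.range g') ^ n).map q := by
            rw [Ideal.map_sup, hJ₀map, Ideal.map_pow, Ideal.map_span, ← Set.range_comp]
            exact hx' n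
          obtain ⟨z, hz, hzq⟩ := (Ideal.mem_map_iff_of_surjective q hqs).1 h1
          have hker : x - z ∈ Ideal.span {t} := by
            rw [← Ideal.Quotient.eq_zero_iff_mem, map_sub]
            exact sub_eq_zero.mpr hzq.symm
          have hle : J₀ ⊔ Ideal.span (Set.range g') ^ n ≤ J₀ ⊔ I ^ n :=
            sup_le_sup_left (Ideal.pow_right_mono hg'I n) _
          have hx2 : x = (x - z) + z := by ring
          rw [hx2]
          exact (J₀ ⊔ I ^ n).add_mem
            (Submodule.mem_sup_left (Submodule.mem_sup_right hker)) (hle hz)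
        rw [← hJ₀map]
        exact Ideal.mem_map_of_mem q hx
    refine isNoetherianRing_of_quotient_singleton t hR' fun J hJ x hx => ?_
    exact hcl J hJ x fun n => sup_le_sup_left (Ideal.pow_right_mono htI n) _ (hx n)

/-- A ring in which finitely generated ideals are closed for the `I`-adic topology, with `I`
finitely generated and `R ⧸ I` Noetherian, is Noetherian. -/
theorem isNoetherianRing_of_fg_closed {R : Type u} [CommRing R] (I : Ideal R) (hI : I.FG)
    (hq : IsNoetherianRing (R ⧸ I)) (hcl : ∀ J : Ideal R, J.FG → AdicClosed I J) :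
    IsNoetherianRing R := by
  obtain ⟨s, hs⟩ := hI
  obtain ⟨m, g, hg⟩ : ∃ (m : ℕ) (g : Fin m → R), Set.range g = (s : Set R) := by
    refine ⟨s.card, fun i => (s.equivFin.symm i : R), ?_⟩
    ext x
    constructor
    · rintro ⟨i, rfl⟩
      exact (s.equivFin.symm i).2
    · intro hx
      exact ⟨s.equivFin ⟨x, hx⟩, by simp⟩
  have hIg : Ideal.span (Set.range g) = I := by rw [hg]; exact hs
  subst hIg
  exact isNoetherianRing_of_fg_closed_aux m R g hq hcl

end Noeth

end Fermat.Agent.S53
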