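import Fermat.Agent.S53.Good

set_option autoImplicit false

open GaloisRep IsLocalRing

namespace Fermat.Agent.S53

namespace Setup

variable {𝒪 : Type} [CommRing 𝒪] [IsLocalRing 𝒪] {ρbar : ResidualGaloisRep (ResidueField 𝒪)}
  {S : Setup 𝒪 ρbar}
variable {𝒟 : ∀ ⦃A : Type⦄ [CommRing A] [IsLocalRing A] [Algebra 𝒪 A], GaloisRepAdic A → Prop}

/-- The ideal cutting out the tangent space: `(ker eps)^2 + m_𝒪`. -/
noncomputable def tIdeal (S : Setup 𝒪 ρbar) : Ideal (Poly 𝒪) :=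
  (RingHom.ker S.eps) ^ 2 ⊔ Ideal.map (algebraMap 𝒪 (Poly 𝒪)) (maximalIdeal 𝒪)

theorem map_maximalIdeal_le_ker :
    Ideal.map (algebraMap 𝒪 (Poly 𝒪)) (maximalIdeal 𝒪) ≤ RingHom.ker S.eps := by
  rw [Ideal.map_le_iff_le_comap]
  intro a ha
  rw [Ideal.mem_comap, RingHom.mem_ker, AlgHom.commutes, IsLocalRing.ResidueField.algebraMap_eq,
    IsLocalRing.residue_eq_zero_iff]
  exact ha

theorem tIdeal_le : S.tIdeal ≤ RingHom.ker S.eps :=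
  sup_le (Ideal.pow_le_self two_ne_zero) map_maximalIdeal_le_ker

/-- (T2) the cardinality of a quotient killed by the tangent ideal is bounded in terms of the
number of its homs to the dual numbers. -/
theorem card_le_of_tIdeal_le [Finite (ResidueField 𝒪)] (i : S.PIdeal) (hi : S.tIdeal ≤ i.a)
    (T : ℕ)
    (hT : letI := dualAlg 𝒪
      ∀ s : Finset (Poly 𝒪 ⧸ i.a →ₐ[𝒪] DualNumber (ResidueField 𝒪)), s.card ≤ T) :
    Nat.card (Poly 𝒪 ⧸ i.a) ≤ Nat.card (DualNumber (ResidueField 𝒪)) ^ T := by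
  let _ := dualAlg 𝒪
  have hD : Finite (DualNumber (ResidueField 𝒪)) :=
    inferInstanceAs (Finite (ResidueField 𝒪 × ResidueField 𝒪))
  have hH : Finite (Poly 𝒪 ⧸ i.a →ₐ[𝒪] DualNumber (ResidueField 𝒪)) :=
    Finite.of_injective (fun ψ => (ψ : Poly 𝒪 ⧸ i.a → DualNumber (ResidueField 𝒪)))
      DFunLike.coe_injective
  have hcardH : Nat.card (Poly 𝒪 ⧸ i.a →ₐ[𝒪] DualNumber (ResidueField 𝒪)) ≤ T := by
    have := Fintype.ofFinite (Poly 𝒪 ⧸ i.a →ₐ[𝒪] DualNumber (ResidueField 𝒪))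
    rw [Nat.card_eq_fintype_card, ← Finset.card_univ]
    exact hT _
  have hsq : ∀ x ∈ maximalIdeal (Poly 𝒪 ⧸ i.a), ∀ y ∈ maximalIdeal (Poly 𝒪 ⧸ i.a),
      x * y = 0 := by
    intro x hx y hy
    obtain ⟨p, rfl⟩ := i.q_surjective x
    obtain ⟨p', rfl⟩ := i.q_surjective y
    rw [PIdeal.mem_maximalIdeal_iff, PIdeal.res_q] at hx hy
    rw [← map_mul, Ideal.Quotient.mkₐ_eq_mk, Ideal.Quotient.eq_zero_iff_mem]
    apply hi
    apply Ideal.mem_sup_left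
    rw [pow_two]
    exact Ideal.mul_mem_mul hx hy
  have hπ : ∀ a ∈ maximalIdeal 𝒪, algebraMap 𝒪 (Poly 𝒪 ⧸ i.a) a = 0 := by
    intro a ha
    have : algebraMap 𝒪 (Poly 𝒪 ⧸ i.a) a = Ideal.Quotient.mk i.a (algebraMap 𝒪 (Poly 𝒪) a) := rfl
    rw [this, Ideal.Quotient.eq_zero_iff_mem]
    apply hi
    apply Ideal.mem_sup_right
    exact Ideal.mem_map_of_mem _ ha
  have hinj : Function.Injective
      (fun (s : Poly 𝒪 ⧸ i.a) (ψ : Poly 𝒪 ⧸ i.a →ₐ[𝒪] DualNumber (ResidueField 𝒪)) => ψ s) := by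
    intro s s' h
    by_contra hne
    have hne' : s - s' ≠ 0 := sub_ne_zero.2 hne
    obtain ⟨ψ, hψ⟩ := exists_algHom_dualNumber_ne_zero i.residue_surjective hsq hπ (s - s') hne'
    apply hψ
    rw [map_sub, sub_eq_zero]
    exact congrFun h ψ
  calc Nat.card (Poly 𝒪 ⧸ i.a)
      ≤ Nat.card ((Poly 𝒪 ⧸ i.a →ₐ[𝒪] DualNumber (ResidueField 𝒪)) →
          DualNumber (ResidueField 𝒪)) := Nat.card_le_card_of_injective _ hinj
    _ = Nat.card (DualNumber (ResidueField 𝒪)) ^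
          Nat.card (Poly 𝒪 ⧸ i.a →ₐ[𝒪] DualNumber (ResidueField 𝒪)) := Nat.card_fun
    _ ≤ Nat.card (DualNumber (ResidueField 𝒪)) ^ T :=
        Nat.pow_le_pow_right Nat.card_pos hcardH

/-- (T3) a smallest good ideal containing the tangent ideal. -/
theorem exists_min_good (h𝒟 : IsDeformationCondition 𝒪 𝒟)
    (hne : ∃ i : S.PIdeal, Good 𝒟 i) (B : ℕ)
    (hB : ∀ i : S.PIdeal, Good 𝒟 i → S.tIdeal ≤ i.a → Nat.card (Poly 𝒪 ⧸ i.a) ≤ B) :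
    ∃ i₁ : S.PIdeal, Good 𝒟 i₁ ∧ S.tIdeal ≤ i₁.a ∧
      ∀ j : S.PIdeal, Good 𝒟 j → S.tIdeal ≤ j.a → i₁.a ≤ j.a := by
  classical
  let Q : ℕ → Prop := fun n => ∃ i : S.PIdeal, Good 𝒟 i ∧ S.tIdeal ≤ i.a ∧
    Nat.card (Poly 𝒪 ⧸ i.a) = n
  obtain ⟨i₀, hi₀⟩ := hne
  let i₀' : S.PIdeal := i₀.up (i₀.a ⊔ S.tIdeal) le_sup_left (sup_le i₀.le tIdeal_le)
  have hi₀' : Good 𝒟 i₀' := good_of_le h𝒟 (i := i₀) (j := i₀') le_sup_left hi₀
  have ht₀ : S.tIdeal ≤ i₀'.a := le_sup_right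
  have hQ₀ : Q (Nat.card (Poly 𝒪 ⧸ i₀'.a)) := ⟨i₀', hi₀', ht₀, rfl⟩
  obtain ⟨i₁, hi₁, ht₁, hc₁⟩ := Nat.findGreatest_spec (hB i₀' hi₀' ht₀) hQ₀
  refine ⟨i₁, hi₁, ht₁, fun j hj htj => ?_⟩
  have hk : Good 𝒟 (i₁.inf j) := good_inf h𝒟 hi₁ hj
  have htk : S.tIdeal ≤ (i₁.inf j).a := le_inf ht₁ htj
  have hle : Nat.card (Poly 𝒪 ⧸ (i₁.inf j).a) ≤ Nat.card (Poly 𝒪 ⧸ i₁.a) := by
    rw [hc₁]
    exact Nat.le_findGreatest (hB _ hk htk) ⟨i₁.inf j, hk, htk, rfl⟩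
  have hl : (i₁.inf j).a ≤ i₁.a := inf_le_left
  have hbij := (PIdeal.fac_surjective hl).bijective_of_nat_card_le hle
  intro p hp
  have h0 : PIdeal.fac hl (Ideal.Quotient.mk _ p) = PIdeal.fac hl 0 := by
    rw [PIdeal.fac_mk, map_zero, Ideal.Quotient.eq_zero_iff_mem]
    exact hp
  have h1 := hbij.1 h0
  rw [Ideal.Quotient.eq_zero_iff_mem] at h1
  exact h1.2

/-- (T4) assembly: a finite set generating the kernel of `eps` modulo the tangent ideal and any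
good ideal. -/
theorem exists_finset_gens_of_bound [Finite (ResidueField 𝒪)] (h𝒟 : IsDeformationCondition 𝒪 𝒟)
    (hne : ∃ i : S.PIdeal, Good 𝒟 i)
    (hT : ∃ T : ℕ, ∀ i : S.PIdeal, Good 𝒟 i → letI := dualAlg 𝒪
      ∀ s : Finset (Poly 𝒪 ⧸ i.a →ₐ[𝒪] DualNumber (ResidueField 𝒪)), s.card ≤ T) :
    ∃ s : Finset (Poly 𝒪), (∀ p ∈ s, S.eps p = 0) ∧ ∀ i : S.PIdeal, Good 𝒟 i →
      RingHom.ker S.eps ≤ Ideal.span (s : Set (Poly 𝒪)) ⊔ (RingHom.ker S.eps) ^ 2 ⊔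
        Ideal.map (algebraMap 𝒪 (Poly 𝒪)) (maximalIdeal 𝒪) ⊔ i.a := by
  classical
  obtain ⟨T, hT⟩ := hT
  obtain ⟨i₁, hi₁, ht₁, hmin⟩ := exists_min_good h𝒟 hne
    (Nat.card (DualNumber (ResidueField 𝒪)) ^ T)
    (fun i hi hti => card_le_of_tIdeal_le i hti T (hT i hi))
  have := Fintype.ofFinite (Poly 𝒪 ⧸ i₁.a)
  choose rep hrep using i₁.q_surjective
  refine ⟨(Finset.univ.filter fun x : Poly 𝒪 ⧸ i₁.a => i₁.res x = 0).image rep, ?_, ?_⟩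
  · intro p hp
    obtain ⟨x, hx, rfl⟩ := Finset.mem_image.1 hp
    rw [Finset.mem_filter] at hx
    rw [← PIdeal.res_q i₁, hrep]
    exact hx.2
  · intro i hi p hp
    let i' : S.PIdeal := i.up (i.a ⊔ S.tIdeal) le_sup_left (sup_le i.le tIdeal_le)
    have hi' : Good 𝒟 i' := good_of_le h𝒟 (i := i) (j := i') le_sup_left hi
    have hle : i₁.a ≤ i.a ⊔ S.tIdeal := hmin i' hi' le_sup_right
    have hx : i₁.res (i₁.q p) = 0 := hp
    have hmem : rep (i₁.q p) ∈ (Finset.univ.filter fun x : Poly 𝒪 ⧸ i₁.a => i₁.res x = 0).image rep :=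
      Finset.mem_image.2 ⟨i₁.q p, Finset.mem_filter.2 ⟨Finset.mem_univ _, hx⟩, rfl⟩
    have hdiff : p - rep (i₁.q p) ∈ i₁.a := by
      rw [← Ideal.Quotient.eq]
      exact (hrep (i₁.q p)).symm
    have h2 := hle hdiff
    obtain ⟨α, hα, β, hβ, hαβ⟩ := Submodule.mem_sup.1 h2
    obtain ⟨γ, hγ, δ, hδ, hγδ⟩ := Submodule.mem_sup.1 hβ
    have e : p = rep (i₁.q p) + γ + δ + α := by
      rw [← hγδ] at hαβ
      linear_combination (-1 : Poly 𝒪) * hαβ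
    rw [e]
    refine Ideal.add_mem _ (Ideal.add_mem _ (Ideal.add_mem _ ?_ ?_) ?_) ?_
    · exact Ideal.mem_sup_left (Ideal.mem_sup_left (Ideal.mem_sup_left
        (Ideal.subset_span (Finset.mem_coe.2 hmem))))
    · exact Ideal.mem_sup_left (Ideal.mem_sup_left (Ideal.mem_sup_right hγ))
    · exact Ideal.mem_sup_left (Ideal.mem_sup_right hδ)
    · exact Ideal.mem_sup_right hα

end Setup

end Fermat.Agent.S53
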